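import Mathlib
import Fermat.Agent.CurveTorsion.Models

/-!
# `Pic⁰` is divisible over a countable algebraically closed field of characteristic zero

Over `ℂ` this follows from the exponential of the Jacobian; a countable field embeds in `ℂ`, and
both divisibility and finiteness of the `n`-torsion descend.
-/

noncomputable section

set_option autoImplicit false

namespace Fermat.Agent.MW

open AlgebraicCurve
open Fermat.Agent.FF Fermat.Agent.CurveTorsion
open scoped Classical Pointwise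

/-- `Pic⁰` of a function field over `ℂ` is divisible. -/
theorem exists_nsmul_eq_complex {F : Type*} [Field F] [Algebra ℂ F] [IsFunctionField ℂ F]
    (n : ℕ) (hn : n ≠ 0) (x : Pic0 ℂ F) : ∃ y, n • y = x := by
  obtain ⟨Ψ, hΨ⟩ := exists_hom_of_eventually_add (expLoc F) (expLoc_add (F := F))
  obtain ⟨R, hR⟩ := exists_bounded_preimage Ψ hΨ
  obtain ⟨v, -, rfl⟩ := hR x
  refine ⟨Ψ ((n : ℂ)⁻¹ • v), ?_⟩
  rw [← map_nsmul, ← Nat.cast_smul_eq_nsmul ℂ, smul_smul,
    mul_inv_cancel₀ (Nat.cast_ne_zero.mpr hn), one_smul]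

section Descent

variable {K₀ F₀ K F : Type*} [Field K₀] [Field F₀] [Field K] [Field F] [Algebra K₀ F₀]
  [Algebra K₀ K] [Algebra K F] [Algebra F₀ F] [Algebra K₀ F] [IsScalarTower K₀ K F]
  [IsScalarTower K₀ F₀ F] [IsAlgClosed K₀] [IsAlgClosed K] [IsFunctionField K₀ F₀]
  [IsFunctionField K F] [hext : IsConstExt F₀ K F]

include hext in
/-- Divisibility descends. -/
theorem exists_nsmul_eq_descend (n : ℕ) [Finite (Pic0.torsion K F n)]
    (h : ∀ x : Pic0 K F, ∃ y, n • y = x) (x : Pic0 K₀ F₀) : ∃ y, n • y = x := by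
  obtain ⟨y, hy⟩ := h (picExt K₀ F₀ K F x)
  let Y : Set (Pic0 K F) := {y' | n • y' = picExt K₀ F₀ K F x}
  have hY : Y.Finite := by
    refine (Set.finite_range fun t : Pic0.torsion K F n => y + t.1).subset fun y' hy' => ?_
    refine ⟨⟨y' - y, Pic0.mem_torsion.mpr ?_⟩, add_sub_cancel y y'⟩
    rw [natCast_zsmul, nsmul_sub, hy, show n • y' = _ from hy', sub_self]
  have hfixed : ∀ σ : K ≃ₐ[K₀] K,
      liftAut (F₀ := F₀) (F := F) σ • picExt K₀ F₀ K F x = picExt K₀ F₀ K F x := by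
    intro σ
    obtain ⟨⟨D, hD⟩, rfl⟩ := pic_surjective x
    have hd := Divisor.mem_degZero.mp hD
    rw [Function.comp_apply, picExt_pic hd, pic_smul _ (by rw [degree_extDiv, hd]), extDiv_smul]
  obtain ⟨z, rfl⟩ := mem_range_picExt_of_finite (K₀ := K₀) (F₀ := F₀) hY (fun σ y' hy' => by
    show n • (liftAut (F₀ := F₀) (F := F) σ • y') = _
    rw [← DistribSMul.toAddMonoidHom_apply (Pic0 K F), ← map_nsmul,
      show n • y' = _ from hy', DistribSMul.toAddMonoidHom_apply, hfixed]) hy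
  exact ⟨z, picExt_injective (by rw [map_nsmul]; exact hy)⟩

end Descent

/-- **`Pic⁰` is divisible.** -/
theorem exists_nsmul_eq_of_countable {K₀ F₀ : Type*} [Field K₀] [Field F₀] [Algebra K₀ F₀]
    [IsAlgClosed K₀] [CharZero K₀] [Countable K₀] [IsFunctionField K₀ F₀] (n : ℕ) (hn : n ≠ 0)
    (x₁ : Pic0 K₀ F₀) : ∃ y, n • y = x₁ := by
  obtain ⟨_, F, _, _, _, _, _, _, _, _⟩ := exists_complex_model (K₀ := K₀) (F₀ := F₀)
  have : Finite (Pic0.torsion ℂ F n) :=
    Nat.finite_of_card_ne_zero (natCard_torsion_complex (F := F) n hn ▸ pow_ne_zero _ hn)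
  exact exists_nsmul_eq_descend (K := ℂ) (F := F) n (exists_nsmul_eq_complex n hn) x₁

/-- The torsion is finite. -/
theorem finite_setOf_nsmul_eq_zero {K F : Type*} [Field K] [Field F] [Algebra K F] [IsAlgClosed K]
    [CharZero K] [IsFunctionField K F] (n : ℕ) (hn : n ≠ 0) :
    {c : Pic0 K F | n • c = 0}.Finite := by
  have : Finite (Pic0.torsion K F n) :=
    Nat.finite_of_card_ne_zero (natCard_torsion (K := K) (F := F) n hn ▸ pow_ne_zero _ hn)
  refine (Set.finite_range fun t : Pic0.torsion K F n => t.1).subset fun c hc => ?_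
  exact ⟨⟨c, Pic0.mem_torsion.mpr (by rw [natCast_zsmul]; exact hc)⟩, rfl⟩

end Fermat.Agent.MW
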