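import Fermat.Agent.MordellWeil.Weak
import Fermat.Agent.MordellWeil.Divisible
import Fermat.Agent.Kummer.Galois
import Mathlib.NumberTheory.Height.NumberField
import Mathlib.RingTheory.Noetherian.Basic

/-!
# Mordell–Weil for `J₀(N)` over `ℚ`

`fg_fixedPoints_jZero`: choose a number field fixing the base data and the `2`-torsion, then combine
weak Mordell–Weil (`finiteIndex_two`) with descent (`fg_fixedClasses`).
-/

set_option autoImplicit false
attribute [-instance] IsScalarTower.of_algHom

noncomputable section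

open AlgebraicCurve AlgebraicCurve.SemilinearAut ModularCurve Height NumberField
open scoped Pointwise

namespace Fermat.Agent.MW

open FF

local notation "Qbar" => AlgebraicClosure ℚ
local notation "Γ" => (AlgebraicClosure ℚ ≃ₐ[ℚ] AlgebraicClosure ℚ)

/-- The absolute values of a number field extend to every algebraically closed algebraic
extension. -/
theorem hasExtensions_numberField (k : Type*) [Field k] [NumberField k] (K : Type*) [Field K]
    [IsAlgClosed K] [Algebra k K] [Algebra.IsAlgebraic k K] : HasExtensions k K := by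
  rintro v (hv | hv)
  · obtain ⟨φ, rfl⟩ : IsInfinitePlace v := mem_multisetInfinitePlace.mp hv
    exact exists_extension_of_embedding φ fun x => rfl
  · refine exists_extension_of_completion (AdmissibleAbsValues.isNonarchimedean v hv) ?_
    obtain ⟨P, rfl⟩ : IsFinitePlace v := hv
    obtain ⟨x, hx, hx0⟩ := Submodule.exists_mem_ne_zero_of_ne_bot P.ne_bot
    refine ⟨(algebraMap (𝓞 k) k x)⁻¹, ?_⟩
    have h := (FinitePlace.norm_lt_one_iff_mem k P x).mpr hx
    rw [map_inv₀]
    have hne : algebraMap (𝓞 k) k x ≠ 0 :=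
      (map_ne_zero_iff _ (IsFractionRing.injective (𝓞 k) k)).mpr hx0
    exact (one_lt_inv₀ ((place (FinitePlace.embedding P)).pos hne)).mpr h

variable (N : ℕ) [NeZero N]

local notation "FN" => modularFunctionFieldBar N

/-- Every place is fixed at a finite level. -/
theorem exists_fixing_place (P : Place Qbar FN) :
    ∃ E : IntermediateField ℚ Qbar, FiniteDimensional ℚ E ∧ ∀ σ : Γ, (∀ x ∈ E, σ x = x) →
      arithmeticGalois (modularFunctionFieldFull N) σ • P = P := by
  obtain ⟨f, hneg, huniq⟩ := exists_ord_neg_unique P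
  obtain ⟨E, hE, hfix⟩ := Kummer.exists_fixing_field N f
  refine ⟨E, hE, fun σ hσ => ?_⟩
  by_contra hne
  have h := SemilinearAut.ord_smul (arithmeticGalois (modularFunctionFieldFull N) σ) P f
  rw [hfix σ hσ] at h
  have := huniq _ hne
  omega

/-- Every class is fixed at a finite level. -/
theorem exists_fixing_class (y : JZero N) :
    ∃ E : IntermediateField ℚ Qbar, FiniteDimensional ℚ E ∧ ∀ σ : Γ, (∀ x ∈ E, σ x = x) →
      arithmeticGalois (modularFunctionFieldFull N) σ • y = y := by
  classical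
  obtain ⟨x, rfl⟩ := Pic0.mk_surjective y
  choose E hE hfix using exists_fixing_place N
  have : ∀ P : (x : Divisor Qbar FN).support, FiniteDimensional ℚ (E P.1) := fun P => hE P.1
  refine ⟨⨆ P : (x : Divisor Qbar FN).support, E P.1,
    IntermediateField.finiteDimensional_iSup_of_finite, fun σ hσ => ?_⟩
  rw [pic0_smul_mk]
  refine congrArg Pic0.mk (Subtype.ext ?_)
  rw [coe_degZeroSMulHom, divisor_smul_def, Finsupp.mapDomain]
  conv_rhs => rw [← Finsupp.sum_single (x : Divisor Qbar FN)]
  refine Finsupp.sum_congr fun P hP => ?_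
  rw [hfix P σ fun a ha => hσ a
    (le_iSup (fun P : (x : Divisor Qbar FN).support => E P.1) ⟨P, hP⟩ ha)]

/-- **Mordell–Weil for `J₀(N)`.** -/
theorem fg_fixedPoints_jZero :
    AddGroup.FG ↥(FixedPoints.addSubgroup Γ (JZero N)) := by
  classical
  have : Infinite (Place Qbar FN) := CurveTorsion.infinite_places
  set d : ℕ := (max (rBound Qbar FN + 2) (2 * rGenus Qbar FN + 2)).toNat
  obtain ⟨O⟩ : Nonempty (Place Qbar FN) := inferInstance
  obtain ⟨s, hs⟩ := Infinite.exists_subset_card_eq (Place Qbar FN) (50 * (d + 1) + 2)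
  choose z hz0 hz using fun P : Place Qbar FN => exists_uniformizer P
  let B : Base Qbar FN :=
    { U := ⟨z, hz⟩
      O := O
      pool := s.erase O
      O_notMem := Finset.notMem_erase O s
      d := d
      bound_le := (le_max_left _ _).trans (Int.self_le_toNat _)
      genus_le := (le_max_right _ _).trans (Int.self_le_toNat _)
      card_pool := by
        have := Finset.pred_card_le_card_erase (s := s) (a := O)
        omega }
  have htfin : {c : JZero N | 2 • c = 0}.Finite := finite_setOf_nsmul_eq_zero 2 two_ne_zero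
  have := htfin.to_subtype
  choose EP hEP hfixP using exists_fixing_place N
  choose Ez hEz hfixz using fun b : Place Qbar FN => Kummer.exists_fixing_field N (z b)
  choose Ec hEc hfixc using exists_fixing_class N
  have : ∀ b : B.pool, FiniteDimensional ℚ ↥(EP b.1 ⊔ Ez b.1) := fun b =>
    have := hEP b.1; have := hEz b.1; IntermediateField.finiteDimensional_sup _ _
  have : ∀ c : {c : JZero N | 2 • c = 0}, FiniteDimensional ℚ (Ec c.1) := fun c => hEc c.1
  have := hEP O
  have : FiniteDimensional ℚ ↥(⨆ b : B.pool, EP b.1 ⊔ Ez b.1) :=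
    IntermediateField.finiteDimensional_iSup_of_finite
  have : FiniteDimensional ℚ ↥(⨆ c : {c : JZero N | 2 • c = 0}, Ec c.1) :=
    IntermediateField.finiteDimensional_iSup_of_finite
  set k : IntermediateField ℚ Qbar :=
    EP O ⊔ (⨆ b : B.pool, EP b.1 ⊔ Ez b.1) ⊔ ⨆ c : {c : JZero N | 2 • c = 0}, Ec c.1
  have : FiniteDimensional ℚ k := inferInstance
  have : NumberField k := ⟨⟩
  have : Algebra.IsAlgebraic k Qbar := Algebra.IsAlgebraic.tower_top (K := ℚ) k
  let res : (Qbar ≃ₐ[k] Qbar) →* Γ :=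
    MonoidHom.mk' (fun σ => σ.restrictScalars ℚ) fun _ _ => rfl
  let ρ : (Qbar ≃ₐ[k] Qbar) →* SemilinearAut Qbar FN :=
    (arithmeticGalois (modularFunctionFieldFull N)).comp res
  have hk : ∀ (σ : Qbar ≃ₐ[k] Qbar), ∀ x ∈ k, res σ x = x := fun σ x hx => σ.commutes ⟨x, hx⟩
  have hρ : ∀ σ a, baseAut (ρ σ) a = σ a := fun σ a => rfl
  have hfix : ∀ σ, B.Fixes (ρ σ) := fun σ => by
    refine ⟨hfixP O _ fun x hx => hk σ x ?_, fun b hb => hfixP b _ fun x hx => hk σ x ?_,
      fun b hb => hfixz b _ fun x hx => hk σ x ?_⟩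
    · exact le_sup_left (b := ⨆ c : {c : JZero N | 2 • c = 0}, Ec c.1)
        (le_sup_left (b := ⨆ b : B.pool, EP b.1 ⊔ Ez b.1) hx)
    · exact le_sup_left (b := ⨆ c : {c : JZero N | 2 • c = 0}, Ec c.1)
        (le_sup_right (a := EP O) (le_iSup (fun b : B.pool => EP b.1 ⊔ Ez b.1) ⟨b, hb⟩
          (le_sup_left (b := Ez b) hx)))
    · exact le_sup_left (b := ⨆ c : {c : JZero N | 2 • c = 0}, Ec c.1)
        (le_sup_right (a := EP O) (le_iSup (fun b : B.pool => EP b.1 ⊔ Ez b.1) ⟨b, hb⟩
          (le_sup_right (a := EP b) hx)))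
  have htfix : ∀ σ (c : JZero N), 2 • c = 0 → ρ σ • c = c := fun σ c hc =>
    hfixc c _ fun x hx => hk σ x
      (le_sup_right (a := EP O ⊔ ⨆ b : B.pool, EP b.1 ⊔ Ez b.1)
        (le_iSup (fun c : {c : JZero N | 2 • c = 0} => Ec c.1) ⟨c, hc⟩ hx))
  have hlev : ∀ y : JZero N, ∃ E₀ : IntermediateField ℚ Qbar, FiniteDimensional ℚ E₀ ∧
      ∀ σ : Qbar ≃ₐ[k] Qbar, (∀ x ∈ E₀, σ x = x) → ρ σ • y = y := fun y =>
    ⟨Ec y, hEc y, fun σ hσ => hfixc y _ hσ⟩
  have hdiv : (nsmulAddMonoidHom (α := JZero N) 2).range.FiniteIndex := by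
    have : Countable Qbar := Cardinal.mk_le_aleph0_iff.mp
      ((Algebra.IsAlgebraic.cardinalMk_le_max ℚ Qbar).trans (max_le Cardinal.mk_le_aleph0 le_rfl))
    rw [AddMonoidHom.range_eq_top.mpr fun x => exists_nsmul_eq_of_countable 2 two_ne_zero x]
    infer_instance
  have hweak := finiteIndex_two B ρ hρ hfix hdiv htfin htfix hlev
  have hfg : AddGroup.FG (fixedClasses ⇑ρ) :=
    fg_fixedClasses (hasExtensions_numberField k Qbar) B ρ hρ hfix hweak
  have : Module.Finite ℤ (fixedClasses ⇑ρ) := Module.Finite.iff_addGroup_fg.mpr hfg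
  let incl : FixedPoints.addSubgroup Γ (JZero N) →+ fixedClasses ⇑ρ :=
    { toFun := fun c => ⟨c.1, fun σ => c.2 (res σ)⟩
      map_zero' := rfl
      map_add' := fun _ _ => rfl }
  have hincl : Function.Injective incl := fun a b h =>
    Subtype.ext (congrArg (fun c : fixedClasses ⇑ρ => c.1) h)
  have : Module.Finite ℤ (FixedPoints.addSubgroup Γ (JZero N)) :=
    Module.Finite.of_injective incl.toIntLinearMap hincl
  exact Module.Finite.iff_addGroup_fg.mp inferInstance

end Fermat.Agent.MW
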