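import Fermat.Agent.MordellWeil.Eval

/-!
# Base-point-free pencils

In large degree `L(A) * L(B)` spans `L(A + B)` (`span_mul_eq`).
-/

set_option autoImplicit false

noncomputable section

open AlgebraicCurve

namespace Fermat.Agent.MW

open FF

variable {K F : Type*} [Field K] [Field F] [Algebra K F] [IsFunctionField K F] [IsAlgClosed K]
variable (U : Unif K F)

/-- A function in `L(D)` generating at all of finitely many places. -/
theorem exists_forall_evL_ne_zero (D : Divisor K F) (S : Finset (Place K F))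
    (h : rBound K F + 1 ≤ Divisor.degree D) :
    ∃ f : riemannRochSpace D, ∀ P ∈ S, evL U D P f ≠ 0 := by
  classical
  induction S using Finset.induction with
  | empty => exact ⟨0, by simp⟩
  | insert a S ha ih =>
    obtain ⟨f, hf⟩ := ih
    obtain ⟨g, hg⟩ := exists_evL_ne_zero U D a h
    obtain ⟨c, hc⟩ := Infinite.exists_notMem_finset
      ((insert a S).image fun P => -evL U D P f / evL U D P g)
    refine ⟨f + c • g, fun P hP h0 => ?_⟩
    rw [map_add, map_smul, smul_eq_mul] at h0
    by_cases hgP : evL U D P g = 0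
    · rcases Finset.mem_insert.mp hP with rfl | hP'
      · exact hg hgP
      · exact hf P hP' (by simpa [hgP] using h0)
    · refine hc (Finset.mem_image.mpr ⟨P, hP, ?_⟩)
      rw [div_eq_iff hgP]
      linear_combination (-1 : K) * h0

omit [IsFunctionField K F] [IsAlgClosed K] in
theorem mul_mem_riemannRochSpace {A B : Divisor K F} {a b : F} (ha : a ∈ riemannRochSpace A)
    (hb : b ∈ riemannRochSpace B) : a * b ∈ riemannRochSpace (A + B) := by
  rw [mem_riemannRochSpace] at ha hb ⊢
  intro P
  simpa [neg_add, add_comm] using mul_mem_ordGE P (ha P) (hb P)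

omit [IsAlgClosed K] [IsFunctionField K F] in
theorem finite_setOf_ord_add_ne_zero [HasPrincipalDivisors K F] (D : Divisor K F) {f : F}
    (hf : f ≠ 0) : {P : Place K F | P.ord f + D P ≠ 0}.Finite := by
  obtain ⟨E, hE, -⟩ := HasPrincipalDivisors.exists_divisor (K := K) f hf
  classical
  refine ((E.support ∪ D.support).finite_toSet).subset fun P hP => ?_
  simp only [Finset.coe_union, Set.mem_union, Finset.mem_coe, Finsupp.mem_support_iff, hE]
  by_contra! hne
  exact hP (by rw [hne.1, hne.2, add_zero])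

/-- `L(D)` is base-point-free: `t * L(D) ⊆ L(E)` forces `t ∈ L(E - D)`. -/
theorem mem_of_forall_mul_mem {D E : Divisor K F} (h : rBound K F + 1 ≤ Divisor.degree D)
    {t : F} (ht : ∀ a ∈ riemannRochSpace D, t * a ∈ riemannRochSpace E) :
    t ∈ riemannRochSpace (E - D) := by
  obtain ⟨U⟩ : Nonempty (Unif K F) := inferInstance
  rw [mem_riemannRochSpace]
  intro P
  rcases eq_or_ne t 0 with rfl | ht0
  · exact zero_mem _
  obtain ⟨a, ha⟩ := exists_evL_ne_zero U D P h
  have ha' := mem_riemannRochSpace.mp a.2 P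
  have hne : (a : F) ≠ 0 := fun h0 => ha (by rw [evL_apply, h0, evAt_zero])
  have hord : P.ord (a : F) = -D P := by
    rw [mem_ordGE_of_ne_zero P hne] at ha'
    rw [evL_apply, Ne, evAt_eq_zero_iff U (mem_riemannRochSpace.mp a.2 P),
      mem_ordGE_of_ne_zero P hne] at ha
    omega
  have := mem_riemannRochSpace.mp (ht a a.2) P
  rw [mem_ordGE_of_ne_zero P (mul_ne_zero ht0 hne), P.ord_mul ht0 hne] at this
  rw [mem_ordGE_of_ne_zero P ht0]
  simp only [Finsupp.sub_apply]
  omega

/-- `L(A) * L(B)` spans `L(A + B)` in large degree. -/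
theorem span_mul_eq {A B : Divisor K F} (hA : rBound K F + 1 ≤ Divisor.degree A)
    (hB : rBound K F ≤ Divisor.degree B - Divisor.degree A)
    (hA0 : 0 ≤ Divisor.degree A) :
    Submodule.span K {x : F | ∃ a ∈ riemannRochSpace A, ∃ b ∈ riemannRochSpace B, a * b = x}
      = riemannRochSpace (A + B) := by
  classical
  obtain ⟨U⟩ : Nonempty (Unif K F) := inferInstance
  refine le_antisymm (Submodule.span_le.mpr ?_) ?_
  · rintro x ⟨a, ha, b, hb, rfl⟩
    exact mul_mem_riemannRochSpace ha hb
  obtain ⟨v⟩ := (instNonemptyPlace : Nonempty (Place K F))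
  obtain ⟨u₀, hu₀⟩ := exists_evL_ne_zero U A v hA
  have h0 : (u₀ : F) ≠ 0 := fun h => hu₀ (by rw [evL_apply, h, evAt_zero])
  obtain ⟨u₁, hu₁⟩ := exists_forall_evL_ne_zero U A
    (finite_setOf_ord_add_ne_zero A h0).toFinset hA
  let φ : (riemannRochSpace B × riemannRochSpace B) →ₗ[K] riemannRochSpace (A + B) :=
    ((LinearMap.mulLeft K (u₀ : F)).comp
        ((riemannRochSpace B).subtype.comp (LinearMap.fst K _ _))
      + (LinearMap.mulLeft K (u₁ : F)).comp
        ((riemannRochSpace B).subtype.comp (LinearMap.snd K _ _))).codRestrict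
      (riemannRochSpace (A + B)) fun p =>
        add_mem (mul_mem_riemannRochSpace u₀.2 p.1.2) (mul_mem_riemannRochSpace u₁.2 p.2.2)
  have hker_mem : ∀ p ∈ LinearMap.ker φ, (p.2 : F) / (u₀ : F) ∈ riemannRochSpace (B - A) := by
    intro p hp
    have hp' : (u₀ : F) * (p.1 : F) + (u₁ : F) * (p.2 : F) = 0 := congrArg Subtype.val hp
    rw [mem_riemannRochSpace]
    intro P
    rcases eq_or_ne (p.2 : F) 0 with hq | hq
    · rw [hq, zero_div]; exact zero_mem _
    rw [mem_ordGE_of_ne_zero P (div_ne_zero hq h0), ord_div P hq h0]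
    have hb2 := mem_riemannRochSpace.mp p.2.2 P
    rw [mem_ordGE_of_ne_zero P hq] at hb2
    simp only [Finsupp.sub_apply]
    by_cases hP : P.ord (u₀ : F) + A P = 0
    · omega
    · have hev := hu₁ P ((finite_setOf_ord_add_ne_zero A h0).mem_toFinset.mpr hP)
      have h1 : (u₁ : F) ≠ 0 := fun h => hev (by rw [evL_apply, h, evAt_zero])
      have hord : P.ord (u₁ : F) = -A P := by
        have hm := mem_riemannRochSpace.mp u₁.2 P
        rw [evL_apply, Ne, evAt_eq_zero_iff U hm, mem_ordGE_of_ne_zero P h1] at hev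
        rw [mem_ordGE_of_ne_zero P h1] at hm
        omega
      have he : (u₁ : F) * (p.2 : F) = -((u₀ : F) * (p.1 : F)) := eq_neg_of_add_eq_zero_right hp'
      have hp1 : (p.1 : F) ≠ 0 := by
        intro h
        rw [h, mul_zero, neg_zero] at he
        exact mul_ne_zero h1 hq he
      have hb1 := mem_riemannRochSpace.mp p.1.2 P
      rw [mem_ordGE_of_ne_zero P hp1] at hb1
      have := congrArg P.ord he
      rw [P.ord_mul h1 hq, ord_neg, P.ord_mul h0 hp1] at this
      omega
  let ψ : LinearMap.ker φ →ₗ[K] riemannRochSpace (B - A) :=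
    { toFun := fun p => ⟨(p.1.2 : F) / (u₀ : F), hker_mem p.1 p.2⟩
      map_add' := fun p q => Subtype.ext (add_div _ _ _)
      map_smul' := fun c p => Subtype.ext (smul_div_assoc c _ _) }
  have hψ : Function.Injective ψ := by
    intro p q hpq
    have h2 : (p.1.2 : F) = q.1.2 := (div_left_inj' h0).mp (congrArg Subtype.val hpq)
    have hp' : (u₀ : F) * (p.1.1 : F) + (u₁ : F) * (p.1.2 : F) = 0 := congrArg Subtype.val p.2
    have hq' : (u₀ : F) * (q.1.1 : F) + (u₁ : F) * (q.1.2 : F) = 0 := congrArg Subtype.val q.2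
    have h1 : (p.1.1 : F) = q.1.1 :=
      mul_left_cancel₀ h0 (by linear_combination hp' - hq' - (u₁ : F) * h2)
    exact Subtype.ext (Prod.ext (Subtype.ext h1) (Subtype.ext h2))
  have hdim : ell (A + B) ≤ Module.finrank K (LinearMap.range φ) := by
    have h1 := LinearMap.finrank_range_add_finrank_ker φ
    have h2 : Module.finrank K (LinearMap.ker φ) ≤ ell (B - A) :=
      LinearMap.finrank_le_finrank_of_injective hψ
    rw [Module.finrank_prod] at h1
    change _ = ell B + ell B at h1
    have e1 := ell_eq (D := B) (by omega)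
    have e2 := ell_eq (D := B - A) (by rw [map_sub]; omega)
    have e3 := ell_eq (D := A + B) (by rw [map_add]; omega)
    rw [map_sub] at e2
    rw [map_add] at e3
    omega
  have htop : LinearMap.range φ = ⊤ := by
    refine Submodule.eq_top_of_finrank_eq (le_antisymm (Submodule.finrank_le _) hdim)
  intro f hf
  obtain ⟨p, hp⟩ := LinearMap.range_eq_top.mp htop ⟨f, hf⟩
  rw [← show (u₀ : F) * (p.1 : F) + (u₁ : F) * (p.2 : F) = f from congrArg Subtype.val hp]
  exact add_mem (Submodule.subset_span ⟨u₀, u₀.2, p.1, p.1.2, rfl⟩)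
    (Submodule.subset_span ⟨u₁, u₁.2, p.2, p.2.2, rfl⟩)

end Fermat.Agent.MW
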