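import Fermat.Agent.MordellWeil.Bound
import Fermat.Agent.MordellWeil.Pencil

/-!
# A base point, a pool of auxiliary places, and the norms they define

`poolNorm v f` is the maximum of `v (f b)` over the pool; `nu v m P` is the norm of the evaluation
functional at `P` on `L(m·O)`.
-/

set_option autoImplicit false

noncomputable section

open AlgebraicCurve

namespace Fermat.Agent.MW

open FF

/-- Auxiliary data: uniformisers, a base place `O`, a pool of other places, a working degree. -/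
structure Base (K F : Type*) [Field K] [Field F] [Algebra K F] [FF.IsFunctionField K F]
    [IsAlgClosed K] where
  /-- uniformisers -/
  U : Unif K F
  /-- the base place -/
  O : Place K F
  /-- the pool -/
  pool : Finset (Place K F)
  O_notMem : O ∉ pool
  /-- the working degree -/
  d : ℕ
  bound_le : rBound K F + 2 ≤ (d : ℤ)
  genus_le : 2 * rGenus K F + 2 ≤ (d : ℤ)
  card_pool : 50 * (d + 1) < pool.card

variable {K F : Type*} [Field K] [Field F] [Algebra K F] [IsFunctionField K F] [IsAlgClosed K]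
variable (B : Base K F)

namespace Base

/-- `m·O`. -/
def inf (m : ℤ) : Divisor K F := Finsupp.single B.O m

@[simp]
theorem degree_inf (m : ℤ) : Divisor.degree (B.inf m) = m := degree_single_eq B.O m

theorem inf_add (m n : ℤ) : B.inf (m + n) = B.inf m + B.inf n := Finsupp.single_add _ _ _

theorem inf_pool (m : ℤ) {b : Place K F} (hb : b ∈ B.pool) : B.inf m b = 0 :=
  Finsupp.single_eq_of_ne fun h => B.O_notMem (h ▸ hb)

theorem pool_nonempty : B.pool.Nonempty :=
  Finset.card_pos.mp (lt_of_le_of_lt (Nat.zero_le _) B.card_pool)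

/-- The largest value on the pool. -/
def poolNorm (v : AbsoluteValue K ℝ) (f : F) : ℝ :=
  B.pool.sup' B.pool_nonempty fun b => v (evAt B.U 0 b f)

theorem le_poolNorm (v : AbsoluteValue K ℝ) (f : F) {b : Place K F} (hb : b ∈ B.pool) :
    v (evAt B.U 0 b f) ≤ B.poolNorm v f :=
  Finset.le_sup' (fun b => v (evAt B.U 0 b f)) hb

theorem poolNorm_nonneg (v : AbsoluteValue K ℝ) (f : F) : 0 ≤ B.poolNorm v f := by
  obtain ⟨b, hb⟩ := B.pool_nonempty
  exact (v.nonneg _).trans (B.le_poolNorm v f hb)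

theorem exists_poolNorm_eq (v : AbsoluteValue K ℝ) (f : F) :
    ∃ b ∈ B.pool, B.poolNorm v f = v (evAt B.U 0 b f) :=
  Finset.exists_mem_eq_sup' B.pool_nonempty _

theorem poolNorm_le (v : AbsoluteValue K ℝ) (f : F) {c : ℝ}
    (h : ∀ b ∈ B.pool, v (evAt B.U 0 b f) ≤ c) : B.poolNorm v f ≤ c :=
  Finset.sup'_le _ _ h

theorem mem_ordGE_pool {m : ℤ} {f : F} (hf : f ∈ riemannRochSpace (B.inf m)) {b : Place K F}
    (hb : b ∈ B.pool) : f ∈ ordGE b (-0) := by
  simpa [B.inf_pool m hb] using mem_riemannRochSpace.mp hf b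

/-- A function in `L(m·O)` vanishing at more than `m` pool places is zero. -/
theorem eq_zero_of_evAt_eq_zero {m : ℕ} {f : F} (hf : f ∈ riemannRochSpace (B.inf m))
    {S : Finset (Place K F)} (hS : S ⊆ B.pool) (hcard : m < S.card)
    (h : ∀ b ∈ S, evAt B.U 0 b f = 0) : f = 0 := by
  classical
  by_contra hf0
  set E : Divisor K F := B.inf m - ∑ b ∈ S, Finsupp.single b (1 : ℤ)
  have hmem : f ∈ riemannRochSpace E := by
    rw [mem_riemannRochSpace]
    intro P
    have h1 := mem_riemannRochSpace.mp hf P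
    by_cases hP : P ∈ S
    · have h2 := h P hP
      rw [evAt_eq_zero_iff B.U (by simpa [B.inf_pool m (hS hP)] using h1)] at h2
      simpa [E, Finsupp.single_apply, hP, B.inf_pool (m : ℤ) (hS hP), Finsupp.finsetSum_apply]
        using h2
    · simpa [E, Finsupp.single_apply, hP, Finsupp.finsetSum_apply] using h1
  have hdeg : Divisor.degree E < 0 := by
    simp only [E, map_sub, degree_inf, map_sum, degree_single_eq, Finset.sum_const, nsmul_one]
    omega
  have h0 := ell_eq_zero_of_degree_neg hdeg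
  rw [ell, Submodule.finrank_eq_zero] at h0
  rw [h0, Submodule.mem_bot] at hmem
  exact hf0 hmem

/-- Values at any `m+1` pool places control the pool norm. -/
theorem exists_bd_poolNorm_le (m : ℕ) :
    ∃ C, IsBd C ∧ ∀ (v : AbsoluteValue K ℝ) (f : F), f ∈ riemannRochSpace (B.inf m) →
      ∀ S ⊆ B.pool, m < S.card → ∀ {M : ℝ}, 0 ≤ M → (∀ b ∈ S, v (evAt B.U 0 b f) ≤ M) →
        B.poolNorm v f ≤ C v * M := by
  classical
  have h : ∀ S : Finset (Place K F), ∃ C, IsBd C ∧
      (S ⊆ B.pool → m < S.card → ∀ (v : AbsoluteValue K ℝ) (f : F),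
        f ∈ riemannRochSpace (B.inf m) → ∀ {M : ℝ}, 0 ≤ M →
        (∀ b ∈ S, v (evAt B.U 0 b f) ≤ M) → B.poolNorm v f ≤ C v * M) := by
    intro S
    by_cases hS : S ⊆ B.pool ∧ m < S.card
    · obtain ⟨hSp, hcard⟩ := hS
      let e : riemannRochSpace (B.inf m) →ₗ[K] (S → K) :=
        LinearMap.pi fun b => evL B.U (B.inf m) b
      have he : ∀ (f : riemannRochSpace (B.inf m)) (b : S), e f b = evAt B.U 0 (b : Place K F) f :=
        fun f b => by
          show evAt B.U (B.inf m b) b (f : F) = _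
          rw [B.inf_pool _ (hSp b.2)]
      have hinj : Function.Injective e := by
        refine LinearMap.ker_eq_bot.mp (LinearMap.ker_eq_bot'.mpr fun f hf => Subtype.ext ?_)
        exact B.eq_zero_of_evAt_eq_zero f.2 hSp hcard fun b hb => by
          rw [← he f ⟨b, hb⟩, hf]; rfl
      obtain ⟨e', he'⟩ := e.exists_leftInverse_of_injective (LinearMap.ker_eq_bot.mpr hinj)
      let q : (S → K) →ₗ[K] (B.pool → K) :=
        (LinearMap.pi fun b : B.pool => evL B.U (B.inf m) b).comp e'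
      obtain ⟨C, hC, hC'⟩ := exists_bd_linearMap q
      refine ⟨C, hC, fun _ _ v f hf M hM hfM => B.poolNorm_le v f fun b hb => ?_⟩
      have := hC' v (e ⟨f, hf⟩) hM (fun s => by rw [he]; exact hfM s s.2) ⟨b, hb⟩
      have heq : e' (e ⟨f, hf⟩) = ⟨f, hf⟩ := LinearMap.congr_fun he' ⟨f, hf⟩
      simp only [q, LinearMap.comp_apply, heq, LinearMap.pi_apply] at this
      rwa [evL_apply, B.inf_pool _ hb] at this
    · exact ⟨_, IsBd.one, fun h1 h2 => absurd ⟨h1, h2⟩ hS⟩
  choose C hC hC' using h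
  refine ⟨fun v => ∏ S ∈ B.pool.powerset, C S v, IsBd.prod _ fun S _ => hC S,
    fun v f hf S hS hcard M hM hfM => (hC' S hS hcard v f hf hM hfM).trans ?_⟩
  refine mul_le_mul_of_nonneg_right ?_ hM
  show C S v ≤ ∏ T ∈ B.pool.powerset, C T v
  rw [← Finset.mul_prod_erase _ _ (Finset.mem_powerset.mpr hS)]
  exact le_mul_of_one_le_right ((hC S).nonneg v)
    ((IsBd.prod (B.pool.powerset.erase S) fun T _ => hC T).one_le v)

open Classical in
/-- The places of the pool where `f` is small. -/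
def smallSet (v : AbsoluteValue K ℝ) (f : F) (C : ℝ) : Finset (Place K F) :=
  B.pool.filter fun b => C * v (evAt B.U 0 b f) < B.poolNorm v f

theorem le_of_notMem_smallSet {v : AbsoluteValue K ℝ} {f : F} {C : ℝ} {b : Place K F}
    (hb : b ∈ B.pool) (h : b ∉ B.smallSet v f C) :
    B.poolNorm v f ≤ C * v (evAt B.U 0 b f) := by
  classical
  simpa [smallSet, hb] using h

/-- A function in `L(m·O)` is small at no more than `m` places of the pool. -/
theorem exists_bd_smallSet (m : ℕ) :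
    ∃ C, IsBd C ∧ ∀ (v : AbsoluteValue K ℝ) (f : F), f ∈ riemannRochSpace (B.inf m) →
      (B.smallSet v f (C v)).card ≤ m := by
  classical
  obtain ⟨C, hC, hC'⟩ := B.exists_bd_poolNorm_le m
  refine ⟨C, hC, fun v f hf => ?_⟩
  by_contra! hcard
  obtain ⟨b₀, hb₀, hmax⟩ := (B.smallSet v f (C v)).exists_max_image
    (fun b => v (evAt B.U 0 b f)) (Finset.card_pos.mp (lt_of_le_of_lt (Nat.zero_le _) hcard))
  have h1 := hC' v f hf _ (Finset.filter_subset _ _) hcard (v.nonneg _) hmax
  have h2 := (Finset.mem_filter.mp hb₀).2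
  linarith

theorem poolNorm_pos (v : AbsoluteValue K ℝ) {m : ℕ} (hm : m < B.pool.card) {f : F}
    (hf : f ∈ riemannRochSpace (B.inf m)) (hf0 : f ≠ 0) : 0 < B.poolNorm v f := by
  refine lt_of_le_of_ne (B.poolNorm_nonneg v f) fun h => hf0 ?_
  refine B.eq_zero_of_evAt_eq_zero hf le_rfl hm fun b hb => ?_
  refine (v.eq_zero).mp (le_antisymm ?_ (v.nonneg _))
  rw [h]
  exact B.le_poolNorm v f hb

/-- Gauss's lemma. -/
theorem exists_bd_gauss (m n : ℕ) (h : m + n < B.pool.card) :
    ∃ C, IsBd C ∧ ∀ (v : AbsoluteValue K ℝ) (f g : F), f ∈ riemannRochSpace (B.inf m) →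
      g ∈ riemannRochSpace (B.inf n) →
      B.poolNorm v f * B.poolNorm v g ≤ C v * B.poolNorm v (f * g) := by
  classical
  obtain ⟨C₁, hC₁, hC₁'⟩ := B.exists_bd_smallSet m
  obtain ⟨C₂, hC₂, hC₂'⟩ := B.exists_bd_smallSet n
  refine ⟨fun v => C₁ v * C₂ v, hC₁.mul hC₂, fun v f g hf hg => ?_⟩
  obtain ⟨b, hb, hbn⟩ : ∃ b ∈ B.pool, b ∉ B.smallSet v f (C₁ v) ∪ B.smallSet v g (C₂ v) := by
    refine Finset.exists_mem_notMem_of_card_lt_card ?_
    exact (Finset.card_union_le _ _).trans_lt (by have := hC₁' v f hf; have := hC₂' v g hg; omega)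
  simp only [Finset.mem_union, not_or] at hbn
  calc B.poolNorm v f * B.poolNorm v g
      ≤ (C₁ v * v (evAt B.U 0 b f)) * (C₂ v * v (evAt B.U 0 b g)) :=
        mul_le_mul (B.le_of_notMem_smallSet hb hbn.1) (B.le_of_notMem_smallSet hb hbn.2)
          (B.poolNorm_nonneg v g) (mul_nonneg (hC₁.nonneg v) (v.nonneg _))
    _ = C₁ v * C₂ v * v (evAt B.U 0 b (f * g)) := by
        have := evAt_mul B.U (B.mem_ordGE_pool hf hb) (B.mem_ordGE_pool hg hb)
        rw [zero_add] at this
        rw [this, map_mul]; ring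
    _ ≤ _ := mul_le_mul_of_nonneg_left (B.le_poolNorm v _ hb)
        (mul_nonneg (hC₁.nonneg v) (hC₂.nonneg v))

/-- A basis of `L(m·O)`. -/
def infBasis (m : ℤ) : Module.Basis (Fin (ell (B.inf m))) K (riemannRochSpace (B.inf m)) :=
  Module.finBasis K _

/-- The norm of evaluation at `P` on `L(m·O)`. -/
def nu (v : AbsoluteValue K ℝ) (m : ℤ) (P : Place K F) : ℝ :=
  ⨆ s, v (evL B.U (B.inf m) P (B.infBasis m s))

theorem le_nu (v : AbsoluteValue K ℝ) (m : ℤ) (P : Place K F) (s : Fin (ell (B.inf m))) :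
    v (evL B.U (B.inf m) P (B.infBasis m s)) ≤ B.nu v m P :=
  Finite.le_ciSup (fun s => v (evL B.U (B.inf m) P (B.infBasis m s))) s

theorem nu_nonneg (v : AbsoluteValue K ℝ) (m : ℤ) (P : Place K F) : 0 ≤ B.nu v m P :=
  Real.iSup_nonneg fun _ => v.nonneg _

theorem nu_pos (v : AbsoluteValue K ℝ) {m : ℤ} (hm : rBound K F + 1 ≤ m) (P : Place K F) :
    0 < B.nu v m P := by
  refine lt_of_le_of_ne (B.nu_nonneg v m P) fun h => ?_
  obtain ⟨f, hf⟩ := exists_evL_ne_zero B.U (B.inf m) P (by simpa using hm)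
  apply hf
  rw [← (B.infBasis m).sum_repr f, map_sum]
  refine Finset.sum_eq_zero fun s _ => ?_
  have h0 : evL B.U (B.inf m) P (B.infBasis m s) = 0 :=
    (v.eq_zero).mp (le_antisymm ((B.le_nu v m P s).trans h.symm.le) (v.nonneg _))
  rw [map_smul, h0, smul_zero]

/-- Coordinates are bounded by the pool norm. -/
theorem exists_bd_repr (m : ℕ) (hm : m < B.pool.card) :
    ∃ C, IsBd C ∧ ∀ (v : AbsoluteValue K ℝ) (f : riemannRochSpace (B.inf m)) s,
      v ((B.infBasis m).repr f s) ≤ C v * B.poolNorm v (f : F) := by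
  classical
  let e : riemannRochSpace (B.inf m) →ₗ[K] (B.pool → K) :=
    LinearMap.pi fun b => evL B.U (B.inf m) b
  have he : ∀ f (b : B.pool), e f b = evAt B.U 0 (b : Place K F) (f : F) := fun f b => by
    show evAt B.U (B.inf m b) b (f : F) = _
    rw [B.inf_pool _ b.2]
  have hinj : Function.Injective e := by
    refine LinearMap.ker_eq_bot.mp (LinearMap.ker_eq_bot'.mpr fun f hf => Subtype.ext ?_)
    exact B.eq_zero_of_evAt_eq_zero f.2 le_rfl hm fun b hb => by rw [← he f ⟨b, hb⟩, hf]; rfl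
  obtain ⟨e', he'⟩ := e.exists_leftInverse_of_injective (LinearMap.ker_eq_bot.mpr hinj)
  obtain ⟨C, hC, hC'⟩ := exists_bd_linearMap
    ((B.infBasis m).equivFun.toLinearMap.comp e')
  refine ⟨C, hC, fun v f s => ?_⟩
  have := hC' v (e f) (B.poolNorm_nonneg v (f : F))
    (fun b => by rw [he]; exact B.le_poolNorm v _ b.2) s
  rwa [LinearMap.comp_apply, show e' (e f) = f from LinearMap.congr_fun he' f] at this

/-- Evaluation on `L(m·O)` is bounded by the pool norm times `nu`. -/
theorem exists_bd_evL_le (m : ℕ) (hm : m < B.pool.card) :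
    ∃ C, IsBd C ∧ ∀ (v : AbsoluteValue K ℝ) (f : riemannRochSpace (B.inf m)) (P : Place K F),
      v (evL B.U (B.inf m) P f) ≤ C v * B.poolNorm v (f : F) * B.nu v m P := by
  classical
  obtain ⟨C, hC, hC'⟩ := B.exists_bd_repr m hm
  refine ⟨fun v => archN v (Fintype.card (Fin (ell (B.inf m)))) * C v,
    (IsBd.archN_bd _).mul hC, fun v f P => ?_⟩
  conv_lhs => rw [← (B.infBasis m).sum_repr f, map_sum]
  rw [show archN v (Fintype.card (Fin (ell (B.inf m)))) * C v * B.poolNorm v (f : F) * B.nu v m P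
    = archN v (Fintype.card (Fin (ell (B.inf m)))) *
      (C v * B.poolNorm v (f : F) * B.nu v m P) by ring]
  refine sum_le_archN_univ v _ (mul_nonneg (mul_nonneg (hC.nonneg v) (B.poolNorm_nonneg v _))
    (B.nu_nonneg v m P)) fun s => ?_
  rw [map_smul, smul_eq_mul, map_mul]
  exact mul_le_mul (hC' v f s) (B.le_nu v m P s) (v.nonneg _)
    (mul_nonneg (hC.nonneg v) (B.poolNorm_nonneg v _))

theorem mul_mem_inf {m n : ℤ} {f g : F} (hf : f ∈ riemannRochSpace (B.inf m))
    (hg : g ∈ riemannRochSpace (B.inf n)) : f * g ∈ riemannRochSpace (B.inf (m + n)) :=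
  (B.inf_add m n).symm ▸ mul_mem_riemannRochSpace hf hg

theorem evL_mul {m n : ℤ} (P : Place K F) (f : riemannRochSpace (B.inf m))
    (g : riemannRochSpace (B.inf n)) :
    evL B.U (B.inf (m + n)) P ⟨f * g, B.mul_mem_inf f.2 g.2⟩
      = evL B.U (B.inf m) P f * evL B.U (B.inf n) P g := by
  simp only [evL_apply]
  rw [B.inf_add, Finsupp.add_apply]
  exact evAt_mul B.U (mem_riemannRochSpace.mp f.2 P) (mem_riemannRochSpace.mp g.2 P)

/-- `nu m * nu n ≤ C * nu (m + n)`. -/
theorem exists_bd_nu_mul_le (m n : ℤ) :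
    ∃ C, IsBd C ∧ ∀ (v : AbsoluteValue K ℝ) (P : Place K F),
      B.nu v m P * B.nu v n P ≤ C v * B.nu v (m + n) P := by
  classical
  let e : Fin (ell (B.inf m)) → Fin (ell (B.inf n)) → riemannRochSpace (B.inf (m + n)) := fun s t =>
    ⟨(B.infBasis m s : F) * (B.infBasis n t : F),
      B.mul_mem_inf (B.infBasis m s).2 (B.infBasis n t).2⟩
  let l : List K := ((Finset.univ : Finset (Fin (ell (B.inf m)) × Fin (ell (B.inf n)) ×
      Fin (ell (B.inf (m + n))))).image
        fun p => (B.infBasis (m + n)).repr (e p.1 p.2.1) p.2.2).toList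
  let N : ℕ := Fintype.card (Fin (ell (B.inf (m + n))))
  refine ⟨fun v => archN v N * coeffSize v l, (IsBd.archN_bd _).mul (IsBd.coeffSize_bd _),
    fun v P => ?_⟩
  have h0 : 0 ≤ archN v N * coeffSize v l * B.nu v (m + n) P :=
    mul_nonneg (mul_nonneg (archN_pos v N).le (zero_le_one.trans (one_le_coeffSize v l)))
      (B.nu_nonneg v _ P)
  have key : ∀ s t, v (evL B.U (B.inf m) P (B.infBasis m s)) *
      v (evL B.U (B.inf n) P (B.infBasis n t)) ≤ archN v N * coeffSize v l * B.nu v (m + n) P := by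
    intro s t
    rw [← map_mul, ← B.evL_mul P (B.infBasis m s) (B.infBasis n t), mul_assoc]
    conv_lhs => rw [show (⟨_, B.mul_mem_inf (B.infBasis m s).2 (B.infBasis n t).2⟩ :
        riemannRochSpace (B.inf (m + n))) = e s t from rfl,
      ← (B.infBasis (m + n)).sum_repr (e s t), map_sum]
    refine sum_le_archN_univ v _ (mul_nonneg (zero_le_one.trans (one_le_coeffSize v l))
      (B.nu_nonneg v _ P)) fun w => ?_
    rw [map_smul, smul_eq_mul, map_mul]
    exact mul_le_mul (le_coeffSize_of_mem v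
      (Finset.mem_toList.mpr (Finset.mem_image.mpr ⟨(s, t, w), Finset.mem_univ _, rfl⟩)))
      (B.le_nu v _ P w) (v.nonneg _) (zero_le_one.trans (one_le_coeffSize v l))
  rw [nu, Real.iSup_mul_of_nonneg (B.nu_nonneg v n P)]
  refine Real.iSup_le (fun s => ?_) h0
  rw [nu, Real.mul_iSup_of_nonneg (v.nonneg _)]
  exact Real.iSup_le (fun t => key s t) h0

end Base

end Fermat.Agent.MW
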