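import Mathlib.RingTheory.Nullstellensatz
import Mathlib.Algebra.Order.Ring.IsNonarchimedean
import Mathlib.Algebra.Order.AbsoluteValue.Basic
import Mathlib.Analysis.Normed.Field.Basic
import Mathlib.LinearAlgebra.Matrix.ToLin

/-!
# Bounds uniform in an absolute value

A function `C` of an absolute value `v` is a *bound* (`IsBd`) if it is at least `1` and dominated by
`N_v * ∏ max 1 (v c)` for a fixed natural number `N` (with `N_v = 1` for non-archimedean `v`) and a
fixed finite list of coefficients `c`.  Such a bound is `1` for almost all absolute values, and this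
is the only thing that will ever be used about it.
-/

set_option autoImplicit false

noncomputable section

namespace Fermat.Agent.MW

variable {K : Type*} [Field K]

open Classical in
/-- `N` at an archimedean absolute value, `1` at a non-archimedean one. -/
def archN (v : AbsoluteValue K ℝ) (N : ℕ) : ℝ :=
  if IsNonarchimedean v then 1 else max 1 (N : ℝ)

theorem one_le_archN (v : AbsoluteValue K ℝ) (N : ℕ) : 1 ≤ archN v N := by
  unfold archN; split <;> simp

theorem archN_pos (v : AbsoluteValue K ℝ) (N : ℕ) : 0 < archN v N :=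
  zero_lt_one.trans_le (one_le_archN v N)

/-- A finite product of `max 1 (v c)`. -/
def coeffSize (v : AbsoluteValue K ℝ) (l : List K) : ℝ := (l.map fun c => max 1 (v c)).prod

theorem one_le_coeffSize (v : AbsoluteValue K ℝ) : ∀ l : List K, 1 ≤ coeffSize v l
  | [] => by simp [coeffSize]
  | c :: l => by
    rw [coeffSize, List.map_cons, List.prod_cons]
    exact one_le_mul_of_one_le_of_one_le (le_max_left _ _) (one_le_coeffSize v l)

theorem coeffSize_append (v : AbsoluteValue K ℝ) (l m : List K) :
    coeffSize v (l ++ m) = coeffSize v l * coeffSize v m := by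
  simp [coeffSize, List.map_append, List.prod_append]

theorem le_coeffSize_of_mem (v : AbsoluteValue K ℝ) : ∀ {l : List K} {c : K}, c ∈ l →
    v c ≤ coeffSize v l
  | d :: l, c, h => by
    rw [coeffSize, List.map_cons, List.prod_cons]
    have h1 := one_le_coeffSize v l
    have h2 : (1:ℝ) ≤ max 1 (v d) := le_max_left _ _
    rcases List.mem_cons.mp h with rfl | h
    · exact (le_max_right 1 (v c)).trans (le_mul_of_one_le_right (zero_le_one.trans h2) h1)
    · exact (le_coeffSize_of_mem v h).trans (le_mul_of_one_le_left (zero_le_one.trans h1) h2)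

/-- `C` is a bound. -/
def IsBd (C : AbsoluteValue K ℝ → ℝ) : Prop :=
  (∀ v, 1 ≤ C v) ∧ ∃ (N : ℕ) (l : List K), ∀ v, C v ≤ archN v N * coeffSize v l

namespace IsBd

variable {C D : AbsoluteValue K ℝ → ℝ}

theorem one_le (h : IsBd C) (v : AbsoluteValue K ℝ) : 1 ≤ C v := h.1 v

theorem pos (h : IsBd C) (v : AbsoluteValue K ℝ) : 0 < C v := zero_lt_one.trans_le (h.1 v)

theorem nonneg (h : IsBd C) (v : AbsoluteValue K ℝ) : 0 ≤ C v := (h.pos v).le

theorem archN_bd (N : ℕ) : IsBd (fun v : AbsoluteValue K ℝ => archN v N) :=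
  ⟨fun v => one_le_archN v N, N, [], fun v => by simp [coeffSize]⟩

theorem coeffSize_bd (l : List K) : IsBd (fun v : AbsoluteValue K ℝ => coeffSize v l) :=
  ⟨fun v => one_le_coeffSize v l, 1, l, fun v =>
    le_mul_of_one_le_left (zero_le_one.trans (one_le_coeffSize v l)) (one_le_archN v 1)⟩

theorem one : IsBd (fun _ : AbsoluteValue K ℝ => (1 : ℝ)) :=
  ⟨fun _ => le_rfl, 1, [], fun v => by simpa [coeffSize] using one_le_archN v 1⟩

theorem mul (hC : IsBd C) (hD : IsBd D) : IsBd (fun v => C v * D v) := by
  obtain ⟨hC1, N, l, hl⟩ := hC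
  obtain ⟨hD1, M, m, hm⟩ := hD
  refine ⟨fun v => one_le_mul_of_one_le_of_one_le (hC1 v) (hD1 v), max 1 N * max 1 M, l ++ m,
    fun v => ?_⟩
  refine (mul_le_mul (hl v) (hm v) (zero_le_one.trans (hD1 v)) ?_).trans ?_
  · exact mul_nonneg (archN_pos v N).le (zero_le_one.trans (one_le_coeffSize v l))
  rw [coeffSize_append, mul_mul_mul_comm]
  refine mul_le_mul_of_nonneg_right ?_ (mul_nonneg (zero_le_one.trans (one_le_coeffSize v l))
    (zero_le_one.trans (one_le_coeffSize v m)))
  unfold archN
  split
  · simp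
  · push_cast
    exact le_max_right _ _

theorem pow (hC : IsBd C) : ∀ n : ℕ, IsBd (fun v => C v ^ n)
  | 0 => by simpa using one
  | n + 1 => by simpa [pow_succ] using (pow hC n).mul hC

theorem prod {ι : Type*} (s : Finset ι) {Cs : ι → AbsoluteValue K ℝ → ℝ}
    (h : ∀ i ∈ s, IsBd (Cs i)) : IsBd (fun v => ∏ i ∈ s, Cs i v) := by
  classical
  induction s using Finset.induction with
  | empty => simpa using one
  | insert a t ha ih =>
    simp only [Finset.mem_insert, forall_eq_or_imp] at h
    simpa [Finset.prod_insert ha] using h.1.mul (ih h.2)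

end IsBd

/-- Triangle inequality with the `archN` factor. -/
theorem sum_le_archN (v : AbsoluteValue K ℝ) {ι : Type*} (s : Finset ι) (f : ι → K) {B : ℝ}
    (hB : 0 ≤ B) (h : ∀ i ∈ s, v (f i) ≤ B) : v (∑ i ∈ s, f i) ≤ archN v s.card * B := by
  classical
  unfold archN
  split
  · rename_i hna
    rw [one_mul]
    induction s using Finset.induction with
    | empty => simpa using hB
    | insert a t ha ih =>
      simp only [Finset.mem_insert, forall_eq_or_imp] at h
      rw [Finset.sum_insert ha]
      exact (hna _ _).trans (max_le h.1 (ih h.2))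
  · refine (v.sum_le _ _).trans ((Finset.sum_le_card_nsmul _ _ _ h).trans ?_)
    rw [nsmul_eq_mul]
    exact mul_le_mul_of_nonneg_right (le_max_right _ _) hB

theorem sum_le_archN_univ (v : AbsoluteValue K ℝ) {ι : Type*} [Fintype ι] (f : ι → K) {B : ℝ}
    (hB : 0 ≤ B) (h : ∀ i, v (f i) ≤ B) : v (∑ i, f i) ≤ archN v (Fintype.card ι) * B :=
  sum_le_archN v _ f hB fun i _ => h i

/-- A linear map is bounded. -/
theorem exists_bd_linearMap {ι κ : Type*} [Fintype ι] [DecidableEq ι] [Fintype κ]
    (L : (ι → K) →ₗ[K] (κ → K)) :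
    ∃ C, IsBd C ∧ ∀ (v : AbsoluteValue K ℝ) (x : ι → K) {B : ℝ}, 0 ≤ B → (∀ i, v (x i) ≤ B) →
      ∀ j, v (L x j) ≤ C v * B := by
  classical
  let l : List K := ((Finset.univ : Finset (κ × ι)).image
    fun p => L (Pi.single p.2 1) p.1).toList
  refine ⟨fun v => archN v (Fintype.card ι) * coeffSize v l,
    (IsBd.archN_bd _).mul (IsBd.coeffSize_bd _), fun v x B hB hx j => ?_⟩
  have hexp : L x j = ∑ i, x i * L (Pi.single i 1) j := by
    conv_lhs => rw [pi_eq_sum_univ' x]
    simp [map_sum, Finset.sum_apply]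
  rw [hexp, mul_assoc]
  refine sum_le_archN_univ v _ (mul_nonneg (zero_le_one.trans (one_le_coeffSize v l)) hB)
    fun i => ?_
  rw [map_mul, mul_comm (coeffSize v l)]
  exact mul_le_mul (hx i) (le_coeffSize_of_mem v (by simp [l])) (v.nonneg _) hB

open MvPolynomial in
/-- Evaluation of a polynomial at a bounded point is bounded. -/
theorem exists_bd_eval {σ : Type*} (p : MvPolynomial σ K) :
    ∃ C, IsBd C ∧ ∀ (v : AbsoluteValue K ℝ) (x : σ → K) {R : ℝ}, 1 ≤ R →
      (∀ s, v (x s) ≤ R) → v (eval x p) ≤ C v * R ^ p.totalDegree := by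
  classical
  let l : List K := (p.support.image fun d => coeff d p).toList
  refine ⟨fun v => archN v p.support.card * coeffSize v l,
    (IsBd.archN_bd _).mul (IsBd.coeffSize_bd _), fun v x R hR hx => ?_⟩
  rw [eval_eq, mul_assoc]
  refine sum_le_archN v _ _ ?_ fun d hd => ?_
  · exact mul_nonneg (zero_le_one.trans (one_le_coeffSize v l))
      (pow_nonneg (zero_le_one.trans hR) _)
  rw [map_mul, map_prod]
  refine mul_le_mul (le_coeffSize_of_mem v (by simp [l]; exact ⟨d, by simpa using hd, rfl⟩)) ?_
    (Finset.prod_nonneg fun i _ => v.nonneg _) (zero_le_one.trans (one_le_coeffSize v l))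
  calc ∏ i ∈ d.support, v (x i ^ d i) ≤ ∏ i ∈ d.support, R ^ d i :=
        Finset.prod_le_prod (fun i _ => v.nonneg _) fun i _ => by
          rw [map_pow]; exact pow_le_pow_left₀ (v.nonneg _) (hx i) _
    _ = R ^ (d.sum fun _ e => e) := by rw [Finset.prod_pow_eq_pow_sum]; rfl
    _ ≤ R ^ p.totalDegree := pow_le_pow_right₀ hR (le_totalDegree hd)

open MvPolynomial in
/-- **Effective Nullstellensatz**: polynomials without common zero are not simultaneously small at
bounded points, uniformly in the absolute value. -/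
theorem exists_bd_nullstellensatz [IsAlgClosed K] {σ ι : Type*} [Finite σ] [Fintype ι]
    (f : ι → MvPolynomial σ K) (h : ∀ x : σ → K, ∃ i, eval x (f i) ≠ 0) :
    ∃ C, IsBd C ∧ ∃ e : ℕ, ∀ (v : AbsoluteValue K ℝ) (x : σ → K) {R : ℝ}, 1 ≤ R →
      (∀ s, v (x s) ≤ R) → ∃ i, 1 ≤ C v * R ^ e * v (eval x (f i)) := by
  classical
  have htop : Ideal.span (Set.range f) = ⊤ := by
    rw [← Ideal.radical_eq_top, ← vanishingIdeal_zeroLocus_eq_radical (K := K)]
    convert vanishingIdeal_empty (k := K) (K := K) (σ := σ)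
    refine Set.eq_empty_iff_forall_notMem.mpr fun x hx => ?_
    obtain ⟨i, hi⟩ := h x
    exact hi (by simpa [aeval_eq_eval] using hx (f i) (Ideal.subset_span (Set.mem_range_self i)))
  obtain ⟨g, hg⟩ := (Ideal.mem_span_range_iff_exists_fun (x := (1 : MvPolynomial σ K))).mp
    (htop ▸ Submodule.mem_top)
  choose Cg hCg hg' using fun i => exists_bd_eval (g i)
  refine ⟨fun v => archN v (Fintype.card ι) * ∏ i, Cg i v,
    (IsBd.archN_bd _).mul (IsBd.prod _ fun i _ => hCg i),
    Finset.univ.sup fun i => (g i).totalDegree,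
    fun v x R hR hx => ?_⟩
  have hone : ∑ i, eval x (g i) * eval x (f i) = 1 := by
    simpa using congrArg (eval x) hg
  have hne : Nonempty ι := by
    by_contra hemp
    rw [not_nonempty_iff] at hemp
    simp at hone
  obtain ⟨i₀, -, hmax⟩ := Finset.exists_max_image (Finset.univ : Finset ι)
    (fun i => v (eval x (f i))) Finset.univ_nonempty
  refine ⟨i₀, ?_⟩
  set M := v (eval x (f i₀))
  set e := Finset.univ.sup fun i => (g i).totalDegree
  calc (1 : ℝ) = v (∑ i, eval x (g i) * eval x (f i)) := by rw [hone, map_one]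
    _ ≤ archN v (Fintype.card ι) * ((∏ i, Cg i v) * R ^ e * M) := by
        refine sum_le_archN_univ v _ ?_ fun i => ?_
        · exact mul_nonneg (mul_nonneg (Finset.prod_nonneg fun i _ => (hCg i).nonneg v)
            (pow_nonneg (zero_le_one.trans hR) _)) (v.nonneg _)
        rw [map_mul]
        refine mul_le_mul ?_ (hmax i (Finset.mem_univ i)) (v.nonneg _) ?_
        · refine (hg' i v x hR hx).trans ?_
          refine mul_le_mul ?_ (pow_le_pow_right₀ hR
            (Finset.le_sup (f := fun i => (g i).totalDegree) (Finset.mem_univ i)))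
            (pow_nonneg (zero_le_one.trans hR) _) (Finset.prod_nonneg fun i _ => (hCg i).nonneg v)
          rw [← Finset.mul_prod_erase _ _ (Finset.mem_univ i)]
          exact le_mul_of_one_le_right ((hCg i).nonneg v)
            ((IsBd.prod (Finset.univ.erase i) fun j _ => hCg j).one_le v)
        · exact mul_nonneg (Finset.prod_nonneg fun i _ => (hCg i).nonneg v)
            (pow_nonneg (zero_le_one.trans hR) _)
    _ = _ := by ring

end Fermat.Agent.MW
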