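import Fermat.Agent.MordellWeil.Tensor

/-!
# The lower bound `nu ≤ C * W * W'` at every place

The only use of the Nullstellensatz in the height theory: the products of a chart cannot all be
small at a place where `L(2a·O)` is not.
-/

set_option autoImplicit false

noncomputable section

open AlgebraicCurve MvPolynomial

namespace Fermat.Agent.MW

open FF

variable {K F : Type*} [Field K] [Field F] [Algebra K F] [IsFunctionField K F] [IsAlgClosed K]

namespace Base

variable (B : Base K F)

/-- Product of two basis elements. -/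
def basisMul (m n : ℤ) (s : Fin (ell (B.inf m))) (t : Fin (ell (B.inf n))) :
    riemannRochSpace (B.inf (m + n)) :=
  ⟨(B.infBasis m s : F) * (B.infBasis n t : F), B.mul_mem_inf (B.infBasis m s).2 (B.infBasis n t).2⟩

theorem repr_mul (m n : ℤ) (f : riemannRochSpace (B.inf m)) (g : riemannRochSpace (B.inf n))
    (w : Fin (ell (B.inf (m + n)))) :
    (B.infBasis (m + n)).repr ⟨(f : F) * (g : F), B.mul_mem_inf f.2 g.2⟩ w
      = ∑ s, ∑ t, (B.infBasis m).repr f s * (B.infBasis n).repr g t
          * (B.infBasis (m + n)).repr (B.basisMul m n s t) w := by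
  have h : (⟨(f : F) * (g : F), B.mul_mem_inf f.2 g.2⟩ : riemannRochSpace (B.inf (m + n)))
      = ∑ s, ∑ t, ((B.infBasis m).repr f s * (B.infBasis n).repr g t) • B.basisMul m n s t := by
    apply Subtype.ext
    conv_lhs => rw [show ((⟨(f : F) * (g : F), B.mul_mem_inf f.2 g.2⟩ :
      riemannRochSpace (B.inf (m + n))) : F) = (f : F) * (g : F) from rfl,
      ← (B.infBasis m).sum_repr f, ← (B.infBasis n).sum_repr g]
    simp only [basisMul, Submodule.coe_sum, Submodule.coe_smul, Finset.sum_mul, Finset.mul_sum,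
      smul_mul_assoc, mul_smul_comm, Finset.smul_sum, smul_smul]
    rw [Finset.sum_comm]
    refine Finset.sum_congr rfl fun s _ => Finset.sum_congr rfl fun t _ => ?_
    rw [mul_comm]
  rw [h, map_sum, Finsupp.finsetSum_apply]
  refine Finset.sum_congr rfl fun s _ => ?_
  rw [map_sum, Finsupp.finsetSum_apply]
  refine Finset.sum_congr rfl fun t _ => ?_
  rw [map_smul, Finsupp.smul_apply, smul_eq_mul]

variable (a : ℕ)

/-- `2a` as an integer. -/
abbrev two (a : ℕ) : ℤ := ((2 * a : ℕ) : ℤ)

/-- Variables: coordinates of the tensor, and of a functional on `L(4a·O)`. -/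
abbrev CertVar : Type :=
  (Fin (B.rk a) × Fin (B.rk a) × Fin (ell (B.inf (two a)))) ⊕ Fin (ell (B.inf (two a + two a)))

/-- Equations. -/
abbrev CertIdx : Type :=
  ((Fin (B.rk a) × Fin (B.rk a) × Fin (B.rk a)) ⊕
    (Fin (B.rk a) × Fin (B.rk a) × Fin (B.rk a) × Fin (B.rk a) ×
      Fin (ell (B.inf (two a + two a))))) ⊕
  ((Fin (B.rk a) × Fin (B.rk a) × Fin (ell (B.inf (two a)))) ⊕ Unit)

/-- The certificate system. -/
def certPoly (A : Fin (B.rk a) → Place K F) (s₀ : Fin (ell (B.inf (two a + two a)))) :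
    B.CertIdx a → MvPolynomial (B.CertVar a) K
  | .inl (.inl (i, k, l)) =>
      (∑ s, X (.inl (i, k, s)) * C (evAt B.U 0 (A l) (B.infBasis (two a) s : F)))
        - C (if i = l ∧ k = l then 1 else 0)
  | .inl (.inr (i, j, k, l, w)) =>
      ∑ s, ∑ t, (X (.inl (i, j, s)) * X (.inl (k, l, t)) - X (.inl (i, l, s)) * X (.inl (k, j, t)))
        * C ((B.infBasis (two a + two a)).repr (B.basisMul (two a) (two a) s t) w)
  | .inr (.inl (i, k, t)) =>
      ∑ w, X (.inr w) * ∑ s, X (.inl (i, k, s))
        * C ((B.infBasis (two a + two a)).repr (B.basisMul (two a) (two a) s t) w)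
  | .inr (.inr _) => X (.inr s₀) - 1

theorem certPoly_no_zero {A : Fin (B.rk a) → Place K F} (ha : B.d ≤ a)
    (hA : ∀ l, A l ∈ B.pool) (s₀ : Fin (ell (B.inf (two a + two a)))) (x : B.CertVar a → K) :
    ∃ q, eval x (B.certPoly a A s₀ q) ≠ 0 := by
  classical
  by_contra! hzero
  let T : Fin (B.rk a) → Fin (B.rk a) → riemannRochSpace (B.inf (two a)) :=
    fun i k => ∑ s, x (.inl (i, k, s)) • B.infBasis (two a) s
  have hrepr : ∀ i k s, (B.infBasis (two a)).repr (T i k) s = x (.inl (i, k, s)) :=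
    fun i k s => by rw [(B.infBasis (two a)).repr_sum_self]
  let φ : riemannRochSpace (B.inf (two a + two a)) →ₗ[K] K :=
    (B.infBasis (two a + two a)).constr K fun w => x (.inr w)
  have hφ : ∀ f, φ f = ∑ w, (B.infBasis (two a + two a)).repr f w * x (.inr w) := fun f => by
    simp [φ, Module.Basis.constr_apply_fintype, Module.Basis.equivFun_apply]
  have hT : B.IsTensor a A (fun i k => (T i k : F)) := by
    refine ⟨ha, hA, fun i k => (T i k).2, fun i k l => ?_, fun i j k l => ?_⟩
    · have h := hzero (.inl (.inl (i, k, l)))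
      simp only [certPoly, map_sub, map_sum, map_mul, eval_X, eval_C, sub_eq_zero] at h
      rw [← h]
      have he : evAt B.U 0 (A l) (T i k : F) = evL B.U (B.inf (two a)) (A l) (T i k) := by
        rw [evL_apply, B.inf_pool _ (hA l)]
      rw [he, map_sum]
      refine Finset.sum_congr rfl fun s _ => ?_
      rw [map_smul, smul_eq_mul, evL_apply, B.inf_pool _ (hA l)]
    · have heq : (⟨(T i j : F) * (T k l : F), B.mul_mem_inf (T i j).2 (T k l).2⟩ :
          riemannRochSpace (B.inf (two a + two a)))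
          = ⟨(T i l : F) * (T k j : F), B.mul_mem_inf (T i l).2 (T k j).2⟩ := by
        apply (B.infBasis (two a + two a)).repr.injective
        ext w
        rw [B.repr_mul, B.repr_mul, ← sub_eq_zero, ← Finset.sum_sub_distrib]
        simp only [← Finset.sum_sub_distrib, ← sub_mul, hrepr]
        have h := hzero (.inl (.inr (i, j, k, l, w)))
        simpa only [certPoly, map_sum, map_mul, map_sub, eval_X, eval_C] using h
      exact congrArg Subtype.val heq
  obtain ⟨D, c, -, hcT⟩ := B.exists_chart_of_isTensor hT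
  have hker : ∀ i k t, φ ⟨(T i k : F) * (B.infBasis (two a) t : F),
      B.mul_mem_inf (T i k).2 (B.infBasis (two a) t).2⟩ = 0 := by
    intro i k t
    have h := hzero (.inr (.inl (i, k, t)))
    simp only [certPoly, map_sum, map_mul, eval_X, eval_C] at h
    rw [hφ, ← h]
    refine Finset.sum_congr rfl fun w _ => ?_
    rw [B.repr_mul, mul_comm]
    congr 1
    refine Finset.sum_congr rfl fun s _ => ?_
    rw [Finset.sum_eq_single t (fun u _ hu => by simp [Finsupp.single_eq_of_ne hu])
      (fun hh => absurd (Finset.mem_univ t) hh)]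
    rw [hrepr]
    simp
  have hle : riemannRochSpace (B.inf (two a + two a))
      ≤ (LinearMap.ker φ).map (riemannRochSpace (B.inf (two a + two a))).subtype := by
    have h1 := c.span_mul
    rw [← B.inf_add] at h1
    refine h1.trans (Submodule.span_le.mpr ?_)
    rintro y ⟨i, k, h, hh, rfl⟩
    rw [hcT, show h = ((⟨h, hh⟩ : riemannRochSpace (B.inf (two a))) : F) from rfl,
      ← (B.infBasis (two a)).sum_repr ⟨h, hh⟩]
    simp only [Submodule.coe_sum, Submodule.coe_smul, Finset.mul_sum, mul_smul_comm,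
      SetLike.mem_coe]
    exact Submodule.sum_mem _ fun t _ => Submodule.smul_mem _ _
      ⟨⟨_, B.mul_mem_inf (T i k).2 (B.infBasis (two a) t).2⟩, hker i k t, rfl⟩
  have h0 : φ (B.infBasis (two a + two a) s₀) = 0 := by
    obtain ⟨y, hy, hys⟩ := hle (B.infBasis (two a + two a) s₀).2
    rw [← show y = B.infBasis (two a + two a) s₀ from Subtype.ext hys]
    exact hy
  have h := hzero (.inr (.inr ()))
  simp only [certPoly, map_sub, eval_X, map_one] at h
  simp only [φ, Module.Basis.constr_basis] at h0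
  rw [h0, zero_sub, neg_eq_zero] at h
  exact one_ne_zero h

/-- **The main local lower bound.** -/
theorem exists_bd_nu_le_W (ha : B.d ≤ a) (ha' : 4 * a < B.pool.card) :
    ∃ C e, IsBd C ∧ ∀ (w : AbsoluteValue K ℝ) (D : Divisor K F) (c : B.Chart a D) (R : ℝ),
      c.Bdd w R → ∀ P, B.nu w (two a) P ≤ C w * R ^ e * (c.W w P * c.symm.W w P) := by
  classical
  choose Cn hCn en hn using fun p : (Fin (B.rk a) → B.pool) × Fin (ell (B.inf (two a + two a))) =>
    exists_bd_nullstellensatz (B.certPoly a (fun l => (p.1 l : Place K F)) p.2)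
      (B.certPoly_no_zero a ha (fun l => (p.1 l).2) p.2)
  obtain ⟨Cr, hCr, hr⟩ := B.exists_bd_repr (2 * a) (by omega)
  obtain ⟨C₂, hC₂, h₂⟩ := B.exists_bd_nu_mul_le (two a) (two a)
  set e := Finset.univ.sup en
  refine ⟨fun w => C₂ w * ((∏ p, Cn p w) * Cr w ^ e), e,
    hC₂.mul ((IsBd.prod _ fun p _ => hCn p).mul (hCr.pow e)), fun w D c R hR P => ?_⟩
  have hb := B.bound_le
  have hnu : 0 < B.nu w (two a) P := B.nu_pos w (by simp only [two]; push_cast; omega) P
  have hnu4 : 0 < B.nu w (two a + two a) P := B.nu_pos w (by simp only [two]; push_cast; omega) P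
  have hne : Nonempty (Fin (ell (B.inf (two a + two a)))) := by
    by_contra hemp
    rw [not_nonempty_iff] at hemp
    rw [Base.nu, Real.iSup_of_isEmpty] at hnu4
    exact lt_irrefl 0 hnu4
  obtain ⟨s₀, hs₀⟩ := exists_eq_ciSup_of_finite
    (f := fun s => w (evL B.U (B.inf (two a + two a)) P (B.infBasis (two a + two a) s)))
  change w _ = B.nu w (two a + two a) P at hs₀
  set z := evL B.U (B.inf (two a + two a)) P (B.infBasis (two a + two a) s₀)
  have hz : z ≠ 0 := fun h => by rw [h, map_zero] at hs₀; exact hnu4.ne hs₀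
  let Tc : Fin (B.rk a) → Fin (B.rk a) → riemannRochSpace (B.inf (two a)) :=
    fun i k => ⟨c.u i * c.v k, c.mul_mem i k⟩
  let x : B.CertVar a → K := Sum.elim (fun q => (B.infBasis (two a)).repr (Tc q.1 q.2.1) q.2.2)
    fun s => evL B.U (B.inf (two a + two a)) P (B.infBasis (two a + two a) s) / z
  set R' := Cr w * R
  have hR' : 1 ≤ R' := one_le_mul_of_one_le_of_one_le (hCr.one_le w) hR.1
  have hx : ∀ q, w (x q) ≤ R' := by
    rintro (⟨i, k, s⟩ | s)
    · exact (hr w _ s).trans (mul_le_mul_of_nonneg_left (hR.2 i k) (hCr.nonneg w))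
    · refine le_trans ?_ hR'
      simp only [x, Sum.elim_inr, map_div₀]
      rw [div_le_one (w.pos hz), hs₀]
      exact B.le_nu w _ P s
  obtain ⟨q, hq⟩ := hn (fun l => ⟨c.A l, c.A_mem l⟩, s₀) w x hR' hx
  rcases q with (⟨i, k, l⟩ | ⟨i, j, k, l, t⟩) | (⟨i, k, t⟩ | u)
  · exfalso
    have h0 : eval x (B.certPoly a c.A s₀ (.inl (.inl (i, k, l)))) = 0 := by
      simp only [certPoly, map_sub, map_sum, map_mul, eval_X, eval_C, sub_eq_zero, x, Sum.elim_inl]
      rw [← c.isTensor.card_ev i k l]
      have he : evAt B.U 0 (c.A l) (c.u i * c.v k) = evL B.U (B.inf (two a)) (c.A l) (Tc i k) := by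
        rw [evL_apply, B.inf_pool _ (c.A_mem l)]
      rw [he]
      conv_rhs => rw [← (B.infBasis (two a)).sum_repr (Tc i k), map_sum]
      refine Finset.sum_congr rfl fun s _ => ?_
      rw [map_smul, smul_eq_mul, evL_apply, B.inf_pool _ (c.A_mem l)]
    change 1 ≤ _ * w (eval x (B.certPoly a c.A s₀ _)) at hq
    rw [h0, map_zero, mul_zero] at hq
    linarith
  · exfalso
    have h0 : eval x (B.certPoly a c.A s₀ (.inl (.inr (i, j, k, l, t)))) = 0 := by
      simp only [certPoly, map_sum, map_mul, map_sub, eval_X, eval_C, x, Sum.elim_inl, sub_mul,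
        Finset.sum_sub_distrib]
      rw [← B.repr_mul, ← B.repr_mul, sub_eq_zero]
      congr 2
      exact Subtype.ext (by
        show c.u i * c.v j * (c.u k * c.v l) = c.u i * c.v l * (c.u k * c.v j)
        ring)
    change 1 ≤ _ * w (eval x (B.certPoly a c.A s₀ _)) at hq
    rw [h0, map_zero, mul_zero] at hq
    linarith
  · have hval : eval x (B.certPoly a c.A s₀ (.inr (.inl (i, k, t)))) * z
      = evL B.U (B.inf (two a)) P (Tc i k) * evL B.U (B.inf (two a)) P (B.infBasis (two a) t) := by
      rw [← B.evL_mul]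
      simp only [certPoly, map_sum, map_mul, eval_X, eval_C, x, Sum.elim_inl, Sum.elim_inr]
      rw [Finset.sum_mul]
      conv_rhs => rw [← (B.infBasis (two a + two a)).sum_repr
        ⟨(Tc i k : F) * (B.infBasis (two a) t : F), _⟩, map_sum]
      refine Finset.sum_congr rfl fun s _ => ?_
      rw [map_smul, smul_eq_mul, B.repr_mul]
      rw [div_mul_eq_mul_div, div_mul_cancel₀ _ hz, mul_comm]
      congr 1
      refine Finset.sum_congr rfl fun u _ => ?_
      rw [Finset.sum_eq_single t (fun y _ hy => by simp [Finsupp.single_eq_of_ne hy])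
        (fun hh => absurd (Finset.mem_univ t) hh)]
      simp
    change 1 ≤ _ * w (eval x (B.certPoly a c.A s₀ _)) at hq
    have hTP : w (evL B.U (B.inf (two a)) P (Tc i k)) ≤ c.W w P * c.symm.W w P := by
      rw [evL_apply]
      show w (evAt B.U (B.inf (two a) P) P (c.u i * c.v k)) ≤ _
      rw [c.evAt_mul_uv, map_mul]
      exact mul_le_mul (c.le_W w P i) (c.symm.le_W w P k) (w.nonneg _) (c.W_nonneg w P)
    have hC : (Cn (fun l => ⟨c.A l, c.A_mem l⟩, s₀) w) * R' ^ en (fun l => ⟨c.A l, c.A_mem l⟩, s₀)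
        ≤ (∏ p, Cn p w) * Cr w ^ e * R ^ e := by
      rw [mul_assoc _ (Cr w ^ e), ← mul_pow]
      refine mul_le_mul ?_ (pow_le_pow_right₀ hR' (Finset.le_sup (Finset.mem_univ _)))
        (pow_nonneg (zero_le_one.trans hR') _) (Finset.prod_nonneg fun p _ => (hCn p).nonneg w)
      rw [← Finset.mul_prod_erase _ _ (Finset.mem_univ (((fun l => ⟨c.A l, c.A_mem l⟩), s₀) :
        (Fin (B.rk a) → B.pool) × Fin (ell (B.inf (two a + two a)))))]
      exact le_mul_of_one_le_right ((hCn _).nonneg w)
        ((IsBd.prod _ fun p _ => hCn p).one_le w)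
    have hWW : 0 ≤ c.W w P * c.symm.W w P := mul_nonneg (c.W_nonneg w P) (c.symm.W_nonneg w P)
    have hpre : 0 ≤ (∏ p, Cn p w) * Cr w ^ e * R ^ e :=
      le_trans (mul_nonneg ((hCn _).nonneg w) (pow_nonneg (zero_le_one.trans hR') _)) hC
    refine le_of_mul_le_mul_right ?_ hnu
    calc B.nu w (two a) P * B.nu w (two a) P ≤ C₂ w * w z := by rw [hs₀]; exact h₂ w P
      _ ≤ C₂ w * (((∏ p, Cn p w) * Cr w ^ e * R ^ e) *
            w (eval x (B.certPoly a c.A s₀ (.inr (.inl (i, k, t))))) * w z) := by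
          refine mul_le_mul_of_nonneg_left (le_mul_of_one_le_left (w.nonneg _) ?_) (hC₂.nonneg w)
          exact hq.trans (mul_le_mul_of_nonneg_right hC (w.nonneg _))
      _ ≤ C₂ w * (((∏ p, Cn p w) * Cr w ^ e * R ^ e) *
            ((c.W w P * c.symm.W w P) * B.nu w (two a) P)) := by
          rw [mul_assoc ((∏ p, Cn p w) * Cr w ^ e * R ^ e), ← map_mul, hval, map_mul]
          exact mul_le_mul_of_nonneg_left (mul_le_mul_of_nonneg_left
            (mul_le_mul hTP (B.le_nu w _ P t) (w.nonneg _) hWW) hpre) (hC₂.nonneg w)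
      _ = _ := by ring
  · exfalso
    have h0 : eval x (B.certPoly a c.A s₀ (.inr (.inr u))) = 0 := by
      simp only [certPoly, map_sub, eval_X, map_one, x, Sum.elim_inr, sub_eq_zero]
      exact div_self hz
    change 1 ≤ _ * w (eval x (B.certPoly a c.A s₀ _)) at hq
    rw [h0, map_zero, mul_zero] at hq
    linarith

end Base

end Fermat.Agent.MW
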