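import Fermat.Agent.MordellWeil.Nu

/-!
# Charts

A chart for a divisor `D` of degree `a` consists of bases of `L(D)` and of `L(2a·O - D)` that are
cardinal at the same places of the pool.  Its products `u i * v k` all lie in `L(2a·O)`.
-/

set_option autoImplicit false

noncomputable section

open AlgebraicCurve

namespace Fermat.Agent.MW

open FF

variable {K F : Type*} [Field K] [Field F] [Algebra K F] [IsFunctionField K F] [IsAlgClosed K]

namespace Base

variable (B : Base K F)

/-- `l(D)` for `deg D = a`. -/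
def rk {K F : Type*} [Field K] [Field F] [Algebra K F] [IsFunctionField K F] [IsAlgClosed K]
    (_B : Base K F) (a : ℕ) : ℕ := ((a : ℤ) + 1 - rGenus K F).toNat

theorem cast_rk {a : ℕ} (ha : B.d ≤ a) : (B.rk a : ℤ) = (a : ℤ) + 1 - rGenus K F := by
  have := B.genus_le
  have := rGenus_nonneg (K := K) (F := F)
  rw [rk, Int.toNat_of_nonneg]
  omega

theorem rk_pos {a : ℕ} (ha : B.d ≤ a) : 0 < B.rk a := by
  have := B.cast_rk ha
  have := B.genus_le
  have := rGenus_nonneg (K := K) (F := F)
  omega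

theorem ell_eq_rk {a : ℕ} (ha : B.d ≤ a) {D : Divisor K F} (hD : Divisor.degree D = a) :
    ell D = B.rk a := by
  have h1 := B.cast_rk ha
  have h2 := B.bound_le
  have h3 := ell_eq (D := D) (by omega)
  omega

/-- The complementary divisor `2a·O - D`. -/
def dual (a : ℕ) (D : Divisor K F) : Divisor K F := B.inf (2 * a : ℕ) - D

theorem dual_dual (a : ℕ) (D : Divisor K F) : B.dual a (B.dual a D) = D := sub_sub_cancel _ _

theorem add_dual (a : ℕ) (D : Divisor K F) : D + B.dual a D = B.inf (2 * a : ℕ) :=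
  add_sub_cancel _ _

theorem degree_dual {a : ℕ} {D : Divisor K F} (hD : Divisor.degree D = a) :
    Divisor.degree (B.dual a D) = a := by
  rw [dual, map_sub, degree_inf, hD]; push_cast; ring

/-- Cardinal bases of `L(D)` and `L(2a·O - D)` at common pool places. -/
structure Chart (a : ℕ) (D : Divisor K F) where
  /-- the places -/
  A : Fin (B.rk a) → Place K F
  A_mem : ∀ l, A l ∈ B.pool
  /-- the basis of `L(D)` -/
  u : Fin (B.rk a) → F
  /-- the basis of `L(2a·O - D)` -/
  v : Fin (B.rk a) → F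
  u_mem : ∀ i, u i ∈ riemannRochSpace D
  v_mem : ∀ i, v i ∈ riemannRochSpace (B.dual a D)
  u_zero : ∀ i l, i ≠ l → evAt B.U (D (A l)) (A l) (u i) = 0
  v_zero : ∀ i l, i ≠ l → evAt B.U (B.dual a D (A l)) (A l) (v i) = 0
  one : ∀ l, evAt B.U (D (A l)) (A l) (u l) * evAt B.U (B.dual a D (A l)) (A l) (v l) = 1
  degree_eq : Divisor.degree D = a
  le_a : B.d ≤ a

namespace Chart

variable {B} {a : ℕ} {D : Divisor K F} (c : B.Chart a D)

/-- The dual chart. -/
def symm : B.Chart a (B.dual a D) where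
  A := c.A
  A_mem := c.A_mem
  u := c.v
  v := c.u
  u_mem := c.v_mem
  v_mem i := by rw [B.dual_dual]; exact c.u_mem i
  u_zero := c.v_zero
  v_zero i l h := by rw [B.dual_dual]; exact c.u_zero i l h
  one l := by rw [B.dual_dual, mul_comm]; exact c.one l
  degree_eq := B.degree_dual c.degree_eq
  le_a := c.le_a

theorem ev_u_ne_zero (l : Fin (B.rk a)) : evAt B.U (D (c.A l)) (c.A l) (c.u l) ≠ 0 :=
  left_ne_zero_of_mul_eq_one (c.one l)

theorem u_linearIndependent :
    LinearIndependent K (fun i => (⟨c.u i, c.u_mem i⟩ : riemannRochSpace D)) := by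
  rw [Fintype.linearIndependent_iff]
  intro g hg l
  have := congrArg (evL B.U D (c.A l)) hg
  simp only [map_sum, map_smul, map_zero, smul_eq_mul, evL_apply] at this
  rw [Finset.sum_eq_single l (fun i _ hi => by rw [c.u_zero i l hi, mul_zero])
    (fun h => absurd (Finset.mem_univ l) h)] at this
  exact (mul_eq_zero.mp this).resolve_right (c.ev_u_ne_zero l)

theorem span_u : Submodule.span K (Set.range c.u) = riemannRochSpace D := by
  have hspan :
      Submodule.span K (Set.range fun i => (⟨c.u i, c.u_mem i⟩ : riemannRochSpace D)) = ⊤ := by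
    have := B.rk_pos c.le_a
    have : Nonempty (Fin (B.rk a)) := ⟨⟨0, this⟩⟩
    refine c.u_linearIndependent.span_eq_top_of_card_eq_finrank ?_
    rw [Fintype.card_fin]
    exact (B.ell_eq_rk c.le_a c.degree_eq).symm
  have := congrArg (Submodule.map (riemannRochSpace D).subtype) hspan
  rwa [Submodule.map_span, Submodule.map_top, Submodule.range_subtype, ← Set.range_comp] at this

theorem u_ne_zero (i : Fin (B.rk a)) : c.u i ≠ 0 := fun h =>
  c.ev_u_ne_zero i (by rw [h, evAt_zero])

theorem mul_mem (i k : Fin (B.rk a)) : c.u i * c.v k ∈ riemannRochSpace (B.inf (2 * a : ℕ)) := by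
  rw [← B.add_dual a D]
  exact mul_mem_riemannRochSpace (c.u_mem i) (c.v_mem k)

theorem evAt_mul_uv (P : Place K F) (i k : Fin (B.rk a)) :
    evAt B.U (B.inf (2 * a : ℕ) P) P (c.u i * c.v k)
      = evAt B.U (D P) P (c.u i) * evAt B.U (B.dual a D P) P (c.v k) := by
  rw [← B.add_dual a D, Finsupp.add_apply]
  exact evAt_mul B.U (mem_riemannRochSpace.mp (c.u_mem i) P) (mem_riemannRochSpace.mp (c.v_mem k) P)

theorem evAt_pool {b : Place K F} (hb : b ∈ B.pool) (i k : Fin (B.rk a)) :
    evAt B.U 0 b (c.u i * c.v k)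
      = evAt B.U (D b) b (c.u i) * evAt B.U (B.dual a D b) b (c.v k) := by
  rw [← c.evAt_mul_uv b i k, B.inf_pool _ hb]

/-- The gauge of the chart at a place. -/
def W (w : AbsoluteValue K ℝ) (P : Place K F) : ℝ := ⨆ i, w (evAt B.U (D P) P (c.u i))

theorem le_W (w : AbsoluteValue K ℝ) (P : Place K F) (i : Fin (B.rk a)) :
    w (evAt B.U (D P) P (c.u i)) ≤ c.W w P :=
  Finite.le_ciSup (fun i => w (evAt B.U (D P) P (c.u i))) i

theorem W_nonneg (w : AbsoluteValue K ℝ) (P : Place K F) : 0 ≤ c.W w P :=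
  Real.iSup_nonneg fun _ => w.nonneg _

theorem exists_W_eq (w : AbsoluteValue K ℝ) (P : Place K F) :
    ∃ i, c.W w P = w (evAt B.U (D P) P (c.u i)) := by
  have : Nonempty (Fin (B.rk a)) := ⟨⟨0, B.rk_pos c.le_a⟩⟩
  obtain ⟨i, hi⟩ := exists_eq_ciSup_of_finite (f := fun i => w (evAt B.U (D P) P (c.u i)))
  exact ⟨i, hi.symm⟩

/-- All products are bounded by `R` on the pool. -/
def Bdd (w : AbsoluteValue K ℝ) (R : ℝ) : Prop :=
  1 ≤ R ∧ ∀ i k, B.poolNorm w (c.u i * c.v k) ≤ R

theorem Bdd.symm {w : AbsoluteValue K ℝ} {R : ℝ} (h : c.Bdd w R) : c.symm.Bdd w R :=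
  ⟨h.1, fun i k => by rw [mul_comm]; exact h.2 k i⟩

theorem Bdd.mono {w : AbsoluteValue K ℝ} {R R' : ℝ} (h : c.Bdd w R) (hR : R ≤ R') : c.Bdd w R' :=
  ⟨h.1.trans hR, fun i k => (h.2 i k).trans hR⟩

theorem W_mul_W_le {w : AbsoluteValue K ℝ} {R : ℝ} (h : c.Bdd w R) {b : Place K F}
    (hb : b ∈ B.pool) : c.W w b * c.symm.W w b ≤ R := by
  obtain ⟨i, hi⟩ := c.exists_W_eq w b
  obtain ⟨k, hk⟩ := c.symm.exists_W_eq w b
  rw [hi, hk, ← map_mul]
  show w (_ * evAt B.U (B.dual a D b) b (c.v k)) ≤ R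
  rw [← c.evAt_pool hb i k]
  exact (B.le_poolNorm w _ hb).trans (h.2 i k)

theorem one_le_poolNorm (w : AbsoluteValue K ℝ) (i : Fin (B.rk a)) :
    1 ≤ B.poolNorm w (c.u i * c.v i) := by
  have h := B.le_poolNorm w (c.u i * c.v i) (c.A_mem i)
  rwa [c.evAt_pool (c.A_mem i), c.one i, map_one] at h

end Chart

/-- The gauge of a chart is positive at every place. -/
theorem Chart.W_pos {B : Base K F} {a : ℕ} {D : Divisor K F} (c : B.Chart a D)
    (w : AbsoluteValue K ℝ) (P : Place K F) : 0 < c.W w P := by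
  have hb := B.bound_le
  have ha : (B.d : ℤ) ≤ a := by exact_mod_cast c.le_a
  obtain ⟨f, hf⟩ := exists_evL_ne_zero B.U D P (by rw [c.degree_eq]; omega)
  refine lt_of_le_of_ne (c.W_nonneg w P) fun h => hf ?_
  have hall : ∀ i, evAt B.U (D P) P (c.u i) = 0 := fun i =>
    w.eq_zero.mp (le_antisymm ((c.le_W w P i).trans h.symm.le) (w.nonneg _))
  have hmem : (f : F) ∈ Submodule.span K (Set.range c.u) := by rw [c.span_u]; exact f.2
  rw [Submodule.mem_span_range_iff_exists_fun] at hmem
  obtain ⟨g, hg⟩ := hmem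
  have hf' : f = ∑ i, g i • (⟨c.u i, c.u_mem i⟩ : riemannRochSpace D) :=
    Subtype.ext (by simp [hg])
  rw [hf', map_sum]
  exact Finset.sum_eq_zero fun i _ => by rw [map_smul, evL_apply, hall i, smul_zero]

/-- The products of a chart, times `L(2a·O)`, span `L(4a·O)`. -/
theorem Chart.span_mul {B : Base K F} {a : ℕ} {D : Divisor K F} (c : B.Chart a D) :
    riemannRochSpace (B.inf (2 * a : ℕ) + B.inf (2 * a : ℕ)) ≤ Submodule.span K
      {x : F | ∃ i k, ∃ h ∈ riemannRochSpace (B.inf (2 * a : ℕ)), c.u i * c.v k * h = x} := by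
  have hb := B.bound_le
  have ha : (B.d : ℤ) ≤ (a : ℤ) := by exact_mod_cast c.le_a
  have hD := c.degree_eq
  have hD' := B.degree_dual c.degree_eq
  have h1 := span_mul_eq (A := B.dual a D) (B := B.inf (2 * a : ℕ)) (by omega)
    (by rw [degree_inf, hD']; omega) (by omega)
  have h2 := span_mul_eq (A := D) (B := B.dual a D + B.inf (2 * a : ℕ)) (by omega)
    (by rw [map_add, degree_inf, hD', hD]; omega) (by omega)
  rw [← add_assoc, B.add_dual] at h2
  rw [← h2, Submodule.span_le]
  rintro x ⟨p, hp, q, hq, rfl⟩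
  set T := Submodule.span K
    {x : F | ∃ i k, ∃ h ∈ riemannRochSpace (B.inf (2 * a : ℕ)), c.u i * c.v k * h = x}
  rw [← h1] at hq
  rw [← c.span_u] at hp
  show p * q ∈ T
  induction hp using Submodule.span_induction with
  | zero => simp
  | add y z _ _ hy hz => rw [add_mul]; exact add_mem hy hz
  | smul t y _ hy => rw [smul_mul_assoc]; exact Submodule.smul_mem _ _ hy
  | mem y hy =>
    obtain ⟨i, rfl⟩ := hy
    induction hq using Submodule.span_induction with
    | zero => simp
    | add y z _ _ hy hz => rw [mul_add]; exact add_mem hy hz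
    | smul t y _ hy => rw [mul_smul_comm]; exact Submodule.smul_mem _ _ hy
    | mem y hy =>
      obtain ⟨v', hv', h, hh, rfl⟩ := hy
      have hs := c.symm.span_u
      rw [← hs] at hv'
      induction hv' using Submodule.span_induction with
      | zero => simp
      | add y z _ _ hy hz => rw [add_mul, mul_add]; exact add_mem hy hz
      | smul t y _ hy => rw [smul_mul_assoc, mul_smul_comm]; exact Submodule.smul_mem _ _ hy
      | mem y hy =>
        obtain ⟨k, rfl⟩ := hy
        exact Submodule.subset_span ⟨i, k, h, hh, by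
          show c.u i * c.v k * h = c.u i * (c.v k * h)
          ring⟩

end Base

end Fermat.Agent.MW
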