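import Fermat.Agent.MordellWeil.Gauge
import Mathlib.LinearAlgebra.Basis.Basic

/-!
# Determinants of evaluation at `l(D)` places, compared with products of gauges

`theta a D A` is the determinant at the places `A` in a fixed basis of `L(D)`, and `T a D w` is the
logarithm of the change of basis to an adapted chart.  The determinant is at most
`exp T * ∏ G (A l)`, with equality up to bounds for some families: through any given place, and
avoiding any small set of pool places.
-/

set_option autoImplicit false

noncomputable section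

open AlgebraicCurve Matrix

namespace Fermat.Agent.MW

open FF

variable {K F : Type*} [Field K] [Field F] [Algebra K F] [IsFunctionField K F] [IsAlgClosed K]

namespace Base

variable (B : Base K F)

theorem det_evMat_comp {r : ℕ} (E : Divisor K F) (e : Fin r → riemannRochSpace E)
    (A : Fin r → Place K F) (σ : Equiv.Perm (Fin r)) (w : AbsoluteValue K ℝ) :
    w (B.evMat E e (A ∘ σ)).det = w (B.evMat E e A).det := by
  rw [show B.evMat E e (A ∘ σ) = (B.evMat E e A).submatrix σ id from rfl, Matrix.det_permute,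
    map_mul]
  rcases Int.units_eq_one_or (Equiv.Perm.sign σ) with h | h <;> simp [h]

/-- Change of basis. -/
theorem det_evMat_basis {r : ℕ} (E : Divisor K F)
    (e f : Module.Basis (Fin r) K (riemannRochSpace E)) (A : Fin r → Place K F) :
    (B.evMat E f A).det = (B.evMat E e A).det * (e.toMatrix f).det := by
  rw [← Matrix.det_mul]
  congr 1
  ext l j
  rw [Matrix.mul_apply]
  show evL B.U E (A l) (f j) = _
  conv_lhs => rw [← e.sum_repr (f j), map_sum]
  exact Finset.sum_congr rfl fun i _ => by rw [map_smul, smul_eq_mul, mul_comm]; rfl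

omit [IsFunctionField K F] [IsAlgClosed K] in
theorem det_toMatrix_ne_zero {r : ℕ} {E : Divisor K F}
    (e f : Module.Basis (Fin r) K (riemannRochSpace E)) : (e.toMatrix f).det ≠ 0 := fun h => by
  have h1 := congrArg Matrix.det (e.toMatrix_mul_toMatrix_flip f)
  rw [Matrix.det_mul, h, zero_mul, Matrix.det_one] at h1
  exact zero_ne_one h1

/-- The basis underlying a chart. -/
def Chart.uBasis {B : Base K F} {a : ℕ} {D : Divisor K F} (c : B.Chart a D) :
    Module.Basis (Fin (B.rk a)) K (riemannRochSpace D) :=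
  haveI : Nonempty (Fin (B.rk a)) := ⟨⟨0, B.rk_pos c.le_a⟩⟩
  basisOfLinearIndependentOfCardEqFinrank c.u_linearIndependent
    ((Fintype.card_fin _).trans (B.ell_eq_rk c.le_a c.degree_eq).symm)

theorem Chart.coe_uBasis {B : Base K F} {a : ℕ} {D : Divisor K F} (c : B.Chart a D)
    (i : Fin (B.rk a)) : ((c.uBasis i : riemannRochSpace D) : F) = c.u i := by
  have : Nonempty (Fin (B.rk a)) := ⟨i⟩
  rw [Chart.uBasis, coe_basisOfLinearIndependentOfCardEqFinrank]

open Classical in
/-- The fixed basis of `L(D)`. -/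
def eBasis {a : ℕ} (ha : B.Lev a) {D : Divisor K F} (hD : Divisor.degree D = a) :
    Module.Basis (Fin (B.rk a)) K (riemannRochSpace D) :=
  Module.finBasisOfFinrankEq K _ (B.ell_eq_rk ha.le hD)

open Classical in
/-- The determinant at given places, in the fixed basis. -/
def theta (a : ℕ) (D : Divisor K F) (A : Fin (B.rk a) → Place K F) : K :=
  if h : B.Lev a ∧ Divisor.degree D = a then (B.evMat D (B.eBasis h.1 h.2) A).det else 0

theorem theta_eq {a : ℕ} (ha : B.Lev a) {D : Divisor K F} (hD : Divisor.degree D = a)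
    (A : Fin (B.rk a) → Place K F) : B.theta a D A = (B.evMat D (B.eBasis ha hD) A).det := by
  rw [theta, dif_pos ⟨ha, hD⟩]

open Classical in
/-- The logarithmic scale of the fixed basis against the chosen chart. -/
def T (a : ℕ) (D : Divisor K F) (w : AbsoluteValue K ℝ) : ℝ :=
  if h : B.Lev a ∧ Divisor.degree D = a then
    Real.log (w ((B.chartAt h.1 h.2 w).uBasis.toMatrix (B.eBasis h.1 h.2)).det)
  else 0

theorem abs_theta {a : ℕ} (ha : B.Lev a) {D : Divisor K F} (hD : Divisor.degree D = a)
    (A : Fin (B.rk a) → Place K F) (w : AbsoluteValue K ℝ) :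
    w (B.theta a D A)
      = Real.exp (B.T a D w) * w (B.evMat D (B.chartAt ha hD w).uBasis A).det := by
  rw [B.theta_eq ha hD, B.det_evMat_basis D (B.chartAt ha hD w).uBasis, map_mul, T,
    dif_pos ⟨ha, hD⟩, Real.exp_log (w.pos (det_toMatrix_ne_zero _ _)), mul_comm]

theorem abs_evMat_uBasis {a : ℕ} {D : Divisor K F} (c : B.Chart a D)
    (A : Fin (B.rk a) → Place K F) (l j : Fin (B.rk a)) :
    B.evMat D c.uBasis A l j = evAt B.U (D (A l)) (A l) (c.u j) := by
  show evL B.U D (A l) (c.uBasis j) = _
  rw [evL_apply, c.coe_uBasis]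

theorem Chart.abs_det_le {B : Base K F} {a : ℕ} {D : Divisor K F} (c : B.Chart a D)
    (w : AbsoluteValue K ℝ) (A : Fin (B.rk a) → Place K F) :
    w (B.evMat D c.uBasis A).det ≤ archN w (B.rk a).factorial * ∏ l, c.W w (A l) := by
  classical
  rw [← Matrix.det_transpose, Matrix.det_apply]
  have h0 : 0 ≤ ∏ l, c.W w (A l) := Finset.prod_nonneg fun l _ => c.W_nonneg w _
  refine (sum_le_archN_univ w _ h0 fun σ => ?_).trans_eq ?_
  · rcases Int.units_eq_one_or (Equiv.Perm.sign σ) with h | h <;>
    · simp only [h, Units.smul_def, Units.val_neg, Units.val_one, neg_smul, one_smul,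
        map_neg_eq_map, map_prod, Matrix.transpose_apply]
      exact Finset.prod_le_prod (fun i _ => w.nonneg _) fun i _ => by
        rw [B.abs_evMat_uBasis]; exact c.le_W w _ _
  · rw [Fintype.card_perm, Fintype.card_fin]

theorem Chart.W_le_ev {B : Base K F} {a : ℕ} {D : Divisor K F} (c : B.Chart a D)
    {w : AbsoluteValue K ℝ} {R : ℝ} (h : c.Bdd w R) (l : Fin (B.rk a)) :
    c.W w (c.A l) ≤ R * w (evAt B.U (D (c.A l)) (c.A l) (c.u l)) := by
  calc c.W w (c.A l) = c.W w (c.A l) * (w (evAt B.U (D (c.A l)) (c.A l) (c.u l)) *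
        w (evAt B.U (B.dual a D (c.A l)) (c.A l) (c.v l))) := by
        rw [← map_mul, c.one, map_one, mul_one]
    _ ≤ c.W w (c.A l) * (w (evAt B.U (D (c.A l)) (c.A l) (c.u l)) * c.symm.W w (c.A l)) :=
        mul_le_mul_of_nonneg_left (mul_le_mul_of_nonneg_left (c.symm.le_W w _ l) (w.nonneg _))
          (c.W_nonneg w _)
    _ = (c.W w (c.A l) * c.symm.W w (c.A l)) * w (evAt B.U (D (c.A l)) (c.A l) (c.u l)) := by ring
    _ ≤ _ := mul_le_mul_of_nonneg_right (c.W_mul_W_le h (c.A_mem l)) (w.nonneg _)

/-- At the places of the chart its evaluation matrix is diagonal. -/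
theorem Chart.det_evMat_A {B : Base K F} {a : ℕ} {D : Divisor K F} (c : B.Chart a D) :
    (B.evMat D c.uBasis c.A).det = ∏ l, evAt B.U (D (c.A l)) (c.A l) (c.u l) := by
  classical
  rw [← Matrix.det_diagonal]
  congr 1
  ext l j
  rw [B.abs_evMat_uBasis, Matrix.diagonal_apply]
  rcases eq_or_ne l j with rfl | hlj
  · simp
  · rw [if_neg hlj, c.u_zero j l (Ne.symm hlj)]

/-- Upper bound for the determinant. -/
theorem exists_bd_theta_le {a : ℕ} (ha : B.Lev a) :
    ∃ C, IsBd C ∧ ∀ (w : AbsoluteValue K ℝ) (D : Divisor K F), Divisor.degree D = a →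
      ∀ A : Fin (B.rk a) → Place K F,
        w (B.theta a D A) ≤ C w * (Real.exp (B.T a D w) * ∏ l, B.G a D w (A l)) := by
  refine ⟨_, IsBd.archN_bd (B.rk a).factorial, fun w D hD A => ?_⟩
  rw [B.abs_theta ha hD A w, Finset.prod_congr rfl fun l _ => B.G_eq ha hD w (A l), mul_left_comm]
  exact mul_le_mul_of_nonneg_left (Chart.abs_det_le _ w A) (Real.exp_pos _).le

theorem det_evMat_update_diag {a : ℕ} {D : Divisor K F} (c : B.Chart a D) (i₀ : Fin (B.rk a))
    (P : Place K F) :
    (B.evMat D c.uBasis (Function.update c.A i₀ P)).det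
      = evAt B.U (D P) P (c.u i₀) *
        ∏ l ∈ Finset.univ.erase i₀, evAt B.U (D (c.A l)) (c.A l) (c.u l) := by
  classical
  have hrow : B.evMat D c.uBasis (Function.update c.A i₀ P)
      = (Matrix.diagonal fun l => evAt B.U (D (c.A l)) (c.A l) (c.u l)).updateRow i₀
          (∑ i, evAt B.U (D P) P (c.u i) • Pi.single i (1 : K)) := by
    ext l j
    rw [B.abs_evMat_uBasis]
    rcases eq_or_ne l i₀ with rfl | hl
    · simp [Finset.sum_apply, Pi.single_apply]
    · rw [Matrix.updateRow_ne hl, Function.update_of_ne hl, Matrix.diagonal_apply]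
      rcases eq_or_ne l j with rfl | hlj
      · simp
      · rw [if_neg hlj, c.u_zero j l (Ne.symm hlj)]
  rw [hrow]
  have hk : ∀ k, ((Matrix.diagonal fun l => evAt B.U (D (c.A l)) (c.A l) (c.u l)).updateRow i₀
      (Pi.single k (1 : K))).det
      = if k = i₀ then ∏ l ∈ Finset.univ.erase i₀, evAt B.U (D (c.A l)) (c.A l) (c.u l) else 0 := by
    intro k
    split_ifs with h
    · subst h
      have hd : (Matrix.diagonal fun l => evAt B.U (D (c.A l)) (c.A l) (c.u l)).updateRow k
          (Pi.single k (1 : K))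
          = Matrix.diagonal
            (Function.update (fun l => evAt B.U (D (c.A l)) (c.A l) (c.u l)) k 1) := by
        ext l j
        rcases eq_or_ne l k with rfl | hl
        · rcases eq_or_ne l j with rfl | hlj
          · simp
          · simp [hlj, Ne.symm hlj]
        · rcases eq_or_ne l j with rfl | hlj
          · simp [hl]
          · simp [hl, hlj]
      rw [hd, Matrix.det_diagonal, Finset.prod_update_of_mem (Finset.mem_univ k), one_mul,
        Finset.sdiff_singleton_eq_erase]
    · refine Matrix.det_eq_zero_of_column_eq_zero i₀ fun l => ?_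
      rcases eq_or_ne l i₀ with rfl | hl
      · simp [Ne.symm h]
      · simp [hl]
  have hlin := (Matrix.detRowAlternating (R := K)
    (n := Fin (B.rk a))).toMultilinearMap.map_update_sum
    (t := Finset.univ) (i := i₀) (g := fun i => evAt B.U (D P) P (c.u i) • Pi.single i (1 : K))
    (m := (Matrix.diagonal fun l => evAt B.U (D (c.A l)) (c.A l) (c.u l)))
  refine hlin.trans ?_
  rw [Finset.sum_eq_single i₀]
  · show (Matrix.updateRow _ i₀ _).det = _
    rw [Matrix.det_updateRow_smul, hk, if_pos rfl]
  · intro k _ hk'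
    show (Matrix.updateRow _ i₀ _).det = 0
    rw [Matrix.det_updateRow_smul, hk, if_neg hk', mul_zero]
  · exact fun h => absurd (Finset.mem_univ _) h

/-- Any place is a member of a family of places with large determinant. -/
theorem exists_bd_theta_ge {a : ℕ} (ha : B.Lev a) :
    ∃ C, IsBd C ∧ ∀ (w : AbsoluteValue K ℝ) (D : Divisor K F), Divisor.degree D = a →
      ∀ P : Place K F, ∃ A : Fin (B.rk a) → Place K F, ∃ i₀, A i₀ = P ∧
        (∀ l ≠ i₀, A l ∈ B.pool) ∧
        Real.exp (B.T a D w) * ∏ l, B.G a D w (A l) ≤ C w * w (B.theta a D A) := by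
  classical
  refine ⟨fun w => B.cb w ^ (B.rk a), B.isBd_cb.pow _, fun w D hD P => ?_⟩
  set c := B.chartAt ha hD w
  have hc := (B.adapted_chartAt ha hD w).1
  obtain ⟨i₀, hi⟩ := c.exists_W_eq w P
  refine ⟨Function.update c.A i₀ P, i₀, Function.update_self .., fun l hl => ?_, ?_⟩
  · rw [Function.update_of_ne hl]; exact c.A_mem l
  rw [B.abs_theta ha hD _ w, B.det_evMat_update_diag, map_mul, map_prod,
    Finset.prod_congr rfl fun l _ => B.G_eq ha hD w _,
    ← Finset.mul_prod_erase _ _ (Finset.mem_univ i₀), Function.update_self,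
    mul_left_comm (B.cb w ^ _)]
  refine mul_le_mul_of_nonneg_left ?_ (Real.exp_pos _).le
  show c.W w P * _ ≤ B.cb w ^ B.rk a * (w (evAt B.U (D P) P (c.u i₀)) * _)
  rw [← hi, mul_left_comm (B.cb w ^ _)]
  refine mul_le_mul_of_nonneg_left ?_ (c.W_nonneg w P)
  calc _ ≤ ∏ l ∈ Finset.univ.erase i₀, B.cb w * w (evAt B.U (D (c.A l)) (c.A l) (c.u l)) :=
        Finset.prod_le_prod (fun l _ => c.W_nonneg w _) fun l hl => by
          rw [Function.update_of_ne (Finset.ne_of_mem_erase hl)]
          exact c.W_le_ev hc l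
    _ ≤ _ := by
        rw [Finset.prod_mul_distrib, Finset.prod_const]
        refine mul_le_mul_of_nonneg_right (pow_le_pow_right₀ (B.isBd_cb.one_le w) ?_)
          (Finset.prod_nonneg fun l _ => w.nonneg _)
        exact (Finset.card_le_univ _).trans (Fintype.card_fin _).le

/-- Families with large determinant can avoid any small set of places. -/
theorem exists_bd_theta_avoid {a : ℕ} (ha : B.Lev a) :
    ∃ C, IsBd C ∧ ∀ (w : AbsoluteValue K ℝ) (D : Divisor K F), Divisor.degree D = a →
      ∀ S : Finset (Place K F), S.card + 2 * a < B.pool.card →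
        ∃ A : Fin (B.rk a) → Place K F, (∀ l, A l ∈ B.pool ∧ A l ∉ S) ∧
          Real.exp (B.T a D w) * ∏ l, B.G a D w (A l) ≤ C w * w (B.theta a D A) := by
  classical
  obtain ⟨Cs, hCs, hs⟩ := B.exists_bd_smallSet (2 * a)
  let S₁ := fun w => archN w (B.rk a) * (Cs w * B.cb w)
  have hS₁ : IsBd S₁ := (IsBd.archN_bd _).mul (hCs.mul B.isBd_cb)
  refine ⟨fun w => B.cb w ^ (B.rk a) * S₁ w ^ (B.rk a), (B.isBd_cb.pow _).mul (hS₁.pow _),
    fun w D hD S hScard => ?_⟩
  set c := B.chartAt ha hD w
  have hc := (B.adapted_chartAt ha hD w).1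
  let M := fun A : Fin (B.rk a) → Place K F => B.evMat D c.uBasis A
  suffices h : ∀ k ≤ B.rk a, ∃ A : Fin (B.rk a) → Place K F,
      (∀ l, A l ∈ B.pool) ∧ (∀ l : Fin (B.rk a), (l : ℕ) < k → A l ∉ S) ∧
      ∏ l, c.W w (A l) ≤ B.cb w ^ (B.rk a) * S₁ w ^ k * w (M A).det by
    obtain ⟨A, h1, h2, h3⟩ := h _ le_rfl
    refine ⟨A, fun l => ⟨h1 l, h2 l l.2⟩, ?_⟩
    rw [B.abs_theta ha hD A w, Finset.prod_congr rfl fun l _ => B.G_eq ha hD w (A l),
      mul_left_comm]
    exact mul_le_mul_of_nonneg_left h3 (Real.exp_pos _).le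
  intro k hk
  induction k with
  | zero =>
    refine ⟨c.A, c.A_mem, fun l hl => absurd hl (Nat.not_lt_zero _), ?_⟩
    rw [c.det_evMat_A, map_prod, pow_zero, mul_one]
    calc _ ≤ ∏ l, B.cb w * w (evAt B.U (D (c.A l)) (c.A l) (c.u l)) :=
          Finset.prod_le_prod (fun l _ => c.W_nonneg w _) fun l _ => c.W_le_ev hc l
      _ = _ := by
        rw [Finset.prod_mul_distrib, Finset.prod_const, Finset.card_univ, Fintype.card_fin]
  | succ k ih =>
    obtain ⟨A, hA, hAS, hdet⟩ := ih (by omega)
    let j : Fin (B.rk a) := ⟨k, by omega⟩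
    let x := fun i => ((M A).updateRow j (Pi.single i (1 : K))).det
    have hexp : ∀ b, (M (Function.update A j b)).det
        = ∑ i, evAt B.U (D b) b (c.u i) * x i := by
      intro b
      have hrow : M (Function.update A j b)
          = (M A).updateRow j (∑ i, evAt B.U (D b) b (c.u i) • Pi.single i (1 : K)) := by
        ext l i
        show B.evMat D c.uBasis (Function.update A j b) l i = _
        rw [B.abs_evMat_uBasis]
        rcases eq_or_ne l j with rfl | hl
        · simp [Finset.sum_apply, Pi.single_apply]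
        · rw [Matrix.updateRow_ne hl, Function.update_of_ne hl]
          exact (B.abs_evMat_uBasis c A l i).symm
      rw [hrow]
      refine ((Matrix.detRowAlternating (R := K)
        (n := Fin (B.rk a))).toMultilinearMap.map_update_sum (t := Finset.univ) (i := j)
        (g := fun i => evAt B.U (D b) b (c.u i) • Pi.single i (1 : K)) (m := M A)).trans ?_
      exact Finset.sum_congr rfl fun i _ => Matrix.det_updateRow_smul ..
    have hne : (Finset.univ : Finset (Fin (B.rk a))).Nonempty := ⟨j, Finset.mem_univ _⟩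
    obtain ⟨i, -, hmax⟩ := Finset.exists_max_image Finset.univ (fun i => w (x i)) hne
    have hjval : w (M A).det ≤ archN w (B.rk a) * (c.W w (A j) * w (x i)) := by
      rw [show M A = M (Function.update A j (A j)) by rw [Function.update_eq_self], hexp]
      refine (sum_le_archN_univ w _ (mul_nonneg (c.W_nonneg w _) (w.nonneg _)) fun l => ?_).trans_eq
        (by rw [Fintype.card_fin])
      rw [map_mul]
      exact mul_le_mul (c.le_W w _ l) (hmax l (Finset.mem_univ _)) (w.nonneg _) (c.W_nonneg w _)
    set f : F := ∑ l, x l • c.u l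
    have hf : f ∈ riemannRochSpace D :=
      Submodule.sum_mem _ fun l _ => Submodule.smul_mem _ _ (c.u_mem l)
    have hfev : ∀ b, evAt B.U (D b) b f = ∑ l, x l * evAt B.U (D b) b (c.u l) := by
      intro b
      have h1 : evL B.U D b (∑ l, x l • (⟨c.u l, c.u_mem l⟩ : riemannRochSpace D))
          = ∑ l, x l * evAt B.U (D b) b (c.u l) := by
        rw [map_sum]
        exact Finset.sum_congr rfl fun l _ => by rw [map_smul, evL_apply, smul_eq_mul]
      rw [← h1, evL_apply]
      simp [f]
    have hfv : f * c.v i ∈ riemannRochSpace (B.inf (2 * a : ℕ)) := by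
      rw [← B.add_dual a D]; exact mul_mem_riemannRochSpace hf (c.v_mem i)
    have hfvev : ∀ b ∈ B.pool, evAt B.U 0 b (f * c.v i)
        = (∑ l, x l * evAt B.U (D b) b (c.u l)) * evAt B.U (B.dual a D b) b (c.v i) := by
      intro b hb
      rw [← hfev, ← evAt_mul B.U (mem_riemannRochSpace.mp hf b)
        (mem_riemannRochSpace.mp (c.v_mem i) b), ← Finsupp.add_apply, B.add_dual, B.inf_pool _ hb]
    have hxi : w (x i) ≤ B.poolNorm w (f * c.v i) := by
      have := B.le_poolNorm w (f * c.v i) (c.A_mem i)
      rwa [hfvev _ (c.A_mem i), Finset.sum_eq_single i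
        (fun l _ hl => by rw [c.u_zero l i hl, mul_zero]) (fun h => absurd (Finset.mem_univ i) h),
        mul_assoc, c.one, mul_one] at this
    obtain ⟨b, hb, hbn⟩ : ∃ b ∈ B.pool, b ∉ B.smallSet w (f * c.v i) (Cs w) ∪ S := by
      refine Finset.exists_mem_notMem_of_card_lt_card ((Finset.card_union_le _ _).trans_lt ?_)
      have := hs w _ hfv
      omega
    simp only [Finset.mem_union, not_or] at hbn
    refine ⟨Function.update A j b, fun l => ?_, fun l hl => ?_, ?_⟩
    · rcases eq_or_ne l j with rfl | hl
      · rw [Function.update_self]; exact hb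
      · rw [Function.update_of_ne hl]; exact hA l
    · rcases eq_or_ne l j with rfl | hlj
      · rw [Function.update_self]; exact hbn.2
      · rw [Function.update_of_ne hlj]
        exact hAS l (by
          have : (l : ℕ) ≠ k := fun h => hlj (Fin.ext h)
          omega)
    · have h1 : w (x i) * c.W w b ≤ Cs w * B.cb w * w (M (Function.update A j b)).det := by
        have h2 := hxi.trans (B.le_of_notMem_smallSet hb hbn.1)
        rw [hfvev b hb, map_mul, show (∑ l, x l * evAt B.U (D b) b (c.u l))
          = (M (Function.update A j b)).det by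
            rw [hexp]; exact Finset.sum_congr rfl fun l _ => mul_comm _ _] at h2
        calc w (x i) * c.W w b
            ≤ Cs w * (w (M (Function.update A j b)).det * c.symm.W w b) * c.W w b :=
              mul_le_mul_of_nonneg_right (h2.trans (mul_le_mul_of_nonneg_left
                (mul_le_mul_of_nonneg_left (c.symm.le_W w b i) (w.nonneg _)) (hCs.nonneg w)))
                (c.W_nonneg w _)
          _ = Cs w * w (M (Function.update A j b)).det * (c.W w b * c.symm.W w b) := by ring
          _ ≤ Cs w * w (M (Function.update A j b)).det * B.cb w :=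
              mul_le_mul_of_nonneg_left (c.W_mul_W_le hc hb)
                (mul_nonneg (hCs.nonneg w) (w.nonneg _))
          _ = _ := by ring
      have hQ : 0 ≤ B.cb w ^ B.rk a * S₁ w ^ k :=
        mul_nonneg (pow_nonneg (B.isBd_cb.nonneg w) _) (pow_nonneg (hS₁.nonneg w) _)
      have hrest : ∏ l ∈ Finset.univ.erase j, c.W w (A l)
          ≤ B.cb w ^ B.rk a * S₁ w ^ k * (archN w (B.rk a) * w (x i)) := by
        refine le_of_mul_le_mul_left ?_ (c.W_pos w (A j))
        rw [Finset.mul_prod_erase _ (fun l => c.W w (A l)) (Finset.mem_univ j)]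
        refine hdet.trans ((mul_le_mul_of_nonneg_left hjval hQ).trans_eq ?_)
        ring
      calc ∏ l, c.W w (Function.update A j b l)
          = c.W w b * ∏ l ∈ Finset.univ.erase j, c.W w (A l) := by
            rw [← Finset.mul_prod_erase _ _ (Finset.mem_univ j), Function.update_self]
            congr 1
            exact Finset.prod_congr rfl fun l hl => by
              rw [Function.update_of_ne (Finset.ne_of_mem_erase hl)]
        _ ≤ c.W w b * (B.cb w ^ B.rk a * S₁ w ^ k * (archN w (B.rk a) * w (x i))) :=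
            mul_le_mul_of_nonneg_left hrest (c.W_nonneg w b)
        _ = B.cb w ^ B.rk a * S₁ w ^ k * archN w (B.rk a) * (w (x i) * c.W w b) := by ring
        _ ≤ B.cb w ^ B.rk a * S₁ w ^ k * archN w (B.rk a) *
              (Cs w * B.cb w * w (M (Function.update A j b)).det) :=
            mul_le_mul_of_nonneg_left h1 (mul_nonneg hQ (archN_pos w _).le)
        _ = _ := by simp only [S₁, pow_succ]; ring

end Base

end Fermat.Agent.MW
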