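import Fermat.Agent.FF.Degree

/-!
# Riemann–Roch in large degree

`deg D + 1 - rGenus K F ≤ l(D)` for every divisor (`ell_ge`), with equality from the degree
`rBound K F` on (`ell_eq`).
-/

set_option autoImplicit false

noncomputable section

open AlgebraicCurve IsLocalRing

namespace Fermat.Agent.MW

open FF

variable {K F : Type*} [Field K] [Field F] [Algebra K F] [IsFunctionField K F]

/-- Riemann–Roch holds exactly from some degree on. -/
theorem exists_genus_threshold (K F : Type*) [Field K] [Field F] [Algebra K F]
    [IsFunctionField K F] :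
    ∃ g d₀ : ℤ, (∀ D : Divisor K F, Divisor.degree D + 1 - g ≤ (ell D : ℤ)) ∧
      (∀ D : Divisor K F, d₀ ≤ Divisor.degree D → (ell D : ℤ) = Divisor.degree D + 1 - g) := by
  classical
  obtain ⟨γ, hγ⟩ := exists_riemann_inequality K F
  obtain ⟨g, ⟨D₀, hD₀⟩, hgmax⟩ := Int.exists_greatest_of_bdd
    (P := fun n : ℤ => ∃ D : Divisor K F, n = Divisor.degree D + 1 - (ell D : ℤ))
    ⟨γ, by rintro n ⟨D, rfl⟩; have := hγ D; omega⟩ ⟨_, 0, rfl⟩
  have hineq : ∀ D : Divisor K F, Divisor.degree D + 1 - g ≤ (ell D : ℤ) := fun D => by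
    have := hgmax _ ⟨D, rfl⟩
    omega
  refine ⟨g, Divisor.degree D₀ + g, hineq, fun D hD => ?_⟩
  refine le_antisymm ?_ (hineq D)
  have hpos : 0 < ell (D - D₀) := by
    have := hineq (D - D₀)
    rw [map_sub] at this
    omega
  obtain ⟨f, hf, hf0⟩ : ∃ f ∈ riemannRochSpace (D - D₀), f ≠ 0 := by
    refine Submodule.exists_mem_ne_zero_of_ne_bot fun h => ?_
    rw [ell, h, finrank_bot] at hpos
    exact lt_irrefl 0 hpos
  have hle : D₀ ≤ D + divOf K f := fun v => by
    have := mem_riemannRochSpace.mp hf v
    rw [mem_ordGE_of_ne_zero v hf0] at this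
    simp only [Finsupp.sub_apply] at this
    simp only [Finsupp.add_apply, divOf_apply]
    omega
  have h4 := ell_sub_degree_antitone hle
  have h5 : ell (D + divOf K f) = ell D := by
    have := ell_sub_divOf hf0 (D + divOf K f)
    rwa [add_sub_cancel_right, eq_comm] at this
  rw [h5, map_add, degree_divOf, add_zero] at h4
  omega

variable (K F) in
/-- The genus, as the constant in Riemann–Roch in large degree. -/
def rGenus : ℤ := (exists_genus_threshold K F).choose

variable (K F) in
/-- A degree from which Riemann–Roch holds exactly. -/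
def rBound : ℤ := (exists_genus_threshold K F).choose_spec.choose

theorem ell_ge (D : Divisor K F) : Divisor.degree D + 1 - rGenus K F ≤ (ell D : ℤ) :=
  (exists_genus_threshold K F).choose_spec.choose_spec.1 D

theorem ell_eq {D : Divisor K F} (h : rBound K F ≤ Divisor.degree D) :
    (ell D : ℤ) = Divisor.degree D + 1 - rGenus K F :=
  (exists_genus_threshold K F).choose_spec.choose_spec.2 D h

variable [IsAlgClosed K]

theorem degree_single_eq (v : Place K F) (n : ℤ) : Divisor.degree (Finsupp.single v n) = n := by
  rw [Divisor.degree_single, deg_eq_one]; simp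

theorem ell_zero : ell (0 : Divisor K F) = 1 := by
  obtain ⟨v⟩ := (instNonemptyPlace : Nonempty (Place K F))
  refine le_antisymm ?_ ?_
  · have hlt : ell (-(Finsupp.single v 1) : Divisor K F) = 0 :=
      ell_eq_zero_of_degree_neg (by rw [map_neg, degree_single_eq]; norm_num)
    have := (riemannRochSpace_step (-(Finsupp.single v 1) : Divisor K F) v).2
    rw [neg_add_cancel] at this
    change ell (0 : Divisor K F) ≤ ell (-(Finsupp.single v 1) : Divisor K F) + v.deg at this
    rwa [hlt, deg_eq_one] at this
  · have h1 : (1 : F) ∈ riemannRochSpace (0 : Divisor K F) := by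
      rw [mem_riemannRochSpace]; intro w; simpa using one_mem_ordGE_zero w
    rw [ell, Submodule.one_le_finrank_iff]
    intro hbot
    rw [hbot, Submodule.mem_bot] at h1
    exact one_ne_zero h1

theorem rGenus_nonneg : 0 ≤ rGenus K F := by
  have := ell_ge (0 : Divisor K F)
  rw [ell_zero, map_zero] at this
  omega

end Fermat.Agent.MW
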