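import Fermat.Agent.MordellWeil.Ell

/-!
# Normalised evaluation at a place

With a uniformiser `U.z P` at each place, `evAt U n P f` is the value at `P` of `f * z_P ^ n`
(for `ord_P f ≥ -n`).  It is multiplicative in `(n, f)`, so no disjointness of supports is ever
needed.
-/

set_option autoImplicit false

noncomputable section

open AlgebraicCurve IsLocalRing

namespace Fermat.Agent.MW

open FF

variable {K F : Type*} [Field K] [Field F] [Algebra K F] [IsFunctionField K F] [IsAlgClosed K]

theorem algebraMap_residueField_bijective (P : Place K F) :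
    Function.Bijective (algebraMap K P.ResidueField) :=
  haveI : Algebra.IsIntegral K P.ResidueField := Algebra.IsIntegral.of_finite K P.ResidueField
  IsAlgClosed.algebraMap_bijective_of_isIntegral

/-- The residue field of a place is the constant field. -/
def residueEquiv (P : Place K F) : K ≃ₐ[K] P.ResidueField :=
  AlgEquiv.ofBijective (Algebra.ofId K P.ResidueField) (algebraMap_residueField_bijective P)

/-- The value at `P` of a function regular at `P`. -/
def valAt (P : Place K F) : ordGE P 0 →ₗ[K] K :=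
  (residueEquiv P).symm.toLinearMap.comp (residueMap P)

theorem valAt_eq_zero_iff (P : Place K F) (f : ordGE P 0) :
    valAt P f = 0 ↔ (f : F) ∈ ordGE P 1 := by
  rw [← residueMap_eq_zero_iff]
  exact map_eq_zero_iff _ (residueEquiv P).symm.injective

theorem valAt_mul (P : Place K F) (f g h : ordGE P 0) (hh : (h : F) = f * g) :
    valAt P h = valAt P f * valAt P g := by
  show (residueEquiv P).symm _ = (residueEquiv P).symm _ * (residueEquiv P).symm _
  rw [← map_mul]
  refine congrArg _ ?_
  rw [residueMap_apply, residueMap_apply, residueMap_apply, ← map_mul]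
  exact congrArg _ (Subtype.ext hh)

theorem valAt_one (P : Place K F) : valAt P ⟨1, one_mem_ordGE_zero P⟩ = 1 := by
  show (residueEquiv P).symm _ = 1
  rw [residueMap_apply, ← map_one (residueEquiv P).symm]
  exact congrArg _ (map_one (residue P.toValuationSubring))

/-- A system of uniformisers. -/
structure Unif (K F : Type*) [Field K] [Field F] [Algebra K F] where
  /-- the uniformiser at a place -/
  z : Place K F → F
  ord_z : ∀ P : Place K F, P.ord (z P) = 1

omit [IsFunctionField K F] [IsAlgClosed K] in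
theorem Unif.ne_zero (U : Unif K F) (P : Place K F) : U.z P ≠ 0 := fun h => by
  simpa [h] using U.ord_z P

instance : Nonempty (Unif K F) :=
  ⟨⟨fun P => (exists_uniformizer P).choose, fun P => (exists_uniformizer P).choose_spec.2⟩⟩

variable (U : Unif K F)

omit [IsFunctionField K F] [IsAlgClosed K] in
theorem mul_zpow_mem_iff (P : Place K F) {n m : ℤ} {f : F} :
    f * U.z P ^ n ∈ ordGE P (m + n) ↔ f ∈ ordGE P m := by
  have hz : U.z P ^ n ≠ 0 := zpow_ne_zero _ (U.ne_zero P)
  rw [mul_comm, show m + n = P.ord (U.z P ^ n) + m by rw [P.ord_zpow, U.ord_z]; ring,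
    mul_mem_ordGE_iff P hz]

omit [IsFunctionField K F] [IsAlgClosed K] in
theorem mul_zpow_mem (P : Place K F) {n : ℤ} {f : F} (h : f ∈ ordGE P (-n)) :
    f * U.z P ^ n ∈ ordGE P 0 := by
  simpa using (mul_zpow_mem_iff U P (n := n)).mpr h

open Classical in
/-- The value at `P` of `f * z_P ^ n`. -/
def evAt (n : ℤ) (P : Place K F) (f : F) : K :=
  if h : f ∈ ordGE P (-n) then valAt P ⟨f * U.z P ^ n, mul_zpow_mem U P h⟩ else 0

theorem evAt_of_mem {n : ℤ} {P : Place K F} {f : F} (h : f ∈ ordGE P (-n)) :
    evAt U n P f = valAt P ⟨f * U.z P ^ n, mul_zpow_mem U P h⟩ := by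
  rw [evAt, dif_pos h]

theorem evAt_zero (n : ℤ) (P : Place K F) : evAt U n P (0 : F) = 0 := by
  rw [evAt_of_mem U (zero_mem _), valAt_eq_zero_iff]
  simp

theorem evAt_eq_zero_iff {n : ℤ} {P : Place K F} {f : F} (h : f ∈ ordGE P (-n)) :
    evAt U n P f = 0 ↔ f ∈ ordGE P (-n + 1) := by
  rw [evAt_of_mem U h, valAt_eq_zero_iff]
  simpa using mul_zpow_mem_iff U P (n := n) (m := -n + 1) (f := f)

theorem evAt_add {n : ℤ} {P : Place K F} {f g : F} (hf : f ∈ ordGE P (-n))
    (hg : g ∈ ordGE P (-n)) : evAt U n P (f + g) = evAt U n P f + evAt U n P g := by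
  rw [evAt_of_mem U hf, evAt_of_mem U hg, evAt_of_mem U (add_mem hf hg), ← map_add]
  exact congrArg _ (Subtype.ext (add_mul f g _))

theorem evAt_smul {n : ℤ} {P : Place K F} {f : F} (c : K) (hf : f ∈ ordGE P (-n)) :
    evAt U n P (c • f) = c * evAt U n P f := by
  rw [evAt_of_mem U hf, evAt_of_mem U (Submodule.smul_mem _ c hf)]
  refine Eq.trans ?_ (map_smul (valAt P) c ⟨f * U.z P ^ n, mul_zpow_mem U P hf⟩)
  exact congrArg _ (Subtype.ext (smul_mul_assoc c f (U.z P ^ n)))

theorem evAt_mul {m n : ℤ} {P : Place K F} {f g : F} (hf : f ∈ ordGE P (-m))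
    (hg : g ∈ ordGE P (-n)) : evAt U (m + n) P (f * g) = evAt U m P f * evAt U n P g := by
  have hfg : f * g ∈ ordGE P (-(m + n)) := by
    rw [neg_add]; exact mul_mem_ordGE P hf hg
  rw [evAt_of_mem U hf, evAt_of_mem U hg, evAt_of_mem U hfg]
  refine valAt_mul P _ _ _ ?_
  show f * g * U.z P ^ (m + n) = f * U.z P ^ m * (g * U.z P ^ n)
  rw [zpow_add₀ (U.ne_zero P)]
  ring

theorem evAt_one (P : Place K F) : evAt U 0 P (1 : F) = 1 := by
  rw [evAt_of_mem U (by simpa using one_mem_ordGE_zero P)]
  simpa using valAt_one P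

/-- The leading coefficient of a nonzero function is nonzero. -/
theorem evAt_neg_ord_ne_zero (P : Place K F) {f : F} (hf : f ≠ 0) :
    evAt U (-P.ord f) P f ≠ 0 := by
  rw [Ne, evAt_eq_zero_iff U (mem_ordGE_of_le_ord P (by simp)), mem_ordGE_of_ne_zero P hf]
  omega

/-- The evaluation functional on `L(D)`. -/
def evL (D : Divisor K F) (P : Place K F) : riemannRochSpace D →ₗ[K] K where
  toFun f := evAt U (D P) P (f : F)
  map_add' f g := evAt_add U (mem_riemannRochSpace.mp f.2 P) (mem_riemannRochSpace.mp g.2 P)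
  map_smul' c f := by
    rw [RingHom.id_apply, smul_eq_mul]
    exact evAt_smul U c (mem_riemannRochSpace.mp f.2 P)

theorem evL_apply (D : Divisor K F) (P : Place K F) (f : riemannRochSpace D) :
    evL U D P f = evAt U (D P) P (f : F) := rfl

theorem evL_eq_zero_iff (D : Divisor K F) (P : Place K F) (f : riemannRochSpace D) :
    evL U D P f = 0 ↔ (f : F) ∈ riemannRochSpace (D - Finsupp.single P 1) := by
  classical
  rw [evL_apply, evAt_eq_zero_iff U (mem_riemannRochSpace.mp f.2 P), mem_riemannRochSpace]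
  refine ⟨fun h w => ?_, fun h => by simpa [neg_add_eq_sub] using h P⟩
  rcases eq_or_ne w P with rfl | hw
  · simpa [neg_add_eq_sub] using h
  · simpa [Finsupp.single_eq_of_ne hw] using mem_riemannRochSpace.mp f.2 w

/-- Evaluation is onto in large degree. -/
theorem evL_surjective (D : Divisor K F) (P : Place K F)
    (h : rBound K F + 1 ≤ Divisor.degree D) : Function.Surjective (evL U D P) := by
  have hne : ∃ f, evL U D P f ≠ 0 := by
    by_contra! hall
    have hle : riemannRochSpace D ≤ riemannRochSpace (D - Finsupp.single P 1) := fun f hf =>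
      (evL_eq_zero_iff U D P ⟨f, hf⟩).mp (hall ⟨f, hf⟩)
    have h1 : ell D ≤ ell (D - Finsupp.single P 1) := Submodule.finrank_mono hle
    have h2 := ell_eq (D := D) (by omega)
    have h3 := ell_eq (D := D - Finsupp.single P 1)
      (by rw [map_sub, degree_single_eq]; omega)
    rw [map_sub, degree_single_eq] at h3
    omega
  obtain ⟨f, hf⟩ := hne
  exact fun c => ⟨(c / evL U D P f) • f, by rw [map_smul, smul_eq_mul, div_mul_cancel₀ _ hf]⟩

theorem exists_evL_ne_zero (D : Divisor K F) (P : Place K F)
    (h : rBound K F + 1 ≤ Divisor.degree D) : ∃ f, evL U D P f ≠ 0 := by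
  obtain ⟨f, hf⟩ := evL_surjective U D P h 1
  exact ⟨f, by rw [hf]; exact one_ne_zero⟩

end Fermat.Agent.MW
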