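import Fermat.Agent.MordellWeil.Certificate
import Mathlib.LinearAlgebra.Matrix.Determinant.Basic
import Mathlib.LinearAlgebra.Matrix.NonsingularInverse

/-!
# Adapted charts exist at every absolute value

Maximising the product of the two evaluation determinants over pool places gives a chart whose
diagonal products are small; rescaling by Gauss's lemma makes all products bounded and normalises
the gauge at the base pool place `b₀`.
-/

set_option autoImplicit false

noncomputable section

open AlgebraicCurve Matrix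

namespace Fermat.Agent.MW

open FF

variable {K F : Type*} [Field K] [Field F] [Algebra K F] [IsFunctionField K F] [IsAlgClosed K]

namespace Base

variable (B : Base K F)

/-- A fixed place of the pool, used for normalisation. -/
def b₀ : Place K F := B.pool_nonempty.choose

theorem b₀_mem : B.b₀ ∈ B.pool := B.pool_nonempty.choose_spec

theorem poolNorm_mul_le (w : AbsoluteValue K ℝ) {m n : ℤ} {f g : F}
    (hf : f ∈ riemannRochSpace (B.inf m)) (hg : g ∈ riemannRochSpace (B.inf n)) :
    B.poolNorm w (f * g) ≤ B.poolNorm w f * B.poolNorm w g := by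
  refine B.poolNorm_le w _ fun b hb => ?_
  have h := evAt_mul B.U (B.mem_ordGE_pool hf hb) (B.mem_ordGE_pool hg hb)
  rw [zero_add] at h
  rw [h, map_mul]
  exact mul_le_mul (B.le_poolNorm w f hb) (B.le_poolNorm w g hb) (w.nonneg _)
    (B.poolNorm_nonneg w f)

theorem poolNorm_smul (w : AbsoluteValue K ℝ) {m : ℤ} {f : F} (t : K)
    (hf : f ∈ riemannRochSpace (B.inf m)) : B.poolNorm w (t • f) = w t * B.poolNorm w f := by
  refine le_antisymm (B.poolNorm_le w _ fun b hb => ?_) ?_
  · rw [evAt_smul B.U t (B.mem_ordGE_pool hf hb), map_mul]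
    exact mul_le_mul_of_nonneg_left (B.le_poolNorm w f hb) (w.nonneg _)
  · obtain ⟨b, hb, hmax⟩ := B.exists_poolNorm_eq w f
    rw [hmax, ← map_mul, ← evAt_smul B.U t (B.mem_ordGE_pool hf hb)]
    exact B.le_poolNorm w _ hb

/-- The sum of finitely many places, as a divisor. -/
def sumDiv (S : Finset (Place K F)) : Divisor K F := ∑ b ∈ S, Finsupp.single b (1 : ℤ)

omit [IsFunctionField K F] [IsAlgClosed K] in
open Classical in
theorem sumDiv_apply (S : Finset (Place K F)) (P : Place K F) :
    sumDiv S P = if P ∈ S then 1 else 0 := by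
  simp [sumDiv, Finsupp.finsetSum_apply, Finsupp.single_apply]

theorem degree_sumDiv (S : Finset (Place K F)) : Divisor.degree (sumDiv S) = S.card := by
  simp only [sumDiv, map_sum, degree_single_eq, Finset.sum_const, nsmul_eq_mul, mul_one]

/-- Common interpolation places for `D` and its dual. -/
theorem exists_places {a : ℕ} (ha : B.d ≤ a) (ha' : 4 * a < B.pool.card) {D : Divisor K F}
    (hD : Divisor.degree D = a) :
    ∃ S : Finset (Place K F), S ⊆ B.pool ∧ S.card = B.rk a ∧
      ell (D - sumDiv S) = 0 ∧ ell (B.dual a D - sumDiv S) = 0 := by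
  classical
  suffices h : ∀ s ≤ B.rk a, ∃ S : Finset (Place K F), S ⊆ B.pool ∧ S.card = s ∧
      ell (D - sumDiv S) + s = B.rk a ∧ ell (B.dual a D - sumDiv S) + s = B.rk a by
    obtain ⟨S, h1, h2, h3, h4⟩ := h _ le_rfl
    exact ⟨S, h1, h2, by omega, by omega⟩
  have hcast := B.cast_rk ha
  have hg := rGenus_nonneg (K := K) (F := F)
  intro s hs
  induction s with
  | zero =>
    exact ⟨∅, Finset.empty_subset _, rfl, by simp [sumDiv, B.ell_eq_rk ha hD],
      by simp [sumDiv, B.ell_eq_rk ha (B.degree_dual hD)]⟩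
  | succ s ih =>
    obtain ⟨S, hSp, hSc, h1, h2⟩ := ih (by omega)
    have getf : ∀ E : Divisor K F, Divisor.degree E = a → ell (E - sumDiv S) + s = B.rk a →
        ∃ f ∈ riemannRochSpace (E - sumDiv S), f ≠ 0 ∧
          (B.pool.filter fun b => b ∉ S ∧
            f ∈ riemannRochSpace (E - sumDiv S - Finsupp.single b 1)).card ≤ a := by
      intro E hE hell
      obtain ⟨f, hf, hf0⟩ : ∃ f ∈ riemannRochSpace (E - sumDiv S), f ≠ 0 := by
        refine Submodule.exists_mem_ne_zero_of_ne_bot fun h => ?_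
        rw [ell, h, finrank_bot] at hell
        omega
      refine ⟨f, hf, hf0, ?_⟩
      set Z := B.pool.filter fun b => b ∉ S ∧
        f ∈ riemannRochSpace (E - sumDiv S - Finsupp.single b 1)
      by_contra! hcard
      have hmem : f ∈ riemannRochSpace (E - sumDiv S - sumDiv Z) := by
        rw [mem_riemannRochSpace]
        intro P
        by_cases hP : P ∈ Z
        · have := mem_riemannRochSpace.mp (Finset.mem_filter.mp hP).2.2 P
          simpa [sumDiv_apply, hP] using this
        · simpa [sumDiv_apply, hP] using mem_riemannRochSpace.mp hf P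
      have hz := ell_eq_zero_of_degree_neg (D := E - sumDiv S - sumDiv Z)
        (by rw [map_sub, map_sub, degree_sumDiv, degree_sumDiv, hE]; omega)
      rw [ell, Submodule.finrank_eq_zero] at hz
      rw [hz, Submodule.mem_bot] at hmem
      exact hf0 hmem
    obtain ⟨f, hf, -, hfc⟩ := getf D hD h1
    obtain ⟨g, hg', -, hgc⟩ := getf _ (B.degree_dual hD) h2
    obtain ⟨b, hb, hbn⟩ : ∃ b ∈ B.pool,
        b ∉ (B.pool.filter fun b => b ∉ S ∧
            f ∈ riemannRochSpace (D - sumDiv S - Finsupp.single b 1)) ∪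
          (B.pool.filter fun b => b ∉ S ∧
            g ∈ riemannRochSpace (B.dual a D - sumDiv S - Finsupp.single b 1)) ∪ S := by
      refine Finset.exists_mem_notMem_of_card_lt_card ?_
      refine (Finset.card_union_le _ _).trans_lt ?_
      refine (Nat.add_le_add_right (Finset.card_union_le _ _) _).trans_lt ?_
      omega
    simp only [Finset.mem_union, Finset.mem_filter, not_or, not_and] at hbn
    obtain ⟨⟨hbf, hbg⟩, hbS⟩ := hbn
    have drop : ∀ (E : Divisor K F) (f : F), f ∈ riemannRochSpace (E - sumDiv S) →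
        f ∉ riemannRochSpace (E - sumDiv S - Finsupp.single b 1) →
        ell (E - sumDiv S) + s = B.rk a →
        ell (E - sumDiv (insert b S)) + (s + 1) = B.rk a := by
      intro E f hf hfn hell
      have heq : E - sumDiv (insert b S) = E - sumDiv S - Finsupp.single b 1 := by
        rw [sumDiv, sumDiv, Finset.sum_insert hbS]; abel
      rw [heq]
      have hlt : ell (E - sumDiv S - Finsupp.single b 1) < ell (E - sumDiv S) :=
        Submodule.finrank_lt_finrank_of_lt (SetLike.lt_iff_le_and_exists.mpr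
          ⟨riemannRochSpace_mono (sub_le_self _ (by simp)), f, hf, hfn⟩)
      have hstep := (riemannRochSpace_step (E - sumDiv S - Finsupp.single b 1) b).2
      rw [sub_add_cancel, deg_eq_one] at hstep
      change ell (E - sumDiv S) ≤ ell (E - sumDiv S - Finsupp.single b 1) + 1 at hstep
      omega
    exact ⟨insert b S, Finset.insert_subset hb hSp, by rw [Finset.card_insert_of_notMem hbS, hSc],
      drop D f hf (fun h => hbf hb hbS h) h1, drop _ g hg' (fun h => hbg hb hbS h) h2⟩

/-- The evaluation matrix of a family at places. -/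
def evMat {r : ℕ} (E : Divisor K F) (e : Fin r → riemannRochSpace E) (A : Fin r → Place K F) :
    Matrix (Fin r) (Fin r) K :=
  fun l j => evL B.U E (A l) (e j)

/-- The cardinal family attached to an invertible evaluation matrix. -/
def cardinal {r : ℕ} (E : Divisor K F) (e : Fin r → riemannRochSpace E) (A : Fin r → Place K F)
    (l : Fin r) : riemannRochSpace E :=
  ∑ j, (B.evMat E e A)⁻¹ j l • e j

theorem evL_cardinal {r : ℕ} (E : Divisor K F) (e : Fin r → riemannRochSpace E)
    (A : Fin r → Place K F) (h : (B.evMat E e A).det ≠ 0) (m l : Fin r) :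
    evL B.U E (A m) (B.cardinal E e A l) = if m = l then 1 else 0 := by
  have := congrFun (congrFun (Matrix.mul_nonsing_inv _ (isUnit_iff_ne_zero.mpr h)) m) l
  rw [Matrix.mul_apply, Matrix.one_apply] at this
  rw [← this, cardinal, map_sum]
  exact Finset.sum_congr rfl fun j _ => by rw [map_smul, smul_eq_mul, mul_comm]; rfl

/-- Cramer's rule. -/
theorem det_update_evMat {r : ℕ} (E : Divisor K F) (e : Fin r → riemannRochSpace E)
    (A : Fin r → Place K F) (h : (B.evMat E e A).det ≠ 0) (i : Fin r) (b : Place K F) :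
    (B.evMat E e (Function.update A i b)).det
      = evL B.U E b (B.cardinal E e A i) * (B.evMat E e A).det := by
  classical
  set M := B.evMat E e A
  have hexp : ∀ j, e j = ∑ l, M l j • B.cardinal E e A l := by
    intro j
    have hmul := Matrix.nonsing_inv_mul M (isUnit_iff_ne_zero.mpr h)
    simp only [cardinal, Finset.smul_sum, smul_smul]
    rw [Finset.sum_comm]
    simp only [← Finset.sum_smul]
    rw [Finset.sum_eq_single j]
    · have := congrFun (congrFun hmul j) j
      rw [Matrix.mul_apply, Matrix.one_apply_eq] at this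
      rw [show (∑ l, M l j * M⁻¹ j l) = 1 by
          rw [← this]; exact Finset.sum_congr rfl fun l _ => mul_comm _ _,
        one_smul]
    · intro k _ hk
      have := congrFun (congrFun hmul k) j
      rw [Matrix.mul_apply, Matrix.one_apply_ne hk] at this
      rw [show (∑ l, M l j * M⁻¹ k l) = 0 by
          rw [← this]; exact Finset.sum_congr rfl fun l _ => mul_comm _ _,
        zero_smul]
    · exact fun hh => absurd (Finset.mem_univ j) hh
  have hrow : B.evMat E e (Function.update A i b)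
      = M.updateRow i (∑ l, evL B.U E b (B.cardinal E e A l) • M l) := by
    ext m j
    by_cases hm : m = i
    · subst hm
      rw [Matrix.updateRow_self, Finset.sum_apply]
      show evL B.U E (Function.update A m b m) (e j) = _
      rw [Function.update_self, hexp j, map_sum]
      exact Finset.sum_congr rfl fun l _ => by
        rw [map_smul, Pi.smul_apply, smul_eq_mul, smul_eq_mul, mul_comm]
    · rw [Matrix.updateRow_ne hm]
      show evL B.U E (Function.update A i b m) (e j) = _
      rw [Function.update_of_ne hm]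
      rfl
  rw [hrow, Matrix.det_updateRow_sum, smul_eq_mul]

/-- The chart of cardinal families at pool places where both evaluation matrices are invertible. -/
def chartOfDet {a : ℕ} (ha : B.d ≤ a) {D : Divisor K F} (hD : Divisor.degree D = a)
    (A : Fin (B.rk a) → Place K F) (hA : ∀ l, A l ∈ B.pool)
    (e : Fin (B.rk a) → riemannRochSpace D) (e' : Fin (B.rk a) → riemannRochSpace (B.dual a D))
    (h : (B.evMat D e A).det ≠ 0) (h' : (B.evMat (B.dual a D) e' A).det ≠ 0) : B.Chart a D where
  A := A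
  A_mem := hA
  u i := B.cardinal D e A i
  v i := B.cardinal (B.dual a D) e' A i
  u_mem i := Subtype.property _
  v_mem i := Subtype.property _
  u_zero i l hil := by rw [← evL_apply, B.evL_cardinal D e _ h, if_neg (Ne.symm hil)]
  v_zero i l hil := by rw [← evL_apply, B.evL_cardinal _ e' _ h', if_neg (Ne.symm hil)]
  one l := by
    rw [← evL_apply, ← evL_apply, B.evL_cardinal D e _ h, B.evL_cardinal _ e' _ h']; simp
  degree_eq := hD
  le_a := ha

/-- A chart is adapted at `w` with constant `C`. -/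
def Chart.Adapted {B : Base K F} {a : ℕ} {D : Divisor K F} (c : B.Chart a D)
    (w : AbsoluteValue K ℝ) (C : ℝ) : Prop :=
  c.Bdd w C ∧ c.W w B.b₀ ≤ C ∧ 1 ≤ C * c.W w B.b₀ ∧ c.symm.W w B.b₀ ≤ C ∧
    1 ≤ C * c.symm.W w B.b₀

theorem Chart.symm_symm_W {B : Base K F} {a : ℕ} {D : Divisor K F} (c : B.Chart a D)
    (w : AbsoluteValue K ℝ) (P : Place K F) : c.symm.symm.W w P = c.W w P := by
  show (⨆ i, w (evAt B.U (B.dual a (B.dual a D) P) P (c.u i))) = _
  rw [B.dual_dual]
  rfl

theorem Chart.Adapted.symm {B : Base K F} {a : ℕ} {D : Divisor K F} {c : B.Chart a D}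
    {w : AbsoluteValue K ℝ} {C : ℝ} (h : c.Adapted w C) : c.symm.Adapted w C :=
  ⟨Chart.Bdd.symm c h.1, h.2.2.2.1, h.2.2.2.2, by rw [c.symm_symm_W]; exact h.2.1,
    by rw [c.symm_symm_W]; exact h.2.2.1⟩

theorem Chart.Adapted.mono {B : Base K F} {a : ℕ} {D : Divisor K F} {c : B.Chart a D}
    {w : AbsoluteValue K ℝ} {C C' : ℝ} (h : c.Adapted w C) (hC : C ≤ C') : c.Adapted w C' :=
  ⟨Chart.Bdd.mono c h.1 hC, h.2.1.trans hC,
    h.2.2.1.trans (mul_le_mul_of_nonneg_right hC (c.W_nonneg _ _)), h.2.2.2.1.trans hC,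
    h.2.2.2.2.trans (mul_le_mul_of_nonneg_right hC (c.symm.W_nonneg _ _))⟩

/-- Rescale a chart. -/
def Chart.rescale {B : Base K F} {a : ℕ} {D : Divisor K F} (c : B.Chart a D)
    (t : Fin (B.rk a) → K) (ht : ∀ i, t i ≠ 0) : B.Chart a D where
  A := c.A
  A_mem := c.A_mem
  u i := (t i)⁻¹ • c.u i
  v i := t i • c.v i
  u_mem i := Submodule.smul_mem _ _ (c.u_mem i)
  v_mem i := Submodule.smul_mem _ _ (c.v_mem i)
  u_zero i l h := by
    rw [evAt_smul B.U _ (mem_riemannRochSpace.mp (c.u_mem i) _), c.u_zero i l h, mul_zero]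
  v_zero i l h := by
    rw [evAt_smul B.U _ (mem_riemannRochSpace.mp (c.v_mem i) _), c.v_zero i l h, mul_zero]
  one l := by
    rw [evAt_smul B.U _ (mem_riemannRochSpace.mp (c.u_mem l) _),
      evAt_smul B.U _ (mem_riemannRochSpace.mp (c.v_mem l) _),
      mul_mul_mul_comm, inv_mul_cancel₀ (ht l), c.one l, one_mul]
  degree_eq := c.degree_eq
  le_a := c.le_a

theorem Chart.rescale_mul {B : Base K F} {a : ℕ} {D : Divisor K F} (c : B.Chart a D)
    (t : Fin (B.rk a) → K) (ht : ∀ i, t i ≠ 0) (i k : Fin (B.rk a)) :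
    (c.rescale t ht).u i * (c.rescale t ht).v k = ((t i)⁻¹ * t k) • (c.u i * c.v k) := by
  show (t i)⁻¹ • c.u i * t k • c.v k = _
  rw [smul_mul_smul_comm]

/-- A chart maximising the product of the two determinants. -/
theorem exists_chart_diag {a : ℕ} (ha : B.d ≤ a) (ha' : 4 * a < B.pool.card) {D : Divisor K F}
    (hD : Divisor.degree D = a) (w : AbsoluteValue K ℝ) :
    ∃ c : B.Chart a D, ∀ i, B.poolNorm w (c.u i * c.v i) ≤ 1 := by
  classical
  obtain ⟨S, hSp, hSc, hS1, hS2⟩ := B.exists_places ha ha' hD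
  let A₀ : Fin (B.rk a) → Place K F := fun l => (S.equivFinOfCardEq hSc).symm l
  have hA₀S : ∀ l, A₀ l ∈ S := fun l => ((S.equivFinOfCardEq hSc).symm l).2
  have hr1 : ell D = B.rk a := B.ell_eq_rk ha hD
  have hr2 : ell (B.dual a D) = B.rk a := B.ell_eq_rk ha (B.degree_dual hD)
  let e : Module.Basis (Fin (B.rk a)) K (riemannRochSpace D) := Module.finBasisOfFinrankEq K _ hr1
  let e' : Module.Basis (Fin (B.rk a)) K (riemannRochSpace (B.dual a D)) :=
    Module.finBasisOfFinrankEq K _ hr2
  have hdet : ∀ (E : Divisor K F) (bas : Module.Basis (Fin (B.rk a)) K (riemannRochSpace E)),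
      ell (E - sumDiv S) = 0 → (B.evMat E bas A₀).det ≠ 0 := by
    intro E bas hE h0
    obtain ⟨g, hg0, hg⟩ := Matrix.exists_mulVec_eq_zero_iff.mpr h0
    set f : riemannRochSpace E := ∑ j, g j • bas j
    have hf : ∀ l, evL B.U E (A₀ l) f = 0 := fun l => by
      have := congrFun hg l
      rw [Matrix.mulVec, dotProduct] at this
      rw [map_sum]
      simp only [map_smul, smul_eq_mul]
      rw [← show (∑ x, B.evMat E (⇑bas) A₀ l x * g x) = 0 from this]
      exact Finset.sum_congr rfl fun j _ => mul_comm _ _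
    have hmem : (f : F) ∈ riemannRochSpace (E - sumDiv S) := by
      rw [mem_riemannRochSpace]
      intro P
      by_cases hP : P ∈ S
      · have hl := hf (S.equivFinOfCardEq hSc ⟨P, hP⟩)
        simp only [A₀, Equiv.symm_apply_apply] at hl
        rw [evL_eq_zero_iff] at hl
        simpa [sumDiv_apply, hP] using mem_riemannRochSpace.mp hl P
      · simpa [sumDiv_apply, hP] using mem_riemannRochSpace.mp f.2 P
    rw [ell, Submodule.finrank_eq_zero] at hE
    rw [hE, Submodule.mem_bot] at hmem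
    exact hg0 (funext fun j => by
      have := congrArg (fun y => bas.repr y j) (show f = 0 from Subtype.ext hmem)
      rw [show f = ∑ j, g j • bas j from rfl] at this
      simp only [bas.repr_sum_self, map_zero, Finsupp.zero_apply] at this
      simpa using this)
  let ψ : (Fin (B.rk a) → B.pool) → ℝ := fun A =>
    w ((B.evMat D e (fun l => (A l : Place K F))).det *
      (B.evMat (B.dual a D) e' (fun l => (A l : Place K F))).det)
  let A₀' : Fin (B.rk a) → B.pool := fun l => ⟨A₀ l, hSp (hA₀S l)⟩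
  obtain ⟨A, -, hA⟩ := Finset.exists_max_image Finset.univ ψ ⟨A₀', Finset.mem_univ _⟩
  have hpos : 0 < ψ A := lt_of_lt_of_le
    (w.pos (mul_ne_zero (hdet D e hS1) (hdet _ e' hS2))) (hA A₀' (Finset.mem_univ _))
  have hne : (B.evMat D e (fun l => (A l : Place K F))).det *
      (B.evMat (B.dual a D) e' (fun l => (A l : Place K F))).det ≠ 0 :=
    fun h => hpos.ne' (show ψ A = 0 by simp only [ψ]; rw [h, map_zero])
  have hd1 : (B.evMat D e (fun l => (A l : Place K F))).det ≠ 0 :=
    fun h => hne (by rw [h, zero_mul])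
  have hd2 : (B.evMat (B.dual a D) e' (fun l => (A l : Place K F))).det ≠ 0 :=
    fun h => hne (by rw [h, mul_zero])
  refine ⟨B.chartOfDet ha hD _ (fun l => (A l).2) e e' hd1 hd2,
    fun i => B.poolNorm_le w _ fun b hb => ?_⟩
  set c : B.Chart a D := _
  have hmax := hA (Function.update A i ⟨b, hb⟩) (Finset.mem_univ _)
  have hupd : (fun l => ((Function.update A i ⟨b, hb⟩) l : Place K F))
      = Function.update (fun l => (A l : Place K F)) i b := by
    funext l
    rcases eq_or_ne l i with rfl | h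
    · simp
    · simp [Function.update_of_ne h]
  simp only [ψ] at hmax hpos
  rw [hupd, B.det_update_evMat D e _ hd1, B.det_update_evMat _ e' _ hd2, mul_mul_mul_comm,
    map_mul] at hmax
  have h1 := le_of_mul_le_mul_right (hmax.trans (one_mul _).ge) hpos
  rw [evL_apply, evL_apply] at h1
  refine le_of_eq_of_le ?_ h1
  rw [c.evAt_pool hb]
  rfl

/-- **Adapted charts exist.** -/
theorem exists_bd_chart {a : ℕ} (ha : B.d ≤ a) (ha' : 4 * a < B.pool.card) :
    ∃ C, IsBd C ∧ ∀ (w : AbsoluteValue K ℝ) (D : Divisor K F), Divisor.degree D = a →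
      ∃ c : B.Chart a D, c.Adapted w (C w) := by
  classical
  obtain ⟨Cg, hCg, hg⟩ := B.exists_bd_gauss (2 * a) (2 * a) (by omega)
  obtain ⟨Cu, e, hCu, hu⟩ := B.exists_bd_nu_le_W a ha ha'
  have hb := B.bound_le
  obtain ⟨Cp, hCp, hp⟩ := B.exists_bd_nu_pool (m := 2 * a) (by
    have : (B.d : ℤ) ≤ a := by exact_mod_cast ha
    push_cast; omega)
  let C := fun w => Cg w * Cg w * (Cp w * (Cu w * (Cg w * Cg w) ^ e))
  refine ⟨C, (hCg.mul hCg).mul (hCp.mul (hCu.mul ((hCg.mul hCg).pow e))), fun w D hD => ?_⟩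
  obtain ⟨c₀, hc₀⟩ := B.exists_chart_diag ha ha' hD w
  set N : Fin (B.rk a) → Fin (B.rk a) → ℝ := fun i k => B.poolNorm w (c₀.u i * c₀.v k)
  have hTne : ∀ i k, c₀.u i * c₀.v k ≠ 0 := fun i k =>
    mul_ne_zero (c₀.u_ne_zero i) (c₀.symm.u_ne_zero k)
  have hNpos : ∀ i k, 0 < N i k := fun i k =>
    B.poolNorm_pos w (m := 2 * a) (by omega) (c₀.mul_mem i k) (hTne i k)
  have hsym : ∀ i k, N i k * N k i ≤ Cg w := fun i k => by
    refine (hg w _ _ (c₀.mul_mem i k) (c₀.mul_mem k i)).trans
      (mul_le_of_le_one_right (hCg.nonneg w) ?_)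
    rw [show c₀.u i * c₀.v k * (c₀.u k * c₀.v i) = c₀.u i * c₀.v i * (c₀.u k * c₀.v k) by ring]
    exact (B.poolNorm_mul_le w (c₀.mul_mem i i) (c₀.mul_mem k k)).trans
      (mul_le_one₀ (hc₀ i) (B.poolNorm_nonneg w _) (hc₀ k))
  let o : Fin (B.rk a) := ⟨0, B.rk_pos ha⟩
  have htri : ∀ i k, N i k ≤ Cg w * (N i o * N o k) := fun i k => by
    calc N i k ≤ N i k * N o o :=
          le_mul_of_one_le_right (hNpos i k).le (c₀.one_le_poolNorm w o)
      _ ≤ Cg w * B.poolNorm w (c₀.u i * c₀.v k * (c₀.u o * c₀.v o)) :=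
          hg w _ _ (c₀.mul_mem i k) (c₀.mul_mem o o)
      _ ≤ _ := mul_le_mul_of_nonneg_left (by
          rw [show c₀.u i * c₀.v k * (c₀.u o * c₀.v o) =
            c₀.u i * c₀.v o * (c₀.u o * c₀.v k) by ring]
          exact B.poolNorm_mul_le w (c₀.mul_mem i o) (c₀.mul_mem o k)) (hCg.nonneg w)
  choose bt hbt hbt' using fun i => B.exists_poolNorm_eq w (c₀.u i * c₀.v o)
  let t : Fin (B.rk a) → K := fun i => evAt B.U 0 (bt i) (c₀.u i * c₀.v o)
  have hwt : ∀ i, w (t i) = N i o := fun i => (hbt' i).symm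
  have ht : ∀ i, t i ≠ 0 := fun i h => (hNpos i o).ne' (by rw [← hwt, h, map_zero])
  set c₁ := c₀.rescale t ht
  set R := Cg w * Cg w
  have hR1 : 1 ≤ R := one_le_mul_of_one_le_of_one_le (hCg.one_le w) (hCg.one_le w)
  have hc₁ : c₁.Bdd w R := by
    refine ⟨hR1, fun i k => ?_⟩
    rw [Chart.rescale_mul, B.poolNorm_smul w _ (c₀.mul_mem i k), map_mul, map_inv₀, hwt, hwt]
    calc (N i o)⁻¹ * N k o * N i k ≤ (N i o)⁻¹ * N k o * (Cg w * (N i o * N o k)) :=
          mul_le_mul_of_nonneg_left (htri i k)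
            (mul_nonneg (inv_nonneg.mpr (hNpos i o).le) (hNpos k o).le)
      _ = Cg w * (N k o * N o k) := by field_simp [(hNpos i o).ne']
      _ ≤ R := mul_le_mul_of_nonneg_left (hsym k o) (hCg.nonneg w)
  obtain ⟨i₁, hi₁⟩ := c₁.exists_W_eq w B.b₀
  have hpos : 0 < c₁.W w B.b₀ := c₁.W_pos w B.b₀
  set lam := evAt B.U (D B.b₀) B.b₀ (c₁.u i₁)
  have hlam : lam ≠ 0 := fun h => hpos.ne' (by rw [hi₁, h, map_zero])
  set c := c₁.rescale (fun _ => lam) (fun _ => hlam)
  have hc : c.Bdd w R := by
    refine ⟨hR1, fun i k => ?_⟩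
    rw [Chart.rescale_mul, inv_mul_cancel₀ hlam, one_smul]
    exact hc₁.2 i k
  have hW : c.W w B.b₀ = 1 := by
    have hval : ∀ i, w (evAt B.U (D B.b₀) B.b₀ (c.u i))
        = (w lam)⁻¹ * w (evAt B.U (D B.b₀) B.b₀ (c₁.u i)) := fun i => by
      show w (evAt B.U _ _ (lam⁻¹ • c₁.u i)) = _
      rw [evAt_smul B.U _ (mem_riemannRochSpace.mp (c₁.u_mem i) _), map_mul, map_inv₀]
    show (⨆ i, w (evAt B.U (D B.b₀) B.b₀ (c.u i))) = 1
    simp only [hval]
    rw [← Real.mul_iSup_of_nonneg (inv_nonneg.mpr (w.nonneg _))]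
    show (w lam)⁻¹ * c₁.W w B.b₀ = 1
    rw [hi₁]
    exact inv_mul_cancel₀ (w.ne_zero hlam)
  have hRC : R ≤ C w :=
    le_mul_of_one_le_right (zero_le_one.trans hR1)
      (one_le_mul_of_one_le_of_one_le (hCp.one_le w)
        (one_le_mul_of_one_le_of_one_le (hCu.one_le w) (one_le_pow₀ hR1)))
  have hup : c.symm.W w B.b₀ ≤ R := by
    have := c.W_mul_W_le hc B.b₀_mem
    rwa [hW, one_mul] at this
  have hlow : 1 ≤ C w * c.symm.W w B.b₀ := by
    calc (1 : ℝ) ≤ Cp w * B.nu w (2 * a : ℕ) B.b₀ := (hp w _ B.b₀_mem).1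
      _ ≤ Cp w * (Cu w * R ^ e * (c.W w B.b₀ * c.symm.W w B.b₀)) :=
          mul_le_mul_of_nonneg_left (hu w D c R hc B.b₀) (hCp.nonneg w)
      _ = 1 * (Cp w * (Cu w * R ^ e)) * c.symm.W w B.b₀ := by rw [hW]; ring
      _ ≤ C w * c.symm.W w B.b₀ :=
          mul_le_mul_of_nonneg_right (mul_le_mul_of_nonneg_right hR1
            (mul_nonneg (hCp.nonneg w) (mul_nonneg (hCu.nonneg w)
              (pow_nonneg (zero_le_one.trans hR1) _)))) (c.symm.W_nonneg w _)
  exact ⟨c, Chart.Bdd.mono c hc hRC, hW.le.trans (hR1.trans hRC),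
    by rw [hW, mul_one]; exact hR1.trans hRC, hup.trans hRC, hlow⟩

end Base

end Fermat.Agent.MW
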