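import Fermat.Agent.MordellWeil.Bound
import Mathlib.NumberTheory.NumberField.InfinitePlace.Basic
import Mathlib.Analysis.Normed.Unbundled.SpectralNorm
import Mathlib.Analysis.Normed.Field.WithAbs
import Mathlib.Analysis.Normed.Field.Ultra
import Mathlib.Analysis.Normed.Field.Instances
import Mathlib.Analysis.Normed.Module.Completion
import Mathlib.FieldTheory.IsAlgClosed.AlgebraicClosure
import Mathlib.FieldTheory.Minpoly.Field

/-!
# Absolute values along an algebraic extension

Bounds on the absolute values of `K` restrict to bounds on those of `k`, and absolute values of `k`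
given by a completion or by a complex embedding extend to `K`.
-/

set_option autoImplicit false

noncomputable section

namespace Fermat.Agent.MW

variable {k : Type*} [Field k] {K : Type*} [Field K] [Algebra k K] [Algebra.IsAlgebraic k K]

omit [Algebra k K] [Algebra.IsAlgebraic k K] in
theorem isNonarchimedean_of_natCast_le (w : AbsoluteValue K ℝ) (h : ∀ n : ℕ, w (n : K) ≤ 1) :
    IsNonarchimedean w := by
  have hu : IsUltrametricDist (WithAbs w) := by
    refine IsUltrametricDist.isUltrametricDist_of_forall_norm_natCast_le_one fun n => ?_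
    rw [WithAbs.norm_eq_apply_ofAbs, show WithAbs.ofAbs (n : WithAbs w) = (n : K) from
      map_natCast (WithAbs.equiv w) n]
    exact h n
  intro x y
  have := hu.isNonarchimedean_norm (WithAbs.toAbs w x) (WithAbs.toAbs w y)
  simp only [WithAbs.norm_eq_apply_ofAbs] at this
  simpa using this

omit [Algebra.IsAlgebraic k K] in
/-- An absolute value extending a non-archimedean one is non-archimedean. -/
theorem isNonarchimedean_of_comap {v : AbsoluteValue k ℝ} {w : AbsoluteValue K ℝ}
    (hw : ∀ x, w (algebraMap k K x) = v x) (hv : IsNonarchimedean v) : IsNonarchimedean w := by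
  refine isNonarchimedean_of_natCast_le w fun n => ?_
  rw [← map_natCast (algebraMap k K), hw]
  exact IsNonarchimedean.apply_natCast_le_one hv

omit [Algebra.IsAlgebraic k K] in
theorem archN_le_of_comap {v : AbsoluteValue k ℝ} {w : AbsoluteValue K ℝ}
    (hw : ∀ x, w (algebraMap k K x) = v x) (N : ℕ) : archN w N ≤ archN v N := by
  classical
  by_cases hv : IsNonarchimedean v
  · have h1 := isNonarchimedean_of_comap hw hv
    simp [archN, hv, h1]
  · by_cases h1 : IsNonarchimedean w <;> simp [archN, hv, h1]

/-- Bounds descend along algebraic extensions. -/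
theorem IsBd.exists_le_comap {C : AbsoluteValue K ℝ → ℝ} (hC : IsBd C) :
    ∃ C₀, IsBd C₀ ∧ ∀ (v : AbsoluteValue k ℝ) (w : AbsoluteValue K ℝ),
      (∀ x, w (algebraMap k K x) = v x) → C w ≤ C₀ v := by
  classical
  obtain ⟨-, N, l, hl⟩ := hC
  have key : ∀ c : K, ∃ D, IsBd D ∧ ∀ (v : AbsoluteValue k ℝ) (w : AbsoluteValue K ℝ),
      (∀ x, w (algebraMap k K x) = v x) → (1 : ℝ) ⊔ w c ≤ D v := by
    intro c
    have hint : IsIntegral k c := (Algebra.IsAlgebraic.isAlgebraic c).isIntegral
    set p := minpoly k c
    set n := p.natDegree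
    let cs : List k := (List.range n).map p.coeff
    refine ⟨fun v => archN v n * coeffSize v cs, (IsBd.archN_bd _).mul (IsBd.coeffSize_bd _),
      fun v w hw => ?_⟩
    have h1 : 1 ≤ archN v n * coeffSize v cs :=
      one_le_mul_of_one_le_of_one_le (one_le_archN v n) (one_le_coeffSize v cs)
    refine sup_le h1 ?_
    by_cases hc : w c ≤ 1
    · exact hc.trans h1
    push Not at hc
    have hn : 0 < n := minpoly.natDegree_pos hint
    have he := minpoly.aeval k c
    rw [Polynomial.aeval_eq_sum_range, Finset.sum_range_succ, (minpoly.monic hint).coeff_natDegree,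
      one_smul] at he
    have hpow : w c ^ n ≤ archN v n * coeffSize v cs * w c ^ (n - 1) := by
      rw [← map_pow, show c ^ n = -∑ i ∈ Finset.range n, p.coeff i • c ^ i by
        linear_combination he, w.map_neg]
      refine (sum_le_archN w (Finset.range n) _ (mul_nonneg (zero_le_one.trans
        (one_le_coeffSize v cs)) (pow_nonneg (w.nonneg c) (n - 1))) fun i hi => ?_).trans ?_
      · rw [Algebra.smul_def, map_mul, map_pow, hw]
        refine mul_le_mul (le_coeffSize_of_mem v ?_) (pow_le_pow_right₀ hc.le ?_)
          (pow_nonneg (w.nonneg c) _) (zero_le_one.trans (one_le_coeffSize v cs))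
        · exact List.mem_map.mpr ⟨i, List.mem_range.mpr (Finset.mem_range.mp hi), rfl⟩
        · have := Finset.mem_range.mp hi; omega
      · rw [Finset.card_range, mul_assoc (archN v n)]
        exact mul_le_mul_of_nonneg_right (archN_le_of_comap hw n) (mul_nonneg (zero_le_one.trans
          (one_le_coeffSize v cs)) (pow_nonneg (w.nonneg c) (n - 1)))
    refine le_of_mul_le_mul_right ?_ (pow_pos (zero_lt_one.trans hc) (n - 1))
    rwa [← pow_succ', Nat.sub_add_cancel hn]
  choose D hD hD' using key
  let D0 := fun v : AbsoluteValue k ℝ => (l.map fun c => D c v).prod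
  have hD0 : IsBd D0 := by
    show IsBd fun v : AbsoluteValue k ℝ => (l.map fun c => D c v).prod
    clear hl
    induction l with
    | nil => simpa using IsBd.one
    | cons a t ih => simpa using (hD a).mul ih
  refine ⟨fun v => archN v N * D0 v, (IsBd.archN_bd _).mul hD0, fun v w hw => (hl w).trans ?_⟩
  refine mul_le_mul (archN_le_of_comap hw N) ?_ (zero_le_one.trans (one_le_coeffSize w l))
    (archN_pos v N).le
  show coeffSize w l ≤ (l.map fun c => D c v).prod
  clear hl hD0 D0
  induction l with
  | nil => simp [coeffSize]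
  | cons a t ih =>
    have : coeffSize w (a :: t) = ((1 : ℝ) ⊔ w a) * coeffSize w t := by simp [coeffSize]
    rw [this, List.map_cons, List.prod_cons]
    exact mul_le_mul (hD' a v w hw) ih (zero_le_one.trans (one_le_coeffSize w t))
      (zero_le_one.trans ((hD a).one_le v))

omit [Algebra k K] [Algebra.IsAlgebraic k K] in
/-- Extension of an absolute value through a complete non-archimedean field. -/
theorem exists_extension_of_completion [Algebra k K] [Algebra.IsAlgebraic k K]
    {v : AbsoluteValue k ℝ} (hv : IsNonarchimedean v) (hnt : ∃ x, 1 < v x) :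
    ∃ w : AbsoluteValue K ℝ, ∀ x, w (algebraMap k K x) = v x := by
  obtain ⟨a, ha⟩ := hnt
  let emb : k →+* v.Completion :=
    (UniformSpace.Completion.coeRingHom).comp (WithAbs.equiv v).symm.toRingHom
  have hemb : ∀ x, ‖emb x‖ = v x := fun x => by
    show ‖((WithAbs.toAbs v x : WithAbs v) : v.Completion)‖ = v x
    rw [UniformSpace.Completion.norm_coe, WithAbs.norm_eq_apply_ofAbs]
  have hult : IsUltrametricDist v.Completion := by
    refine IsUltrametricDist.isUltrametricDist_of_forall_norm_natCast_le_one fun n => ?_
    rw [← map_natCast emb, hemb]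
    exact IsNonarchimedean.apply_natCast_le_one hv
  let _ : NontriviallyNormedField v.Completion :=
    NontriviallyNormedField.ofNormNeOne ⟨emb a, by
      refine fun h => ?_
      rw [← norm_eq_zero, hemb] at h
      linarith, by rw [hemb]; exact ha.ne'⟩
  let M := AlgebraicClosure v.Completion
  let _ : Algebra k M := ((algebraMap v.Completion M).comp emb).toAlgebra
  let φ : K →ₐ[k] M := IsAlgClosed.lift
  let μ := spectralMulAlgNorm v.Completion M
  let w : AbsoluteValue M ℝ :=
    { toFun := fun x => μ x
      map_mul' := fun x y => map_mul μ x y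
      nonneg' := fun x => apply_nonneg μ x
      eq_zero' := fun x => map_eq_zero_iff_eq_zero μ
      add_le' := fun x y => map_add_le_add μ x y }
  refine ⟨w.comp φ.toRingHom.injective, fun x => ?_⟩
  show μ (φ (algebraMap k K x)) = v x
  rw [φ.commutes]
  show μ (algebraMap v.Completion M (emb x)) = v x
  rw [spectralMulAlgNorm_def, spectralNorm_extends, hemb]

/-- Every absolute value given by an embedding into `ℂ` extends. -/
theorem exists_extension_of_embedding {v : AbsoluteValue k ℝ} (φ : k →+* ℂ)
    (hv : ∀ x, v x = ‖φ x‖) : ∃ w : AbsoluteValue K ℝ, ∀ x, w (algebraMap k K x) = v x := by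
  let _ : Algebra k ℂ := φ.toAlgebra
  let ψ : K →ₐ[k] ℂ := IsAlgClosed.lift
  let nrm : AbsoluteValue ℂ ℝ :=
    { toFun := fun z => ‖z‖
      map_mul' := norm_mul
      nonneg' := norm_nonneg
      eq_zero' := fun _ => norm_eq_zero
      add_le' := norm_add_le }
  refine ⟨nrm.comp ψ.toRingHom.injective, fun x => ?_⟩
  show ‖ψ (algebraMap k K x)‖ = v x
  rw [ψ.commutes, hv]
  rfl

end Fermat.Agent.MW
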