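import Fermat.Agent.MordellWeil.Existence

/-!
# Products of gauges

If adapted charts have divisors of sum `m·O`, the product of their gauges is `nu m`, up to bounds.
-/

set_option autoImplicit false

noncomputable section

open AlgebraicCurve

namespace Fermat.Agent.MW

open FF

variable {K F : Type*} [Field K] [Field F] [Algebra K F] [IsFunctionField K F] [IsAlgClosed K]

omit [IsFunctionField K F] [IsAlgClosed K] in
theorem prod_mem_riemannRochSpace {ι : Type*} (s : Finset ι) (f : ι → F) (D : ι → Divisor K F)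
    (h : ∀ i ∈ s, f i ∈ riemannRochSpace (D i)) :
    ∏ i ∈ s, f i ∈ riemannRochSpace (∑ i ∈ s, D i) := by
  classical
  induction s using Finset.induction with
  | empty =>
    rw [Finset.prod_empty, Finset.sum_empty, mem_riemannRochSpace]
    intro P
    simpa using one_mem_ordGE_zero P
  | insert a t ha ih =>
    simp only [Finset.mem_insert, forall_eq_or_imp] at h
    rw [Finset.prod_insert ha, Finset.sum_insert ha]
    exact mul_mem_riemannRochSpace h.1 (ih h.2)

theorem evAt_prod (U : Unif K F) {ι : Type*} (s : Finset ι) (f : ι → F) (D : ι → Divisor K F)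
    (h : ∀ i ∈ s, f i ∈ riemannRochSpace (D i)) (P : Place K F) :
    evAt U ((∑ i ∈ s, D i) P) P (∏ i ∈ s, f i) = ∏ i ∈ s, evAt U (D i P) P (f i) := by
  classical
  induction s using Finset.induction with
  | empty => simpa using evAt_one U P
  | insert a t ha ih =>
    simp only [Finset.mem_insert, forall_eq_or_imp] at h
    rw [Finset.prod_insert ha, Finset.prod_insert ha, Finset.sum_insert ha, Finsupp.add_apply,
      evAt_mul U (mem_riemannRochSpace.mp h.1 P)
        (mem_riemannRochSpace.mp (prod_mem_riemannRochSpace t f D h.2) P), ih h.2]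

namespace Base

variable (B : Base K F)

/-- The product of a pair of gauges is bounded below on the pool. -/
theorem exists_bd_one_le_W_mul {a : ℕ} (ha : B.d ≤ a) (ha' : 4 * a < B.pool.card)
    {Cc : AbsoluteValue K ℝ → ℝ} (hCc : IsBd Cc) :
    ∃ C, IsBd C ∧ ∀ (w : AbsoluteValue K ℝ) (D : Divisor K F) (c : B.Chart a D),
      c.Bdd w (Cc w) → ∀ b ∈ B.pool, 1 ≤ C w * (c.W w b * c.symm.W w b) := by
  have hb := B.bound_le
  obtain ⟨Cu, e, hCu, hu⟩ := B.exists_bd_nu_le_W a ha ha'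
  obtain ⟨Cp, hCp, hp⟩ := B.exists_bd_nu_pool (m := 2 * a) (by push_cast; omega)
  refine ⟨fun w => Cp w * (Cu w * Cc w ^ e), hCp.mul (hCu.mul (hCc.pow e)),
    fun w D c hc b hb' => (hp w b hb').1.trans ?_⟩
  rw [mul_assoc]
  exact mul_le_mul_of_nonneg_left (hu w D c _ hc b) (hCp.nonneg w)

/-- The product of the norms `nu (2 a_j)` dominates `nu` of the sum. -/
theorem exists_bd_nu_le_prod {ι : Type*} (s : Finset ι) (hs : s.Nonempty) (a : ι → ℕ)
    (ha : ∀ j ∈ s, B.d ≤ a j) :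
    ∃ C, IsBd C ∧ ∀ (w : AbsoluteValue K ℝ) (P : Place K F),
      B.nu w ((∑ j ∈ s, 2 * a j : ℕ) : ℤ) P ≤ C w * ∏ j ∈ s, B.nu w ((2 * a j : ℕ) : ℤ) P := by
  classical
  have hb := B.bound_le
  induction hs using Finset.Nonempty.cons_induction with
  | singleton j => exact ⟨_, IsBd.one, fun w P => by simp⟩
  | cons j t hj ht ih =>
    simp only [Finset.cons_eq_insert, Finset.mem_insert, forall_eq_or_imp] at ha
    obtain ⟨C, hC, h⟩ := ih ha.2
    obtain ⟨k, hk⟩ := ht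
    have h2 : B.d ≤ ∑ i ∈ t, 2 * a i :=
      ((ha.2 k hk).trans (by omega)).trans (Finset.single_le_sum (f := fun i => 2 * a i)
        (fun i _ => Nat.zero_le _) hk)
    obtain ⟨C', hC', h'⟩ := B.exists_bd_nu_add_le (m := ((2 * a j : ℕ) : ℤ))
      (n := ((∑ i ∈ t, 2 * a i : ℕ) : ℤ)) (by push_cast; omega) (Int.natCast_nonneg _)
      (by omega) (Int.natCast_nonneg _)
    refine ⟨_, hC'.mul hC, fun w P => ?_⟩
    simp only [Finset.cons_eq_insert, Finset.sum_insert hj, Finset.prod_insert hj, Nat.cast_add]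
    calc _ ≤ _ := h' w P
      _ ≤ C' w * (B.nu w ((2 * a j : ℕ) : ℤ) P * (C w * ∏ i ∈ t, B.nu w ((2 * a i : ℕ) : ℤ) P)) :=
          mul_le_mul_of_nonneg_left (mul_le_mul_of_nonneg_left (h w P) (B.nu_nonneg w _ _))
            (hC'.nonneg w)
      _ = _ := by ring

section Prod

variable {B} {n : ℕ} {a : Fin n → ℕ} {D : Fin n → Divisor K F}
  (c : ∀ j, B.Chart (a j) (D j)) {m : ℤ} (hD : ∑ j, D j = B.inf m)

include hD

theorem prod_u_mem (i : ∀ j, Fin (B.rk (a j))) :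
    ∏ j, (c j).u (i j) ∈ riemannRochSpace (B.inf m) :=
  hD ▸ prod_mem_riemannRochSpace Finset.univ _ D fun j _ => (c j).u_mem (i j)

theorem evAt_prod_u_le (w : AbsoluteValue K ℝ) (P : Place K F) (i : ∀ j, Fin (B.rk (a j))) :
    w (evAt B.U (B.inf m P) P (∏ j, (c j).u (i j))) ≤ ∏ j, (c j).W w P := by
  rw [← hD, evAt_prod B.U Finset.univ _ D (fun j _ => (c j).u_mem (i j)), map_prod]
  exact Finset.prod_le_prod (fun j _ => w.nonneg _) fun j _ => (c j).le_W w P (i j)

theorem exists_prod_W_eq (w : AbsoluteValue K ℝ) (P : Place K F) :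
    ∃ i : ∀ j, Fin (B.rk (a j)),
      ∏ j, (c j).W w P = w (evAt B.U (B.inf m P) P (∏ j, (c j).u (i j))) := by
  choose i hi using fun j => (c j).exists_W_eq w P
  refine ⟨i, ?_⟩
  rw [← hD, evAt_prod B.U Finset.univ _ D (fun j _ => (c j).u_mem (i j)), map_prod]
  exact Finset.prod_congr rfl fun j _ => hi j

end Prod

/-- **Products of gauges.** -/
theorem exists_bd_prod_W {n : ℕ} (hn : 0 < n) (a : Fin n → ℕ) (ha : ∀ j, B.d ≤ a j)
    (ha' : 4 * (∑ j, a j) < B.pool.card) {Cc : AbsoluteValue K ℝ → ℝ} (hCc : IsBd Cc) :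
    ∃ C, IsBd C ∧ ∀ (w : AbsoluteValue K ℝ) (D : Fin n → Divisor K F)
      (c : ∀ j, B.Chart (a j) (D j)), ∑ j, D j = B.inf (∑ j, a j : ℕ) →
      (∀ j, (c j).Adapted w (Cc w)) → ∀ P,
        ∏ j, (c j).W w P ≤ C w * B.nu w (∑ j, a j : ℕ) P ∧
        B.nu w (∑ j, a j : ℕ) P ≤ C w * ∏ j, (c j).W w P := by
  classical
  set m := ∑ j, a j with hm_def
  have hb := B.bound_le
  let j₀ : Fin n := ⟨0, hn⟩
  have hle : ∀ j, a j ≤ m := fun j =>
    Finset.single_le_sum (f := a) (fun i _ => Nat.zero_le _) (Finset.mem_univ j)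
  have hmd : (B.d : ℤ) ≤ (m : ℤ) := by exact_mod_cast (ha j₀).trans (hle j₀)
  obtain ⟨Cg, hCg, hg⟩ := B.exists_bd_gauss m m (by omega)
  obtain ⟨Ce, hCe, he⟩ := B.exists_bd_evL_le m (by omega)
  obtain ⟨Cs, hCs, hs⟩ := B.exists_bd_nu_le_prod Finset.univ ⟨j₀, Finset.mem_univ _⟩ a
    (fun j _ => ha j)
  obtain ⟨Cm, hCm, hmul⟩ := B.exists_bd_nu_mul_le m m
  choose Cu eu hCu hu using fun j => B.exists_bd_nu_le_W (a j) (ha j) (by have := hle j; omega)
  let CW := fun w => ∏ j, Cu j w * Cc w ^ eu j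
  have hCW : IsBd CW := IsBd.prod _ fun j _ => (hCu j).mul (hCc.pow (eu j))
  let M0 := fun w => Cg w * Cc w ^ n * Cc w ^ n
  have hM0 : IsBd M0 := (hCg.mul (hCc.pow n)).mul (hCc.pow n)
  refine ⟨fun w => Cm w * (Cs w * CW w) * (Ce w * M0 w), (hCm.mul (hCs.mul hCW)).mul (hCe.mul hM0),
    fun w D c hD hc P => ?_⟩
  have hD' : ∑ j, B.dual (a j) (D j) = B.inf (m : ℤ) := by
    simp only [dual, Finset.sum_sub_distrib, hD, inf]
    rw [← Finsupp.single_finsetSum, ← Finsupp.single_sub]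
    congr 1
    push_cast [hm_def]
    rw [← Finset.mul_sum]
    ring
  -- the maxima on the pool
  let M := B.pool.sup' B.pool_nonempty fun b => ∏ j, (c j).W w b
  let M' := B.pool.sup' B.pool_nonempty fun b => ∏ j, (c j).symm.W w b
  have hMle : ∀ b ∈ B.pool, ∏ j, (c j).W w b ≤ M := fun b hb =>
    Finset.le_sup' (fun b => ∏ j, (c j).W w b) hb
  have hM'le : ∀ b ∈ B.pool, ∏ j, (c j).symm.W w b ≤ M' := fun b hb =>
    Finset.le_sup' (fun b => ∏ j, (c j).symm.W w b) hb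
  obtain ⟨b, hbp, hbM⟩ := Finset.exists_mem_eq_sup' B.pool_nonempty fun b => ∏ j, (c j).W w b
  obtain ⟨b', hbp', hbM'⟩ :=
    Finset.exists_mem_eq_sup' B.pool_nonempty fun b => ∏ j, (c j).symm.W w b
  obtain ⟨i, hi⟩ := exists_prod_W_eq c hD w b
  obtain ⟨k, hk⟩ := exists_prod_W_eq (fun j => (c j).symm) hD' w b'
  have hf := prod_u_mem c hD i
  have hg' := prod_u_mem (fun j => (c j).symm) hD' k
  rw [B.inf_pool _ hbp] at hi
  rw [B.inf_pool _ hbp'] at hk
  have hMM : M * M' ≤ Cg w * Cc w ^ n := by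
    refine le_trans (mul_le_mul (hbM.trans hi |>.trans_le (B.le_poolNorm w _ hbp))
      (hbM'.trans hk |>.trans_le (B.le_poolNorm w _ hbp')) ?_ (B.poolNorm_nonneg w _))
      ((hg w _ _ hf hg').trans (mul_le_mul_of_nonneg_left ?_ (hCg.nonneg w)))
    · rw [show M' = _ from hbM']
      exact Finset.prod_nonneg fun j _ => (c j).symm.W_nonneg w _
    refine B.poolNorm_le w _ fun q hq => ?_
    have hev := evAt_mul B.U (B.mem_ordGE_pool hf hq) (B.mem_ordGE_pool hg' hq)
    rw [zero_add] at hev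
    have h1 := evAt_prod_u_le c hD w q i
    have h2 := evAt_prod_u_le (fun j => (c j).symm) hD' w q k
    rw [B.inf_pool _ hq] at h1 h2
    rw [hev, map_mul]
    refine (mul_le_mul h1 h2 (w.nonneg _) (Finset.prod_nonneg fun j _ => (c j).W_nonneg w _)).trans
      ?_
    rw [← Finset.prod_mul_distrib]
    calc _ ≤ ∏ _j : Fin n, Cc w := Finset.prod_le_prod
          (fun j _ => mul_nonneg ((c j).W_nonneg w _) ((c j).symm.W_nonneg w _))
          fun j _ => (c j).W_mul_W_le (hc j).1 hq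
      _ = Cc w ^ n := by simp
  have hlow : 1 ≤ Cc w ^ n * M := by
    calc (1 : ℝ) ≤ ∏ j, Cc w * (c j).W w B.b₀ :=
          Finset.prod_const_one.symm.trans_le
            (Finset.prod_le_prod (fun _ _ => zero_le_one) fun j _ => (hc j).2.2.1)
      _ = Cc w ^ n * ∏ j, (c j).W w B.b₀ := by simp [Finset.prod_mul_distrib]
      _ ≤ _ := mul_le_mul_of_nonneg_left (hMle _ B.b₀_mem) (pow_nonneg (hCc.nonneg w) n)
  have hlow' : 1 ≤ Cc w ^ n * M' := by
    calc (1 : ℝ) ≤ ∏ j, Cc w * (c j).symm.W w B.b₀ :=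
          Finset.prod_const_one.symm.trans_le
            (Finset.prod_le_prod (fun _ _ => zero_le_one) fun j _ => (hc j).2.2.2.2)
      _ = Cc w ^ n * ∏ j, (c j).symm.W w B.b₀ := by simp [Finset.prod_mul_distrib]
      _ ≤ _ := mul_le_mul_of_nonneg_left (hM'le _ B.b₀_mem) (pow_nonneg (hCc.nonneg w) n)
  have hcn : 0 ≤ Cc w ^ n := pow_nonneg (hCc.nonneg w) n
  have hM0' : 0 ≤ M := le_trans (Finset.prod_nonneg fun j _ => (c j).W_nonneg w _) (hMle _ hbp)
  have hM0'' : 0 ≤ M' :=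
    le_trans (Finset.prod_nonneg fun j _ => (c j).symm.W_nonneg w _) (hM'le _ hbp)
  have hMb : M ≤ M0 w := by
    calc M ≤ M * (Cc w ^ n * M') := le_mul_of_one_le_right hM0' hlow'
      _ = Cc w ^ n * (M * M') := by ring
      _ ≤ Cc w ^ n * (Cg w * Cc w ^ n) := mul_le_mul_of_nonneg_left hMM hcn
      _ = _ := by simp only [M0]; ring
  have hMb' : M' ≤ M0 w := by
    calc M' ≤ (Cc w ^ n * M) * M' := le_mul_of_one_le_left hM0'' hlow
      _ = Cc w ^ n * (M * M') := by ring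
      _ ≤ Cc w ^ n * (Cg w * Cc w ^ n) := mul_le_mul_of_nonneg_left hMM hcn
      _ = _ := by simp only [M0]; ring
  -- upper bound at every place, for the charts and for their duals
  have upper : ∀ (E : Fin n → Divisor K F) (c' : ∀ j, B.Chart (a j) (E j)),
      ∑ j, E j = B.inf (m : ℤ) → ∀ N : ℝ, (∀ b ∈ B.pool, ∏ j, (c' j).W w b ≤ N) →
      ∏ j, (c' j).W w P ≤ Ce w * N * B.nu w (m : ℤ) P := by
    intro E c' hE N hN
    obtain ⟨l, hl⟩ := exists_prod_W_eq c' hE w P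
    rw [hl]
    refine (he w ⟨_, prod_u_mem c' hE l⟩ P).trans (mul_le_mul_of_nonneg_right
      (mul_le_mul_of_nonneg_left (B.poolNorm_le w _ fun q hq => ?_) (hCe.nonneg w))
      (B.nu_nonneg w _ P))
    have h1 := evAt_prod_u_le c' hE w q l
    rw [B.inf_pool _ hq] at h1
    exact h1.trans (hN q hq)
  have hnu : 0 < B.nu w (m : ℤ) P := B.nu_pos w (by omega) P
  have up : ∏ j, (c j).W w P ≤ Ce w * M0 w * B.nu w (m : ℤ) P :=
    (upper D c hD M hMle).trans (mul_le_mul_of_nonneg_right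
      (mul_le_mul_of_nonneg_left hMb (hCe.nonneg w)) hnu.le)
  have up' : ∏ j, (c j).symm.W w P ≤ Ce w * M0 w * B.nu w (m : ℤ) P :=
    (upper _ (fun j => (c j).symm) hD' M' hM'le).trans (mul_le_mul_of_nonneg_right
      (mul_le_mul_of_nonneg_left hMb' (hCe.nonneg w)) hnu.le)
  have hA : 0 ≤ Cm w * (Cs w * CW w) := (hCm.mul (hCs.mul hCW)).nonneg w
  refine ⟨up.trans (mul_le_mul_of_nonneg_right
    (le_mul_of_one_le_left ((hCe.mul hM0).nonneg w) ((hCm.mul (hCs.mul hCW)).one_le w)) hnu.le), ?_⟩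
  refine le_of_mul_le_mul_right ?_ hnu
  calc B.nu w (m : ℤ) P * B.nu w (m : ℤ) P ≤ Cm w * B.nu w ((m : ℤ) + m) P := hmul w P
    _ = Cm w * B.nu w ((∑ j, 2 * a j : ℕ) : ℤ) P := by
        rw [show ((∑ j, 2 * a j : ℕ) : ℤ) = (m : ℤ) + m by
          rw [← Finset.mul_sum, ← hm_def]; push_cast; ring]
    _ ≤ Cm w * (Cs w * ∏ j, B.nu w ((2 * a j : ℕ) : ℤ) P) :=
        mul_le_mul_of_nonneg_left (hs w P) (hCm.nonneg w)
    _ ≤ Cm w * (Cs w * ∏ j, Cu j w * Cc w ^ eu j * ((c j).W w P * (c j).symm.W w P)) :=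
        mul_le_mul_of_nonneg_left (mul_le_mul_of_nonneg_left (Finset.prod_le_prod
          (fun j _ => B.nu_nonneg w _ P) fun j _ => hu j w (D j) (c j) _ (hc j).1 P) (hCs.nonneg w))
          (hCm.nonneg w)
    _ = Cm w * (Cs w * CW w) * ((∏ j, (c j).W w P) * ∏ j, (c j).symm.W w P) := by
        rw [Finset.prod_mul_distrib, Finset.prod_mul_distrib (s := Finset.univ)
          (f := fun j => (c j).W w P)]
        simp only [CW]; ring
    _ ≤ Cm w * (Cs w * CW w) * ((∏ j, (c j).W w P) * (Ce w * M0 w * B.nu w (m : ℤ) P)) :=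
        mul_le_mul_of_nonneg_left (mul_le_mul_of_nonneg_left up'
          (Finset.prod_nonneg fun j _ => (c j).W_nonneg w P)) hA
    _ = _ := by ring

end Base

end Fermat.Agent.MW
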