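import Fermat.Agent.MordellWeil.Negl
import Fermat.Agent.MordellWeil.Product

/-!
# The gauge of a divisor and its affine behaviour

`G a D w` is the gauge of an adapted chart of `D` at `w`.  Up to bounds it does not depend on the
chart, is `1` against the dual divisor on the pool, and turns linear equivalence into
multiplication by leading coefficients.
-/

set_option autoImplicit false

noncomputable section

open AlgebraicCurve

namespace Fermat.Agent.MW

open FF

variable {K F : Type*} [Field K] [Field F] [Algebra K F] [IsFunctionField K F] [IsAlgClosed K]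

/-- The leading coefficient at a place. -/
def lead (U : Unif K F) (P : Place K F) (h : F) : K := evAt U (-P.ord h) P h

theorem lead_ne_zero (U : Unif K F) (P : Place K F) {h : F} (hh : h ≠ 0) : lead U P h ≠ 0 :=
  evAt_neg_ord_ne_zero U P hh

theorem lead_mul_lead_inv (U : Unif K F) (P : Place K F) {h : F} (hh : h ≠ 0) :
    lead U P h * lead U P h⁻¹ = 1 := by
  rw [lead, lead, ← evAt_mul U (mem_ordGE_of_le_ord P (by simp)) (mem_ordGE_of_le_ord P (by simp)),
    mul_inv_cancel₀ hh, P.ord_inv, neg_neg, neg_add_cancel, evAt_one]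

theorem evAt_mul_left (U : Unif K F) {P : Place K F} {h g : F} {n : ℤ} (hg : g ∈ ordGE P (-n)) :
    evAt U (n - P.ord h) P (h * g) = lead U P h * evAt U n P g := by
  rw [lead, ← evAt_mul U (mem_ordGE_of_le_ord P (by simp)) hg, sub_eq_neg_add]

omit [IsFunctionField K F] [IsAlgClosed K] in
theorem mul_mem_of_apply_eq {h g : F} (hh : h ≠ 0) {D D' : Divisor K F}
    (hD : ∀ P, D' P = D P - P.ord h) (hg : g ∈ riemannRochSpace D) :
    h * g ∈ riemannRochSpace D' := by
  rw [mem_riemannRochSpace] at hg ⊢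
  intro P
  rw [hD, show -(D P - P.ord h) = P.ord h + -(D P) by ring, mul_mem_ordGE_iff P hh]
  exact hg P

namespace Base

variable (B : Base K F)

/-- The two working levels. -/
def Lev (a : ℕ) : Prop := a = B.d ∨ a = B.d + 1

theorem lev_d : B.Lev B.d := Or.inl rfl

theorem lev_succ : B.Lev (B.d + 1) := Or.inr rfl

theorem Lev.le {B : Base K F} {a : ℕ} (h : B.Lev a) : B.d ≤ a := by
  rcases h with h | h <;> omega

theorem Lev.le_succ {B : Base K F} {a : ℕ} (h : B.Lev a) : a ≤ B.d + 1 := by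
  rcases h with h | h <;> omega

theorem Lev.card {B : Base K F} {a : ℕ} (h : B.Lev a) : 4 * a < B.pool.card := by
  have := h.le_succ; have := B.card_pool; omega

/-- The bound for the chosen charts. -/
def cb (w : AbsoluteValue K ℝ) : ℝ :=
  (B.exists_bd_chart B.lev_d.le B.lev_d.card).choose w *
    (B.exists_bd_chart B.lev_succ.le B.lev_succ.card).choose w

theorem isBd_cb : IsBd B.cb :=
  (B.exists_bd_chart B.lev_d.le B.lev_d.card).choose_spec.1.mul
    (B.exists_bd_chart B.lev_succ.le B.lev_succ.card).choose_spec.1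

theorem exists_adapted {a : ℕ} (ha : B.Lev a) {D : Divisor K F} (hD : Divisor.degree D = a)
    (w : AbsoluteValue K ℝ) : ∃ c : B.Chart a D, c.Adapted w (B.cb w) := by
  have h1 := (B.exists_bd_chart B.lev_d.le B.lev_d.card).choose_spec
  have h2 := (B.exists_bd_chart B.lev_succ.le B.lev_succ.card).choose_spec
  rcases ha with rfl | rfl
  · obtain ⟨c, hc⟩ := h1.2 w D hD
    exact ⟨c, hc.mono (le_mul_of_one_le_right (h1.1.nonneg w) (h2.1.one_le w))⟩
  · obtain ⟨c, hc⟩ := h2.2 w D hD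
    exact ⟨c, hc.mono (le_mul_of_one_le_left (h2.1.nonneg w) (h1.1.one_le w))⟩

/-- The chosen chart. -/
def chartAt {a : ℕ} (ha : B.Lev a) {D : Divisor K F} (hD : Divisor.degree D = a)
    (w : AbsoluteValue K ℝ) : B.Chart a D :=
  (B.exists_adapted ha hD w).choose

theorem adapted_chartAt {a : ℕ} (ha : B.Lev a) {D : Divisor K F} (hD : Divisor.degree D = a)
    (w : AbsoluteValue K ℝ) : (B.chartAt ha hD w).Adapted w (B.cb w) :=
  (B.exists_adapted ha hD w).choose_spec

open Classical in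
/-- The gauge of a divisor. -/
def G (a : ℕ) (D : Divisor K F) (w : AbsoluteValue K ℝ) (P : Place K F) : ℝ :=
  if h : B.Lev a ∧ Divisor.degree D = a then (B.chartAt h.1 h.2 w).W w P else 1

theorem G_eq {a : ℕ} (ha : B.Lev a) {D : Divisor K F} (hD : Divisor.degree D = a)
    (w : AbsoluteValue K ℝ) (P : Place K F) : B.G a D w P = (B.chartAt ha hD w).W w P := by
  rw [G, dif_pos ⟨ha, hD⟩]

theorem G_pos (a : ℕ) (D : Divisor K F) (w : AbsoluteValue K ℝ) (P : Place K F) :
    0 < B.G a D w P := by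
  unfold G
  split
  · exact Chart.W_pos _ w P
  · exact one_pos

/-- Products of gauges of level `d` or `d + 1`, at most four factors. -/
theorem exists_bd_prod_G {n : ℕ} (hn : 0 < n) (hn4 : n ≤ 4) (a : Fin n → ℕ)
    (ha : ∀ j, B.Lev (a j)) :
    ∃ C, IsBd C ∧ ∀ (w : AbsoluteValue K ℝ) (D : Fin n → Divisor K F),
      (∀ j, Divisor.degree (D j) = a j) → ∑ j, D j = B.inf (∑ j, a j : ℕ) → ∀ P,
        ∏ j, B.G (a j) (D j) w P ≤ C w * B.nu w (∑ j, a j : ℕ) P ∧
        B.nu w (∑ j, a j : ℕ) P ≤ C w * ∏ j, B.G (a j) (D j) w P := by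
  have hsum : ∑ j, a j ≤ n * (B.d + 1) :=
    (Finset.sum_le_card_nsmul _ _ _ fun j _ => (ha j).le_succ).trans (by simp)
  have hsum' : n * (B.d + 1) ≤ 4 * (B.d + 1) := Nat.mul_le_mul_right _ hn4
  have := B.card_pool
  obtain ⟨C, hC, h⟩ := B.exists_bd_prod_W hn a (fun j => (ha j).le) (by omega) B.isBd_cb
  refine ⟨C, hC, fun w D hD hs P => ?_⟩
  have := h w D (fun j => B.chartAt (ha j) (hD j) w) hs
    (fun j => B.adapted_chartAt (ha j) (hD j) w) P
  rw [Finset.prod_congr rfl fun j _ => B.G_eq (ha j) (hD j) w P]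
  exact this

/-- The gauge does not depend on the chart. -/
theorem exists_bd_W_G {a : ℕ} (ha : B.Lev a) {Cc : AbsoluteValue K ℝ → ℝ} (hCc : IsBd Cc) :
    ∃ C, IsBd C ∧ ∀ (w : AbsoluteValue K ℝ) (D : Divisor K F) (c : B.Chart a D),
      c.Adapted w (Cc w) → ∀ P,
        c.W w P ≤ C w * B.G a D w P ∧ B.G a D w P ≤ C w * c.W w P := by
  have := B.card_pool
  have := ha.le_succ
  obtain ⟨C, hC, h⟩ := B.exists_bd_prod_W (n := 2) two_pos ![a, a]
    (fun j => by fin_cases j <;> exact ha.le) (by simp [Fin.sum_univ_two]; omega)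
    (hCc.mul B.isBd_cb)
  refine ⟨fun w => C w * C w, hC.mul hC, fun w D c hc P => ?_⟩
  set c₀ := B.chartAt ha c.degree_eq w
  have hc₀ : c₀.Adapted w (Cc w * B.cb w) :=
    (B.adapted_chartAt ha c.degree_eq w).mono
      (le_mul_of_one_le_left (B.isBd_cb.nonneg w) (hCc.one_le w))
  have hc' : c.Adapted w (Cc w * B.cb w) :=
    hc.mono (le_mul_of_one_le_right (hCc.nonneg w) (B.isBd_cb.one_le w))
  have key : ∀ c₁ : B.Chart a D, c₁.Adapted w (Cc w * B.cb w) →
      c₁.W w P * c.symm.W w P ≤ C w * B.nu w (2 * a : ℕ) P ∧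
        B.nu w (2 * a : ℕ) P ≤ C w * (c₁.W w P * c.symm.W w P) := by
    intro c₁ hc₁
    have := h w ![D, B.dual a D] (Fin.cons c₁ (Fin.cons c.symm finZeroElim))
      (by simp [Fin.sum_univ_two, B.add_dual, two_mul])
      (fun j => by fin_cases j <;> [exact hc₁; exact hc'.symm]) P
    simpa [Fin.sum_univ_two, Fin.prod_univ_two, two_mul] using this
  have hpos := c.symm.W_pos w P
  rw [B.G_eq ha c.degree_eq]
  constructor
  · refine le_of_mul_le_mul_right ?_ hpos
    calc c.W w P * c.symm.W w P ≤ C w * B.nu w (2 * a : ℕ) P := (key c hc').1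
      _ ≤ C w * (C w * (c₀.W w P * c.symm.W w P)) :=
          mul_le_mul_of_nonneg_left (key c₀ hc₀).2 (hC.nonneg w)
      _ = _ := by ring
  · refine le_of_mul_le_mul_right ?_ hpos
    calc c₀.W w P * c.symm.W w P ≤ C w * B.nu w (2 * a : ℕ) P := (key c₀ hc₀).1
      _ ≤ C w * (C w * (c.W w P * c.symm.W w P)) :=
          mul_le_mul_of_nonneg_left (key c hc').2 (hC.nonneg w)
      _ = _ := by ring

/-- On the pool, the gauges of a divisor and of its dual multiply to `1`. -/
theorem exists_bd_G_dual_pool {a : ℕ} (ha : B.Lev a) :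
    ∃ C, IsBd C ∧ ∀ (w : AbsoluteValue K ℝ) (D : Divisor K F), Divisor.degree D = a →
      ∀ b ∈ B.pool, B.G a D w b * B.G a (B.dual a D) w b ≤ C w ∧
        1 ≤ C w * (B.G a D w b * B.G a (B.dual a D) w b) := by
  have hb := B.bound_le
  have had : (B.d : ℤ) ≤ (a : ℤ) := by exact_mod_cast ha.le
  obtain ⟨C, hC, h⟩ := B.exists_bd_prod_G two_pos (by norm_num) ![a, a]
    (fun j => by fin_cases j <;> exact ha)
  obtain ⟨Cp, hCp, hp⟩ := B.exists_bd_nu_pool (m := a + a) (by push_cast; omega)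
  refine ⟨fun w => Cp w * C w, hCp.mul hC, fun w D hD b hbp => ?_⟩
  have := h w ![D, B.dual a D] (fun j => by fin_cases j <;> [exact hD; exact B.degree_dual hD])
    (by simp [Fin.sum_univ_two, B.add_dual, two_mul]) b
  simp only [Fin.sum_univ_two, Fin.prod_univ_two, Matrix.cons_val_zero, Matrix.cons_val_one] at this
  refine ⟨this.1.trans ?_, ?_⟩
  · exact (mul_le_mul_of_nonneg_left (hp w b hbp).2 (hC.nonneg w)).trans_eq (mul_comm _ _)
  · calc (1 : ℝ) ≤ Cp w * B.nu w ((a + a : ℕ) : ℤ) b := (hp w b hbp).1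
      _ ≤ Cp w * (C w * (B.G a D w b * B.G a (B.dual a D) w b)) :=
          mul_le_mul_of_nonneg_left this.2 (hCp.nonneg w)
      _ = _ := by ring

/-- Multiplication of a chart by a function. -/
def Chart.transport {B : Base K F} {a : ℕ} {D D' : Divisor K F} (c : B.Chart a D) {h : F}
    (hh : h ≠ 0) (hD : ∀ P, D' P = D P - P.ord h) (hdeg : Divisor.degree D' = a) (t : K)
    (ht : t ≠ 0) : B.Chart a D' where
  A := c.A
  A_mem := c.A_mem
  u i := t • (h * c.u i)
  v i := t⁻¹ • (h⁻¹ * c.v i)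
  u_mem i := Submodule.smul_mem _ _ (mul_mem_of_apply_eq hh hD (c.u_mem i))
  v_mem i := Submodule.smul_mem _ _ (mul_mem_of_apply_eq (inv_ne_zero hh) (fun P => by
    rw [P.ord_inv, Base.dual, Base.dual, Finsupp.sub_apply, Finsupp.sub_apply, hD]; ring)
    (c.v_mem i))
  u_zero i l hil := by
    rw [evAt_smul B.U _ (mem_riemannRochSpace.mp (mul_mem_of_apply_eq hh hD (c.u_mem i)) _), hD,
      evAt_mul_left B.U (mem_riemannRochSpace.mp (c.u_mem i) _), c.u_zero i l hil, mul_zero,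
      mul_zero]
  v_zero i l hil := by
    have hD2 : ∀ P, B.dual a D' P = B.dual a D P - P.ord h⁻¹ := fun P => by
      rw [P.ord_inv, Base.dual, Base.dual, Finsupp.sub_apply, Finsupp.sub_apply, hD]; ring
    rw [evAt_smul B.U _ (mem_riemannRochSpace.mp
      (mul_mem_of_apply_eq (inv_ne_zero hh) hD2 (c.v_mem i)) _), hD2,
      evAt_mul_left B.U (mem_riemannRochSpace.mp (c.v_mem i) _), c.v_zero i l hil, mul_zero,
      mul_zero]
  one l := by
    have hD2 : ∀ P, B.dual a D' P = B.dual a D P - P.ord h⁻¹ := fun P => by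
      rw [P.ord_inv, Base.dual, Base.dual, Finsupp.sub_apply, Finsupp.sub_apply, hD]; ring
    rw [evAt_smul B.U _ (mem_riemannRochSpace.mp (mul_mem_of_apply_eq hh hD (c.u_mem l)) _), hD,
      evAt_mul_left B.U (mem_riemannRochSpace.mp (c.u_mem l) _),
      evAt_smul B.U _ (mem_riemannRochSpace.mp
      (mul_mem_of_apply_eq (inv_ne_zero hh) hD2 (c.v_mem l)) _), hD2,
      evAt_mul_left B.U (mem_riemannRochSpace.mp (c.v_mem l) _),
      mul_mul_mul_comm, mul_inv_cancel₀ ht, one_mul, mul_mul_mul_comm, c.one l,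
      lead_mul_lead_inv B.U _ hh, one_mul]
  degree_eq := hdeg
  le_a := c.le_a

theorem Chart.W_transport {B : Base K F} {a : ℕ} {D D' : Divisor K F} (c : B.Chart a D) {h : F}
    (hh : h ≠ 0) (hD : ∀ P, D' P = D P - P.ord h) (hdeg : Divisor.degree D' = a) (t : K)
    (ht : t ≠ 0) (w : AbsoluteValue K ℝ) (P : Place K F) :
    (c.transport hh hD hdeg t ht).W w P = w t * w (lead B.U P h) * c.W w P := by
  rw [Chart.W, Chart.W, Real.mul_iSup_of_nonneg (mul_nonneg (w.nonneg _) (w.nonneg _))]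
  refine iSup_congr fun i => ?_
  show w (evAt B.U (D' P) P (t • (h * c.u i))) = _
  rw [evAt_smul B.U _ (mem_riemannRochSpace.mp (mul_mem_of_apply_eq hh hD (c.u_mem i)) _), hD,
    evAt_mul_left B.U (mem_riemannRochSpace.mp (c.u_mem i) _), map_mul, map_mul, mul_assoc]

theorem Chart.W_symm_transport {B : Base K F} {a : ℕ} {D D' : Divisor K F} (c : B.Chart a D)
    {h : F} (hh : h ≠ 0) (hD : ∀ P, D' P = D P - P.ord h) (hdeg : Divisor.degree D' = a) (t : K)
    (ht : t ≠ 0) (w : AbsoluteValue K ℝ) (P : Place K F) :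
    (c.transport hh hD hdeg t ht).symm.W w P
      = (w t)⁻¹ * w (lead B.U P h⁻¹) * c.symm.W w P := by
  have hD2 : ∀ P, B.dual a D' P = B.dual a D P - P.ord h⁻¹ := fun P => by
    rw [P.ord_inv, Base.dual, Base.dual, Finsupp.sub_apply, Finsupp.sub_apply, hD]; ring
  rw [Chart.W, Chart.W, Real.mul_iSup_of_nonneg
    (mul_nonneg (inv_nonneg.mpr (w.nonneg _)) (w.nonneg _))]
  refine iSup_congr fun i => ?_
  show w (evAt B.U (B.dual a D' P) P (t⁻¹ • (h⁻¹ * c.v i))) = _
  rw [evAt_smul B.U _ (mem_riemannRochSpace.mp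
    (mul_mem_of_apply_eq (inv_ne_zero hh) hD2 (c.v_mem i)) _), hD2,
    evAt_mul_left B.U (mem_riemannRochSpace.mp (c.v_mem i) _), map_mul, map_mul, map_inv₀,
    mul_assoc]
  rfl

theorem Chart.Adapted.transport {B : Base K F} {a : ℕ} {D D' : Divisor K F} {c : B.Chart a D}
    {w : AbsoluteValue K ℝ} {C : ℝ} (hc : c.Adapted w C) {h : F} (hh : h ≠ 0)
    (hD : ∀ P, D' P = D P - P.ord h) (hdeg : Divisor.degree D' = a) :
    (c.transport hh hD hdeg (lead B.U B.b₀ h)⁻¹
      (inv_ne_zero (lead_ne_zero B.U _ hh))).Adapted w C := by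
  have hl := lead_ne_zero B.U B.b₀ hh
  refine ⟨⟨hc.1.1, fun i k => ?_⟩, ?_, ?_, ?_, ?_⟩
  · show B.poolNorm w ((lead B.U B.b₀ h)⁻¹ • (h * c.u i) *
        ((lead B.U B.b₀ h)⁻¹)⁻¹ • (h⁻¹ * c.v k)) ≤ C
    rw [smul_mul_smul_comm, mul_inv_cancel₀ (inv_ne_zero hl), one_smul, mul_mul_mul_comm,
      mul_inv_cancel₀ hh, one_mul]
    exact hc.1.2 i k
  all_goals
    have e1 : w (lead B.U B.b₀ h)⁻¹ * w (lead B.U B.b₀ h) = 1 := by
      rw [← map_mul, inv_mul_cancel₀ hl, map_one]
    have e2 : (w (lead B.U B.b₀ h)⁻¹)⁻¹ * w (lead B.U B.b₀ h⁻¹) = 1 := by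
      rw [map_inv₀, inv_inv, ← map_mul, lead_mul_lead_inv B.U _ hh, map_one]
  · rw [c.W_transport, e1, one_mul]; exact hc.2.1
  · rw [c.W_transport, e1, one_mul]; exact hc.2.2.1
  · rw [c.W_symm_transport, e2, one_mul]; exact hc.2.2.2.1
  · rw [c.W_symm_transport, e2, one_mul]; exact hc.2.2.2.2

end Base

end Fermat.Agent.MW
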