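import Fermat.Agent.MordellWeil.Psi
import Fermat.Prelude.Def_AlgebraicCurve_BaseChangeGalois

/-!
# Semilinear automorphisms fixing the base data act on `psi` through the constants

If `g` fixes the base place, the pool and its uniformisers, then evaluation on the pool commutes
with `g`, so `psi (g • x)` is a constant multiple of `g (psi x)` (`Fixes.psi_smul`).
-/

set_option autoImplicit false

noncomputable section

open AlgebraicCurve AlgebraicCurve.SemilinearAut

namespace Fermat.Agent.MW

open FF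

variable {K F : Type*} [Field K] [Field F] [Algebra K F] [IsFunctionField K F] [IsAlgClosed K]

omit [IsFunctionField K F] [IsAlgClosed K] in
theorem smul_mem_ordGE (g : SemilinearAut K F) {P : Place K F} {n : ℤ} {f : F}
    (hf : f ∈ ordGE P n) : g • f ∈ ordGE (g • P) n := by
  rcases eq_or_ne f 0 with rfl | h0
  · rw [smul_zero]; exact zero_mem _
  have h1 : g • f ≠ 0 := fun h => h0 (smul_eq_zero_iff_eq g |>.mp h)
  rw [mem_ordGE_of_ne_zero _ h1, ord_smul]
  exact (mem_ordGE_of_ne_zero _ h0).mp hf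

omit [IsFunctionField K F] [IsAlgClosed K] in
theorem smul_aut_mem_riemannRochSpace (g : SemilinearAut K F) {D : Divisor K F} {f : F}
    (hf : f ∈ riemannRochSpace D) : g • f ∈ riemannRochSpace (g • D) := by
  rw [mem_riemannRochSpace] at hf ⊢
  intro Q
  obtain ⟨P, rfl⟩ : ∃ P, g • P = Q := ⟨g⁻¹ • Q, smul_inv_smul g Q⟩
  rw [divisor_smul_apply_smul]
  exact smul_mem_ordGE g (hf P)

theorem valAt_eq_iff (P : Place K F) (f : ordGE P 0) (c : K) :
    valAt P f = c ↔ (f : F) - algebraMap K F c ∈ ordGE P 1 := by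
  have hc : valAt P (c • ⟨1, one_mem_ordGE_zero P⟩) = c := by
    rw [map_smul, valAt_one, smul_eq_mul, mul_one]
  conv_lhs => rw [← hc, ← sub_eq_zero, ← map_sub, valAt_eq_zero_iff]
  simp only [AddSubgroupClass.coe_sub, Submodule.coe_smul, Algebra.algebraMap_eq_smul_one]

theorem evAt_smul_aut (U : Unif K F) (g : SemilinearAut K F) {P : Place K F} (hP : g • P = P)
    (hz : g • U.z P = U.z P) {n : ℤ} {f : F} (hf : f ∈ ordGE P (-n)) :
    evAt U n P (g • f) = baseAut g (evAt U n P f) := by
  have hgf : g • f ∈ ordGE P (-n) := by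
    have := smul_mem_ordGE g hf
    rwa [hP] at this
  rw [evAt_of_mem U hgf, evAt_of_mem U hf, valAt_eq_iff]
  have h := smul_mem_ordGE g ((valAt_eq_iff P ⟨_, mul_zpow_mem U P hf⟩ _).mp rfl)
  rw [hP, smul_sub, SemilinearAut.smul_algebraMap, smul_mul'] at h
  rwa [show g • U.z P ^ n = U.z P ^ n by
    rw [SemilinearAut.smul_def, map_zpow₀, ← SemilinearAut.smul_def, hz]] at h

namespace Base

variable (B : Base K F)

/-- The semilinear automorphism fixes the base data. -/
structure Fixes (g : SemilinearAut K F) : Prop where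
  O_eq : g • B.O = B.O
  pool_eq : ∀ b ∈ B.pool, g • b = b
  z_eq : ∀ b ∈ B.pool, g • B.U.z b = B.U.z b

theorem Fixes.smul_dv {B : Base K F} {g : SemilinearAut K F} (hg : B.Fixes g) (a : ℕ) (x : Z0 K F) :
    B.dv a (degZeroSMulHom g x) = g • B.dv a x := by
  rw [dv, dv, smul_add, inf, smul_single, hg.O_eq, coe_degZeroSMulHom]

/-- `theta` of a twisted divisor is the twist of `theta`, up to a constant. -/
theorem Fixes.theta_smul {B : Base K F} {g : SemilinearAut K F} (hg : B.Fixes g) {a : ℕ}
    (ha : B.Lev a) {D : Divisor K F} (hD : Divisor.degree D = a) :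
    ∃ κ : K, κ ≠ 0 ∧ ∀ A : Fin (B.rk a) → B.pool,
      B.theta a (g • D) (fun l => (A l : Place K F))
        = κ * baseAut g (B.theta a D fun l => (A l : Place K F)) := by
  have hD' : Divisor.degree (g • D) = a := by rw [degree_smul, hD]
  set e := B.eBasis ha hD
  let v : Fin (B.rk a) → riemannRochSpace (g • D) := fun j =>
    ⟨_, smul_aut_mem_riemannRochSpace g (e j).2⟩
  have hv : LinearIndependent K v := by
    rw [Fintype.linearIndependent_iff]
    intro c hc
    have h1 := congrArg (fun y : riemannRochSpace (g • D) => g⁻¹ • (y : F)) hc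
    simp only [Submodule.coe_sum, Submodule.coe_smul, Submodule.coe_zero, smul_zero,
      Finset.smul_sum, v] at h1
    have h2 : ∀ j, g⁻¹ • (c j • g • ((e j : riemannRochSpace D) : F))
        = baseAut g⁻¹ (c j) • ((e j : riemannRochSpace D) : F) := fun j => by
      rw [Algebra.smul_def, Algebra.smul_def, smul_mul', SemilinearAut.smul_algebraMap,
        inv_smul_smul]
    simp only [h2] at h1
    have h3 := Fintype.linearIndependent_iff.mp e.linearIndependent (fun j => baseAut g⁻¹ (c j))
      (Subtype.ext (by simpa using h1))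
    intro j
    exact (map_eq_zero _).mp (h3 j)
  have : Nonempty (Fin (B.rk a)) := ⟨⟨0, B.rk_pos ha.le⟩⟩
  let f := basisOfLinearIndependentOfCardEqFinrank hv
    ((Fintype.card_fin _).trans (B.ell_eq_rk ha.le hD').symm)
  refine ⟨(f.toMatrix (B.eBasis ha hD')).det, det_toMatrix_ne_zero _ _, fun A => ?_⟩
  rw [B.theta_eq ha hD', B.theta_eq ha hD, B.det_evMat_basis (g • D) f, mul_comm,
    RingEquiv.map_det]
  congr 2
  ext l j
  show evL B.U (g • D) (A l : Place K F) (f j) = baseAut g (evL B.U D (A l : Place K F) (e j))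
  rw [show f j = v j by
    rw [show f = basisOfLinearIndependentOfCardEqFinrank hv _ from rfl,
      coe_basisOfLinearIndependentOfCardEqFinrank], evL_apply, evL_apply]
  have hb := hg.pool_eq _ (A l).2
  have h4 := divisor_smul_apply_smul g D (A l : Place K F)
  rw [hb] at h4
  rw [h4]
  exact evAt_smul_aut B.U g hb (hg.z_eq _ (A l).2) (mem_riemannRochSpace.mp (e j).2 _)

/-- `psi` of a twisted class is the twist of `psi`, up to a constant. -/
theorem Fixes.psi_smul {B : Base K F} {g : SemilinearAut K F} (hg : B.Fixes g) (x : Z0 K F) :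
    ∃ κ : K, κ ≠ 0 ∧ ∀ A, B.psi (degZeroSMulHom g x) A = κ * baseAut g (B.psi x A) := by
  obtain ⟨κ₁, hκ₁, h₁⟩ := hg.theta_smul B.lev_d (B.degree_dv _ x)
  obtain ⟨κ₂, hκ₂, h₂⟩ := hg.theta_smul B.lev_d (B.degree_dv _ (-x))
  refine ⟨κ₁ * κ₂, mul_ne_zero hκ₁ hκ₂, fun A => ?_⟩
  rw [psi, psi, ← map_neg, hg.smul_dv, hg.smul_dv, h₁, h₂, map_mul]
  ring

end Base

end Fermat.Agent.MW
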