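import Fermat.Agent.MordellWeil.Height
import Fermat.Agent.MordellWeil.Twist
import Mathlib.GroupTheory.Descent
import Mathlib.FieldTheory.Galois.Infinite

/-!
# Descent: weak Mordell–Weil implies Mordell–Weil

For classes fixed by a Galois action the vector `psi` is rational up to a constant; its logarithmic
height is nearly quadratic by the parallelogram law, with finite fibres by Northcott, so Fermat's
descent makes the fixed classes finitely generated.
-/

set_option autoImplicit false

noncomputable section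

open AlgebraicCurve AlgebraicCurve.SemilinearAut Height

namespace Fermat.Agent.MW

open FF

variable {k : Type*} [Field k] [CharZero k] [AdmissibleAbsValues k]
  {K F : Type*} [Field K] [Algebra k K] [Algebra.IsAlgebraic k K] [IsAlgClosed K]
  [Field F] [Algebra K F] [IsFunctionField K F]

omit [AdmissibleAbsValues k] in
theorem mem_range_of_forall_fixed (x : K) (h : ∀ σ : K ≃ₐ[k] K, σ x = x) :
    x ∈ Set.range (algebraMap k K) := by
  have : IsAlgClosure k K := ⟨inferInstance, inferInstance⟩
  have : Normal k K := IsAlgClosure.normal k K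
  have : Algebra.IsSeparable k K := Algebra.IsAlgebraic.isSeparable_of_perfectField
  have : IsGalois k K := ⟨⟩
  exact (InfiniteGalois.mem_range_algebraMap_iff_fixed x).mpr h

omit [Algebra k K] [Algebra.IsAlgebraic k K] [IsAlgClosed K] [IsFunctionField K F] in
theorem sub_mem_principal_of_mk_eq {x y : Z0 K F} (h : Pic0.mk x = Pic0.mk y) :
    ((x : Divisor K F) - (y : Divisor K F)) ∈ Divisor.principal (K := K) (F := F) := by
  have h' : x - y ∈ (Divisor.principal (K := K) (F := F)).addSubgroupOf
      (Divisor.degZero (K := K) (F := F)) := QuotientAddGroup.eq_iff_sub_mem.mp h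
  simpa [AddSubgroup.mem_addSubgroupOf] using h'

/-- The classes fixed by a Galois action. -/
def fixedClasses (ρ : (K ≃ₐ[k] K) → SemilinearAut K F) : AddSubgroup (Pic0 K F) where
  carrier := {c | ∀ σ, ρ σ • c = c}
  zero_mem' σ := smul_zero _
  add_mem' {a b} ha hb σ := by rw [smul_add, ha σ, hb σ]
  neg_mem' {a} ha σ := by rw [smul_neg, ha σ]

omit [AdmissibleAbsValues k] in
/-- Up to a constant, `psi` of a class fixed by the Galois action has rational coordinates. -/
theorem exists_rational_psi (B : Base K F) (ρ : (K ≃ₐ[k] K) → SemilinearAut K F)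
    (hρ : ∀ σ a, baseAut (ρ σ) a = σ a) (hfix : ∀ σ, B.Fixes (ρ σ)) (x : Z0 K F)
    (hx : ∀ σ, ρ σ • Pic0.mk x = Pic0.mk x) :
    ∃ (q : B.Idx → k) (lam : K) (A₀ : B.Idx),
      lam ≠ 0 ∧ q A₀ = 1 ∧ ∀ A, B.psi x A = lam * algebraMap k K (q A) := by
  classical
  obtain ⟨A₀, hA₀⟩ : ∃ A, B.psi x A ≠ 0 :=
    ⟨_, B.psi_chart_ne_zero (B.chartAt B.lev_d (B.degree_dv _ x) AbsoluteValue.trivial)⟩
  have hfixed : ∀ A σ, (σ : K ≃ₐ[k] K) (B.psi x A / B.psi x A₀) = B.psi x A / B.psi x A₀ := by
    intro A σ
    obtain ⟨κ, hκ, h⟩ := (hfix σ).psi_smul x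
    have hcls : Pic0.mk (degZeroSMulHom (ρ σ) x) = Pic0.mk x := by
      rw [← pic0_smul_mk]; exact hx σ
    obtain ⟨μ, hμ, h'⟩ := B.psi_equiv (x := degZeroSMulHom (ρ σ) x) (x' := x) (by
      exact sub_mem_principal_of_mk_eq hcls.symm)
    have e : ∀ A', B.psi x A' = μ * κ * σ (B.psi x A') := fun A' => by
      conv_lhs => rw [h' A', h A', hρ]
      ring
    rw [map_div₀]
    conv_rhs => rw [e A, e A₀, mul_div_mul_left _ _ (mul_ne_zero hμ hκ)]
  choose q hq using fun A => mem_range_of_forall_fixed (k := k) _ (hfixed A)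
  refine ⟨q, B.psi x A₀, A₀, hA₀, ?_, fun A => ?_⟩
  · refine (algebraMap k K).injective ?_
    rw [hq, map_one, div_self hA₀]
  · rw [hq, mul_div_cancel₀ _ hA₀]

/-- **Descent.** -/
theorem fg_fixedClasses (hext : HasExtensions k K) [Northcott (logHeight₁ (K := k))]
    (B : Base K F) (ρ : (K ≃ₐ[k] K) → SemilinearAut K F)
    (hρ : ∀ σ a, baseAut (ρ σ) a = σ a) (hfix : ∀ σ, B.Fixes (ρ σ))
    (hweak : (nsmulAddMonoidHom (α := fixedClasses ρ) 2).range.FiniteIndex) :
    AddGroup.FG (fixedClasses ρ) := by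
  classical
  choose rep hrep using fun c : fixedClasses ρ => Pic0.mk_surjective (c : Pic0 K F)
  choose q lam A₀ hlam hA₀ hq using fun c : fixedClasses ρ =>
    exists_rational_psi B ρ hρ hfix (rep c) fun σ => by rw [hrep]; exact c.2 σ
  have hqne : ∀ c, q c ≠ 0 := fun c h => by
    have := hA₀ c; rw [h] at this; exact zero_ne_one this
  let h : fixedClasses ρ → ℝ := fun c => logHeight (q c)
  have hloc : (fun (c : fixedClasses ρ) w =>
      Real.log (⨆ A, w (algebraMap k K (q c A))) - B.Fz (rep c) w) ∈ negl K _ := by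
    refine negl_congr (sub_mem (negl_comp B.negl_pm rep) (negl_log lam hlam)) fun c w => ?_
    simp only [Pi.sub_apply]
    have hpm : B.pm w (rep c) = w (lam c) * ⨆ A, w (algebraMap k K (q c A)) := by
      rw [Real.mul_iSup_of_nonneg (w.nonneg _), Base.pm]
      exact iSup_congr fun A => by rw [hq c A, map_mul]
    have hpos : 0 < ⨆ A, w (algebraMap k K (q c A)) := by
      refine lt_of_lt_of_le ?_ (Finite.le_ciSup (fun A => w (algebraMap k K (q c A))) (A₀ c))
      rw [hA₀, map_one, map_one]; exact one_pos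
    rw [hpm, Real.log_mul (w.ne_zero (hlam c)) hpos.ne']
    ring
  have hcls : ∀ (c : fixedClasses ρ) (x : Z0 K F), Pic0.mk x = (c : Pic0 K F) →
      ((x : Divisor K F) - (rep c : Divisor K F)) ∈ Divisor.principal (K := K) (F := F) :=
    fun c x hx => sub_mem_principal_of_mk_eq (hx.trans (hrep c).symm)
  let cs : Fin 5 → ℝ := ![1, 1, 2, -2, -2]
  let qs : fixedClasses ρ × fixedClasses ρ → Fin 5 → B.Idx → k := fun p =>
    ![q (p.1 + p.2), q (p.1 - p.2), q 0, q p.1, q p.2]
  have hfam : (fun (p : fixedClasses ρ × fixedClasses ρ) (w : AbsoluteValue K ℝ) =>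
      ∑ j, cs j * Real.log (⨆ A, w (algebraMap k K (qs p j A)))) ∈ negl K _ := by
    have e1 := negl_comp B.negl_Fz_equiv (fun p : fixedClasses ρ × fixedClasses ρ =>
      (⟨(rep (p.1 + p.2), rep p.1 + rep p.2),
        hcls _ _ (by rw [Pic0.mk_add, hrep, hrep]; rfl)⟩ : Base.EquZ K F))
    have e2 := negl_comp B.negl_Fz_equiv (fun p : fixedClasses ρ × fixedClasses ρ =>
      (⟨(rep (p.1 - p.2), rep p.1 - rep p.2),
        hcls _ _ (by
          show Pic0.mk (rep p.1 - rep p.2) = _
          rw [show Pic0.mk (rep p.1 - rep p.2) = Pic0.mk (rep p.1) - Pic0.mk (rep p.2) from rfl,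
            hrep, hrep]; rfl)⟩ : Base.EquZ K F))
    have e3 := negl_comp B.negl_Fz_equiv (fun _ : fixedClasses ρ × fixedClasses ρ =>
      (⟨(rep 0, 0), hcls _ _ Pic0.mk_zero⟩ : Base.EquZ K F))
    have e4 := negl_comp B.negl_parallelogram
      (fun p : fixedClasses ρ × fixedClasses ρ => (rep p.1, rep p.2))
    refine negl_congr (sub_mem (sub_mem (add_mem (add_mem (add_mem
      (negl_comp hloc fun p : fixedClasses ρ × fixedClasses ρ => p.1 + p.2)
      (negl_comp hloc fun p : fixedClasses ρ × fixedClasses ρ => p.1 - p.2))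
      (add_mem (negl_comp hloc fun _ : fixedClasses ρ × fixedClasses ρ => (0 : fixedClasses ρ))
        (negl_comp hloc fun _ : fixedClasses ρ × fixedClasses ρ => (0 : fixedClasses ρ))))
      (sub_mem (sub_mem (sub_mem e4 (add_mem e1 e2)) (add_mem e3 e3))
        (add_mem (negl_comp hloc fun p : fixedClasses ρ × fixedClasses ρ => p.1)
          (negl_comp hloc fun p : fixedClasses ρ × fixedClasses ρ => p.1))))
      (negl_comp hloc fun p : fixedClasses ρ × fixedClasses ρ => p.2))
      (negl_comp hloc fun p : fixedClasses ρ × fixedClasses ρ => p.2)) fun p w => ?_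
    simp only [Pi.sub_apply, Pi.add_apply, cs, qs, Fin.sum_univ_five, Matrix.cons_val]
    ring
  obtain ⟨M, hM⟩ := exists_bound_sum_logHeight hext cs qs (fun p j => by
    fin_cases j <;> exact hqne _) hfam
  have : Northcott h := ⟨fun b => by
    have hfin : (Set.pi Set.univ fun _ : B.Idx => {x : k | logHeight₁ x ≤ b}).Finite :=
      Set.Finite.pi fun _ => Northcott.finite_le b
    refine Set.Finite.of_finite_fibers q (hfin.subset ?_) fun x _ => ?_
    · rintro _ ⟨c, hc, rfl⟩ A -
      show logHeight₁ (q c A) ≤ b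
      rw [logHeight₁_eq_logHeight]
      refine le_trans (le_of_eq ?_) ((logHeight_comp_le ![A, A₀ c] (q c)).trans hc)
      congr 1
      funext i
      fin_cases i <;> simp [hA₀]
    · refine Set.Finite.inter_of_right (Set.Finite.of_finite_image
        ((B.finite_classes fun A => algebraMap k K (x A)).subset ?_)
        (Subtype.val_injective.injOn)) _
      rintro _ ⟨c, hc, rfl⟩
      refine ⟨rep c, hrep c, lam c, hlam c, fun A => ?_⟩
      rw [hq c A, show q c = x from hc]⟩
  refine AddCommGroup.fg_of_descent' (h := h) (C := M + 2 * |h 0|) hweak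
    (fun c => logHeight_nonneg _) fun x y => ?_
  have := hM (x, y)
  simp only [cs, qs, Fin.sum_univ_five, Matrix.cons_val] at this
  rw [abs_le] at this ⊢
  have h1 := le_abs_self (h 0)
  have h2 := neg_abs_le (h 0)
  simp only [h] at h1 h2 ⊢
  constructor <;> linarith [this.1, this.2]

end Fermat.Agent.MW
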