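import Fermat.Agent.MordellWeil.Bound
import Mathlib.Analysis.SpecialFunctions.Log.Basic

/-!
# Families of functions of an absolute value that are negligible

`φ i w` is negligible if `φ i w + log (w κ_i)` is bounded by `log (C w)` for nonzero constants
`κ_i` and a bound `C` that is uniform in `i`.
-/

set_option autoImplicit false

noncomputable section

namespace Fermat.Agent.MW

variable (K : Type*) [Field K]

/-- The negligible families. -/
def negl (ι : Type*) : AddSubgroup (ι → AbsoluteValue K ℝ → ℝ) where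
  carrier := {φ | ∃ C, IsBd C ∧ ∀ i, ∃ κ : K, κ ≠ 0 ∧
    ∀ w, |φ i w + Real.log (w κ)| ≤ Real.log (C w)}
  zero_mem' := ⟨_, IsBd.one, fun i => ⟨1, one_ne_zero, fun w => by simp⟩⟩
  add_mem' := by
    rintro φ ψ ⟨C, hC, h⟩ ⟨D, hD, h'⟩
    refine ⟨_, hC.mul hD, fun i => ?_⟩
    obtain ⟨κ, hκ, hb⟩ := h i
    obtain ⟨κ', hκ', hb'⟩ := h' i
    refine ⟨κ * κ', mul_ne_zero hκ hκ', fun w => ?_⟩
    rw [map_mul, Real.log_mul (w.ne_zero hκ) (w.ne_zero hκ'),
      Real.log_mul (hC.pos w).ne' (hD.pos w).ne', Pi.add_apply, Pi.add_apply, add_add_add_comm]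
    exact (abs_add_le _ _).trans (add_le_add (hb w) (hb' w))
  neg_mem' := by
    rintro φ ⟨C, hC, h⟩
    refine ⟨C, hC, fun i => ?_⟩
    obtain ⟨κ, hκ, hb⟩ := h i
    refine ⟨κ⁻¹, inv_ne_zero hκ, fun w => ?_⟩
    rw [map_inv₀, Real.log_inv, Pi.neg_apply, Pi.neg_apply, ← neg_add, abs_neg]
    exact hb w

variable {K} {ι : Type*}

theorem negl_of_abs_le {φ : ι → AbsoluteValue K ℝ → ℝ} {C : AbsoluteValue K ℝ → ℝ} (hC : IsBd C)
    (h : ∀ i w, |φ i w| ≤ Real.log (C w)) : φ ∈ negl K ι :=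
  ⟨C, hC, fun i => ⟨1, one_ne_zero, fun w => by simpa using h i w⟩⟩

theorem negl_comp {ι' : Type*} {φ : ι → AbsoluteValue K ℝ → ℝ} (h : φ ∈ negl K ι) (f : ι' → ι) :
    (fun i => φ (f i)) ∈ negl K ι' := by
  obtain ⟨C, hC, h⟩ := h
  exact ⟨C, hC, fun i => h (f i)⟩

theorem negl_log (κ : ι → K) (hκ : ∀ i, κ i ≠ 0) :
    (fun i w => Real.log (w (κ i))) ∈ negl K ι :=
  ⟨_, IsBd.one, fun i => ⟨(κ i)⁻¹, inv_ne_zero (hκ i), fun w => by simp⟩⟩

theorem negl_congr {φ ψ : ι → AbsoluteValue K ℝ → ℝ} (h : φ ∈ negl K ι) (e : ∀ i w, ψ i w = φ i w) :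
    ψ ∈ negl K ι := by
  rwa [show ψ = φ from funext fun i => funext (e i)]

/-- Two-sided comparison gives a bound on the difference of logarithms. -/
theorem abs_log_sub_log_le {a b C : ℝ} (ha : 0 < a) (hb : 0 < b) (hC : 0 < C) (h₁ : a ≤ C * b)
    (h₂ : b ≤ C * a) : |Real.log a - Real.log b| ≤ Real.log C := by
  have e₁ := Real.log_le_log ha h₁
  have e₂ := Real.log_le_log hb h₂
  rw [Real.log_mul hC.ne' hb.ne'] at e₁
  rw [Real.log_mul hC.ne' ha.ne'] at e₂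
  rw [abs_le]
  constructor <;> linarith

theorem negl_log_sub_log {a b : ι → AbsoluteValue K ℝ → ℝ} {C : AbsoluteValue K ℝ → ℝ}
    (hC : IsBd C) (ha : ∀ i w, 0 < a i w) (hb : ∀ i w, 0 < b i w)
    (h₁ : ∀ i w, a i w ≤ C w * b i w) (h₂ : ∀ i w, b i w ≤ C w * a i w) :
    (fun i w => Real.log (a i w) - Real.log (b i w)) ∈ negl K ι :=
  negl_of_abs_le hC fun i w => abs_log_sub_log_le (ha i w) (hb i w) (hC.pos w) (h₁ i w) (h₂ i w)

end Fermat.Agent.MW
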