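import Fermat.Agent.MordellWeil.Extend
import Fermat.Agent.MordellWeil.Negl
import Mathlib.NumberTheory.Height.Basic
import Mathlib.FieldTheory.IsAlgClosed.Basic
import Mathlib.FieldTheory.Normal.Basic

/-!
# From negligible families to bounded combinations of heights

If a combination of local heights of vectors over `k`, read at all absolute values of an
algebraically closed algebraic extension `K`, is a negligible family, then the same combination of
global logarithmic heights is bounded (`exists_bound_sum_logHeight`): take the norm to `k` of the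
constants and use the product formula.
-/

set_option autoImplicit false

noncomputable section

open Height Height.AdmissibleAbsValues

namespace Fermat.Agent.MW

variable {k : Type*} [Field k] [AdmissibleAbsValues k] {K : Type*} [Field K] [Algebra k K]

/-- Every admissible absolute value of `k` extends to `K`. -/
def HasExtensions (k K : Type*) [Field k] [AdmissibleAbsValues k] [Field K] [Algebra k K] : Prop :=
  ∀ v : AbsoluteValue k ℝ, (v ∈ (archAbsVal : Multiset (AbsoluteValue k ℝ)) ∨ v ∈ nonarchAbsVal) →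
    ∃ w : AbsoluteValue K ℝ, ∀ x, w (algebraMap k K x) = v x

omit [AdmissibleAbsValues k] [Algebra k K] in
theorem sum_log_map (v : AbsoluteValue K ℝ) : ∀ s : Multiset K, (∀ r ∈ s, r ≠ 0) →
    (s.map fun r => Real.log (v r)).sum = Real.log (v s.prod) := by
  intro s
  induction s using Multiset.induction with
  | empty => simp
  | cons a t ih =>
    intro h
    simp only [Multiset.mem_cons, forall_eq_or_imp] at h
    rw [Multiset.map_cons, Multiset.sum_cons, Multiset.prod_cons, ih h.2, map_mul,
      Real.log_mul (v.ne_zero h.1) (v.ne_zero (Multiset.prod_ne_zero fun h0 => h.2 0 h0 rfl))]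

/-- The nonarchimedean values where a given element is not a unit. -/
def nonUnitPlaces (c : k) : Set (nonarchAbsVal : Set (AbsoluteValue k ℝ)) :=
  {v | c ≠ 0 ∧ v.val c ≠ 1}

omit [Field K] [Algebra k K] in
theorem finite_nonUnitPlaces (c : k) : (nonUnitPlaces c).Finite := by
  rcases eq_or_ne c 0 with rfl | hc
  · simp [nonUnitPlaces]
  · exact (hasFiniteMulSupport (K := k) hc).subset fun v hv => hv.2

omit [Field K] [Algebra k K] in
theorem iSup_eq_one_of_units {ι : Type*} [Finite ι] {q : ι → k} (hq : q ≠ 0)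
    (v : (nonarchAbsVal : Set (AbsoluteValue k ℝ))) (h : ∀ i, v ∉ nonUnitPlaces (q i)) :
    ⨆ i, v.val (q i) = 1 := by
  obtain ⟨i, hi⟩ := Function.ne_iff.mp hq
  have hval : ∀ j, q j ≠ 0 → v.val (q j) = 1 := fun j hj => by
    by_contra hne; exact h j ⟨hj, hne⟩
  refine le_antisymm (Real.iSup_le (fun j => ?_) zero_le_one) ?_
  · rcases eq_or_ne (q j) 0 with hj | hj
    · simp [hj]
    · exact (hval j hj).le
  · exact le_of_eq_of_le (hval i hi).symm (Finite.le_ciSup (fun j => v.val (q j)) i)

omit [AdmissibleAbsValues k] [Field K] [Algebra k K] in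
theorem iSup_pos {ι : Type*} [Finite ι] {q : ι → k} (hq : q ≠ 0) (v : AbsoluteValue k ℝ) :
    0 < ⨆ i, v (q i) := by
  obtain ⟨i, hi⟩ := Function.ne_iff.mp hq
  exact (v.pos hi).trans_le (Finite.le_ciSup (fun j => v (q j)) i)

omit [Field K] [Algebra k K] in
theorem logHeight_eq_sum {ι : Type*} [Finite ι] {q : ι → k} (hq : q ≠ 0)
    (S : Finset (nonarchAbsVal : Set (AbsoluteValue k ℝ)))
    (hS : ∀ v, v ∉ S → ∀ i, v ∉ nonUnitPlaces (q i)) :
    logHeight q = ((archAbsVal : Multiset (AbsoluteValue k ℝ)).map
      fun v => Real.log (⨆ i, v (q i))).sum + ∑ v ∈ S, Real.log (⨆ i, v.val (q i)) := by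
  have hfin : ∏ᶠ v : (nonarchAbsVal : Set (AbsoluteValue k ℝ)), ⨆ i, v.val (q i)
      = ∏ v ∈ S, ⨆ i, v.val (q i) := by
    refine finprod_eq_prod_of_mulSupport_subset _ fun v hv => ?_
    by_contra hn
    exact hv (iSup_eq_one_of_units hq v (hS v hn))
  have harch : ∀ t : Multiset (AbsoluteValue k ℝ),
      0 < (t.map fun v => ⨆ i, v (q i)).prod ∧
        Real.log (t.map fun v => ⨆ i, v (q i)).prod =
          (t.map fun v => Real.log (⨆ i, v (q i))).sum := by
    intro t
    induction t using Multiset.induction with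
    | empty => simp
    | cons a t ih =>
      simp only [Multiset.map_cons, Multiset.prod_cons, Multiset.sum_cons]
      exact ⟨mul_pos (iSup_pos hq a) ih.1,
        by rw [Real.log_mul (iSup_pos hq a).ne' ih.1.ne', ih.2]⟩
  have hpS : 0 < ∏ v ∈ S, ⨆ i, v.val (q i) := Finset.prod_pos fun v _ => iSup_pos hq v.val
  rw [logHeight_eq_log_mulHeight, mulHeight_eq hq, hfin,
    Real.log_mul (harch _).1.ne' hpS.ne', (harch _).2,
    Real.log_prod fun v _ => (iSup_pos hq v.val).ne']

omit [Field K] [Algebra k K] in
theorem product_formula_log {a : k} (ha : a ≠ 0)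
    (S : Finset (nonarchAbsVal : Set (AbsoluteValue k ℝ))) (hS : ∀ v, v ∉ S → v ∉ nonUnitPlaces a) :
    ((archAbsVal : Multiset (AbsoluteValue k ℝ)).map fun v => Real.log (v a)).sum
      + ∑ v ∈ S, Real.log (v.val a) = 0 := by
  have := logHeight_eq_sum (ι := Unit) (q := fun _ => a) (fun h => ha (congrFun h ())) S
    fun v hv _ => hS v hv
  simp only [ciSup_const] at this
  rw [← this]
  exact logHeight_eq_zero_of_subsingleton _

variable [Algebra.IsAlgebraic k K] [IsAlgClosed K]

/-- **Negligible combinations of local heights give bounded combinations of heights.** -/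
theorem exists_bound_sum_logHeight (hext : HasExtensions k K) {X ι J : Type*} [Finite ι]
    [Fintype J] (c : J → ℝ) (q : X → J → ι → k) (hq : ∀ x j, q x j ≠ 0)
    (h : (fun x (w : AbsoluteValue K ℝ) =>
      ∑ j, c j * Real.log (⨆ i, w (algebraMap k K (q x j i)))) ∈ negl K X) :
    ∃ M, ∀ x, |∑ j, c j * logHeight (q x j)| ≤ M := by
  classical
  have := Fintype.ofFinite ι
  obtain ⟨C, hC, hφ⟩ := h
  obtain ⟨C₀, hC₀, hle⟩ := hC.exists_le_comap (k := k)
  obtain ⟨-, N, l, hl⟩ := id hC₀
  let S₀ : Finset (nonarchAbsVal : Set (AbsoluteValue k ℝ)) :=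
    l.toFinset.biUnion fun e => (finite_nonUnitPlaces e).toFinset
  have hS₀ : ∀ v, v ∉ S₀ → C₀ v.val = 1 := by
    intro v hv
    refine le_antisymm ((hl v.val).trans ?_) (hC₀.one_le _)
    have h1 : coeffSize v.val l = 1 := by
      refine List.prod_eq_one fun y hy => ?_
      obtain ⟨e, he, rfl⟩ := List.mem_map.mp hy
      refine max_eq_left ?_
      rcases eq_or_ne e 0 with rfl | he0
      · simp
      · by_contra hne
        exact hv (Finset.mem_biUnion.mpr ⟨e, List.mem_toFinset.mpr he,
          (finite_nonUnitPlaces e).mem_toFinset.mpr ⟨he0, fun h => hne h.le⟩⟩)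
    rw [h1, mul_one, archN, if_pos (isNonarchimedean _ v.2)]
  refine ⟨((archAbsVal : Multiset (AbsoluteValue k ℝ)).map fun v => Real.log (C₀ v)).sum
    + ∑ v ∈ S₀, Real.log (C₀ v.val), fun x => ?_⟩
  obtain ⟨κ, hκ, hb⟩ := hφ x
  have hint : IsIntegral k κ := (Algebra.IsAlgebraic.isAlgebraic κ).isIntegral
  set p := minpoly k κ
  have hn : 0 < p.natDegree := minpoly.natDegree_pos hint
  set a := p.coeff 0
  have ha : a ≠ 0 := minpoly.coeff_zero_ne_zero hint hκ
  set R := (p.map (algebraMap k K)).roots
  have hsp : (p.map (algebraMap k K)).Splits := IsAlgClosed.splits _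
  have hcard : R.card = p.natDegree := by
    rw [← hsp.natDegree_eq_card_roots, Polynomial.natDegree_map]
  have hprod : algebraMap k K a = (-1) ^ p.natDegree * R.prod := by
    have := hsp.coeff_zero_eq_prod_roots_of_monic ((minpoly.monic hint).map _)
    rwa [Polynomial.coeff_map, Polynomial.natDegree_map] at this
  set n : ℝ := (p.natDegree : ℝ)
  have key : ∀ v : AbsoluteValue k ℝ,
      (v ∈ (archAbsVal : Multiset (AbsoluteValue k ℝ)) ∨ v ∈ nonarchAbsVal) →
      |n * ∑ j, c j * Real.log (⨆ i, v (q x j i)) + Real.log (v a)| ≤ n * Real.log (C₀ v) := by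
    intro v hv
    obtain ⟨w, hw⟩ := hext v hv
    set Φ := ∑ j, c j * Real.log (⨆ i, v (q x j i))
    have hr : ∀ r ∈ R, |Φ + Real.log (w r)| ≤ Real.log (C₀ v) := by
      intro r hr
      rw [Polynomial.mem_roots (Polynomial.map_monic_ne_zero (minpoly.monic hint)),
        Polynomial.IsRoot, Polynomial.eval_map_algebraMap] at hr
      have hκr : minpoly k κ = minpoly k r :=
        minpoly.eq_of_irreducible_of_monic (minpoly.irreducible hint) hr (minpoly.monic hint)
      have : IsAlgClosure k K := ⟨inferInstance, inferInstance⟩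
      have : Normal k K := IsAlgClosure.normal k K
      obtain ⟨σ', hσ'⟩ := minpoly.exists_algEquiv_of_root' (Algebra.IsAlgebraic.isAlgebraic r)
        (show Polynomial.aeval κ (minpoly k r) = 0 by rw [← hκr]; exact minpoly.aeval k κ)
      let σ := σ'.symm
      have hσ : σ κ = r := by rw [← hσ']; exact σ'.symm_apply_apply r
      let w' := w.comp (f := σ.toRingHom) σ.toRingHom.injective
      have hw' : ∀ y, w' (algebraMap k K y) = v y := fun y => by
        show w (σ (algebraMap k K y)) = v y
        rw [σ.commutes, hw]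
      refine le_trans (le_of_eq ?_) ((hb w').trans (Real.log_le_log (hC.pos w') (hle v w' hw')))
      congr 1
      simp only [Φ, hw', show w' κ = w r from congrArg w hσ]
    have hsum : ((R.map fun r => Φ + Real.log (w r)).map fun t => |t|).sum
        ≤ n * Real.log (C₀ v) := by
      rw [Multiset.map_map]
      refine (Multiset.sum_le_card_nsmul _ (Real.log (C₀ v)) fun t ht => ?_).trans_eq ?_
      · obtain ⟨r, hr', rfl⟩ := Multiset.mem_map.mp ht
        exact hr r hr'
      · rw [Multiset.card_map, hcard, nsmul_eq_mul]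
    refine le_trans (le_of_eq ?_) ((Multiset.abs_sum_le_sum_abs).trans hsum)
    congr 1
    have hR0 : ∀ r ∈ R, r ≠ 0 := fun r hr h0 => by
      rw [Polynomial.mem_roots (Polynomial.map_monic_ne_zero (minpoly.monic hint)),
        Polynomial.IsRoot, h0, ← Polynomial.coeff_zero_eq_eval_zero, Polynomial.coeff_map] at hr
      exact ha ((map_eq_zero _).mp hr)
    rw [Multiset.sum_map_add, Multiset.map_const', Multiset.sum_replicate, nsmul_eq_mul,
      sum_log_map w R hR0, hcard]
    have h2 : v a = w R.prod := by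
      rw [← hw, hprod, map_mul, map_pow, w.map_neg, map_one, one_pow, one_mul]
    rw [h2]
  let S := S₀ ∪ (finite_nonUnitPlaces a).toFinset ∪
    Finset.univ.biUnion fun ji : J × ι => (finite_nonUnitPlaces (q x ji.1 ji.2)).toFinset
  have hSa : ∀ v, v ∉ S → v ∉ nonUnitPlaces a := fun v hv hm =>
    hv (Finset.mem_union_left _ (Finset.mem_union_right _
      ((finite_nonUnitPlaces a).mem_toFinset.mpr hm)))
  have hSq : ∀ j v, v ∉ S → ∀ i, v ∉ nonUnitPlaces (q x j i) := fun j v hv i hm =>
    hv (Finset.mem_union_right _ (Finset.mem_biUnion.mpr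
      ⟨(j, i), Finset.mem_univ _, (finite_nonUnitPlaces _).mem_toFinset.mpr hm⟩))
  set m := (archAbsVal : Multiset (AbsoluteValue k ℝ))
  let Φ := fun v : AbsoluteValue k ℝ => ∑ j, c j * Real.log (⨆ i, v (q x j i))
  have htot : ∑ j, c j * logHeight (q x j) = (m.map Φ).sum + ∑ v ∈ S, Φ v.val := by
    simp only [fun j => logHeight_eq_sum (hq x j) S (hSq j), mul_add, Finset.sum_add_distrib]
    congr 1
    · rw [Multiset.sum_map_sum]
      exact Finset.sum_congr rfl fun j _ => Multiset.sum_map_mul_left.symm
    · rw [Finset.sum_comm]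
      exact Finset.sum_congr rfl fun j _ => Finset.mul_sum _ _ _
  have hpf : (m.map fun v => Real.log (v a)).sum + ∑ v ∈ S, Real.log (v.val a) = 0 :=
    product_formula_log ha S hSa
  have hzero : ∑ v ∈ S, Real.log (C₀ v.val) = ∑ v ∈ S₀, Real.log (C₀ v.val) := by
    symm
    refine Finset.sum_subset (fun v hv => Finset.mem_union_left _ (Finset.mem_union_left _ hv))
      fun v _ hv => ?_
    rw [hS₀ v hv, Real.log_one]
  rw [htot, ← hzero]
  refine le_of_mul_le_mul_left ?_ (Nat.cast_pos.mpr hn : (0 : ℝ) < n)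
  rw [← abs_of_pos (Nat.cast_pos.mpr hn : (0 : ℝ) < n), ← abs_mul,
    abs_of_pos (Nat.cast_pos.mpr hn : (0 : ℝ) < n)]
  calc |n * ((m.map Φ).sum + ∑ v ∈ S, Φ v.val)|
      = |(m.map fun v => n * Φ v + Real.log (v a)).sum
          + ∑ v ∈ S, (n * Φ v.val + Real.log (v.val a))| := by
        congr 1
        rw [Multiset.sum_map_add, Multiset.sum_map_mul_left, Finset.sum_add_distrib,
          ← Finset.mul_sum]
        linear_combination -hpf
    _ ≤ ((m.map fun v => n * Φ v + Real.log (v a)).map fun t => |t|).sum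
          + ∑ v ∈ S, |n * Φ v.val + Real.log (v.val a)| :=
        (abs_add_le _ _).trans (add_le_add Multiset.abs_sum_le_sum_abs
          (Finset.abs_sum_le_sum_abs _ _))
    _ ≤ (m.map fun v => n * Real.log (C₀ v)).sum + ∑ v ∈ S, n * Real.log (C₀ v.val) := by
        rw [Multiset.map_map]
        exact add_le_add (Multiset.sum_map_le_sum_map _ _ fun v hv => key v (Or.inl hv))
          (Finset.sum_le_sum fun v _ => key v.val (Or.inr v.2))
    _ = _ := by rw [Multiset.sum_map_mul_left, ← Finset.mul_sum]; ring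

end Fermat.Agent.MW
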