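import Fermat.Agent.MordellWeil.System
import Fermat.Agent.MordellWeil.Twist

/-!
# Inertia at good absolute values fixes the halves

If `g` acts trivially modulo `w`, then a class and its image under `g` cannot differ by a given
nonzero class, as soon as the bound at `w` is `1`.
-/

set_option autoImplicit false

noncomputable section

open AlgebraicCurve AlgebraicCurve.SemilinearAut MvPolynomial

namespace Fermat.Agent.MW

open FF

variable {K F : Type*} [Field K] [Field F] [Algebra K F] [IsFunctionField K F] [IsAlgClosed K]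

theorem eq_one_of_mul_eq_one_of_one_le {a b : ℝ} (ha : 1 ≤ a) (hb : 1 ≤ b) (h : a * b = 1) :
    a = 1 ∧ b = 1 :=
  ⟨le_antisymm (h ▸ le_mul_of_one_le_right (zero_le_one.trans ha) hb) ha,
    le_antisymm (h ▸ le_mul_of_one_le_left (zero_le_one.trans hb) ha) hb⟩

namespace Base

variable {B : Base K F}

theorem Fixes.smul_dual {g : SemilinearAut K F} (hg : B.Fixes g) (a : ℕ) (D : Divisor K F) :
    B.dual a (g • D) = g • B.dual a D := by
  rw [dual, dual, smul_sub, inf, smul_single, hg.O_eq]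

theorem Fixes.evAt_smul_pool {g : SemilinearAut K F} (hg : B.Fixes g) {D : Divisor K F} {f : F}
    (hf : f ∈ riemannRochSpace D) {b : Place K F} (hb : b ∈ B.pool) :
    evAt B.U ((g • D) b) b (g • f) = baseAut g (evAt B.U (D b) b f) := by
  have h := divisor_smul_apply_smul g D b
  rw [hg.pool_eq b hb] at h
  rw [h]
  exact evAt_smul_aut B.U g (hg.pool_eq b hb) (hg.z_eq b hb) (mem_riemannRochSpace.mp hf b)

/-- The image of a chart. -/
def Chart.smulAut {a : ℕ} {D : Divisor K F} (c : B.Chart a D) {g : SemilinearAut K F}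
    (hg : B.Fixes g) : B.Chart a (g • D) where
  A := c.A
  A_mem := c.A_mem
  u i := g • c.u i
  v i := g • c.v i
  u_mem i := smul_aut_mem_riemannRochSpace g (c.u_mem i)
  v_mem i := by rw [hg.smul_dual]; exact smul_aut_mem_riemannRochSpace g (c.v_mem i)
  u_zero i l h := by rw [hg.evAt_smul_pool (c.u_mem i) (c.A_mem l), c.u_zero i l h, map_zero]
  v_zero i l h := by
    rw [hg.smul_dual, hg.evAt_smul_pool (c.v_mem i) (c.A_mem l), c.v_zero i l h, map_zero]
  one l := by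
    rw [hg.smul_dual, hg.evAt_smul_pool (c.u_mem l) (c.A_mem l),
      hg.evAt_smul_pool (c.v_mem l) (c.A_mem l), ← map_mul, c.one l, map_one]
  degree_eq := by rw [degree_smul]; exact c.degree_eq
  le_a := c.le_a

theorem Chart.W_smulAut {a : ℕ} {D : Divisor K F} (c : B.Chart a D) {g : SemilinearAut K F}
    (hg : B.Fixes g) {w : AbsoluteValue K ℝ} (hw : ∀ t, w (baseAut g t) = w t) {b : Place K F}
    (hb : b ∈ B.pool) : (c.smulAut hg).W w b = c.W w b := by
  refine iSup_congr fun i => ?_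
  show w (evAt B.U ((g • D) b) b (g • c.u i)) = _
  rw [hg.evAt_smul_pool (c.u_mem i) hb, hw]

theorem Chart.W_symm_smulAut {a : ℕ} {D : Divisor K F} (c : B.Chart a D) {g : SemilinearAut K F}
    (hg : B.Fixes g) {w : AbsoluteValue K ℝ} (hw : ∀ t, w (baseAut g t) = w t) {b : Place K F}
    (hb : b ∈ B.pool) : (c.smulAut hg).symm.W w b = c.symm.W w b := by
  refine iSup_congr fun i => ?_
  show w (evAt B.U (B.dual a (g • D) b) b (g • c.v i)) = _
  rw [hg.smul_dual, hg.evAt_smul_pool (c.v_mem i) hb, hw]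
  rfl

theorem Chart.evAt_smulAut {a : ℕ} {D : Divisor K F} (c : B.Chart a D) {g : SemilinearAut K F}
    (hg : B.Fixes g) {b : Place K F} (hb : b ∈ B.pool) (i k : Fin (B.rk a)) :
    evAt B.U 0 b ((c.smulAut hg).u i * (c.smulAut hg).v k)
      = baseAut g (evAt B.U 0 b (c.u i * c.v k)) := by
  rw [(c.smulAut hg).evAt_pool hb, c.evAt_pool hb, map_mul]
  show evAt B.U ((g • D) b) b (g • c.u i) * evAt B.U (B.dual a (g • D) b) b (g • c.v k) = _
  rw [hg.smul_dual, hg.evAt_smul_pool (c.u_mem i) hb, hg.evAt_smul_pool (c.v_mem k) hb]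

theorem Chart.Adapted.smulAut {a : ℕ} {D : Divisor K F} {c : B.Chart a D}
    {w : AbsoluteValue K ℝ} {C : ℝ} (hc : c.Adapted w C) {g : SemilinearAut K F}
    (hg : B.Fixes g) (hw : ∀ t, w (baseAut g t) = w t) : (c.smulAut hg).Adapted w C := by
  refine ⟨⟨hc.1.1, fun i k => B.poolNorm_le w _ fun b hb => ?_⟩, ?_, ?_, ?_, ?_⟩
  · rw [c.evAt_smulAut hg hb, hw]
    exact (B.le_poolNorm w _ hb).trans (hc.1.2 i k)
  · rw [c.W_smulAut hg hw B.b₀_mem]; exact hc.2.1
  · rw [c.W_smulAut hg hw B.b₀_mem]; exact hc.2.2.1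
  · rw [c.W_symm_smulAut hg hw B.b₀_mem]; exact hc.2.2.2.1
  · rw [c.W_symm_smulAut hg hw B.b₀_mem]; exact hc.2.2.2.2

variable (B)

/-- Variables of the inertia system. -/
abbrev IVar : Type :=
  B.TVar ⊕
    ((Fin (B.rk B.d) × Fin (B.rk B.d) × Fin (B.rk B.d) × Fin (ell (B.inf ((3 * B.d : ℕ) : ℤ)))) ⊕
    (Fin (B.rk B.d) × Fin (B.rk B.d) × Fin (B.rk B.d) × Fin (ell (B.inf ((3 * B.d : ℕ) : ℤ)))))

/-- Equations of the inertia system. -/
abbrev IIdx : Type _ := B.TIdx ⊕
  ((Fin (B.rk B.d) × Fin (B.rk B.d) × Fin (B.rk B.d) × Fin (B.rk B.d) × Fin (B.rk B.d) × B.pool) ⊕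
   (Fin (B.rk B.d) × Fin (B.rk B.d) × Fin (B.rk B.d) × Fin (B.rk B.d) × Fin (B.rk B.d) ×
      Fin (B.rk B.d) × B.pool))

/-- The value of a triple. -/
def wPoly (v : Fin (B.rk B.d) × Fin (B.rk B.d) × Fin (B.rk B.d) ×
    Fin (ell (B.inf ((3 * B.d : ℕ) : ℤ))) → B.IVar) (i k l : Fin (B.rk B.d)) (b : Place K F) :
    MvPolynomial B.IVar K :=
  B.evPoly _ (fun s => v (i, k, l, s)) b

/-- The inertia system for a chart of the difference class. -/
def inertiaPoly {E : Divisor K F} (cz : B.Chart B.d E) (A : Fin (B.rk B.d) → B.pool) :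
    B.IIdx → MvPolynomial B.IVar K
  | .inl q => B.tensorPoly Sum.inl A q
  | .inr (.inl (i, j, k, l, m, b)) =>
      B.wPoly (fun q => .inr (.inl q)) i k l b * B.tPoly Sum.inl j m b
        - B.wPoly (fun q => .inr (.inl q)) j m l b * B.tPoly Sum.inl i k b
  | .inr (.inr (i, k, l, p, q, m, b)) =>
      B.wPoly (fun q => .inr (.inl q)) i k l b * B.wPoly (fun q => .inr (.inr q)) p q m b
        - B.tPoly Sum.inl i p b * B.tPoly Sum.inl q k b *
          C (evAt B.U 0 (b : Place K F) (cz.u l * cz.v m))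

theorem inertiaPoly_no_zero {z : Z0 K F}
    (hz : (z : Divisor K F) ∉ Divisor.principal (K := K) (F := F))
    (cz : B.Chart B.d (B.dv B.d z)) (A : Fin (B.rk B.d) → B.pool) (x : B.IVar → K) :
    ∃ q, eval x (B.inertiaPoly cz A q) ≠ 0 := by
  classical
  by_contra! h
  obtain ⟨D, c, hc⟩ := B.exists_chart_of_tensorPoly Sum.inl A x fun q => h (.inl q)
  let W := fun (i k l : Fin (B.rk B.d)) =>
    ((B.comb _ fun s => x (.inr (.inl (i, k, l, s))) :
      riemannRochSpace (B.inf ((3 * B.d : ℕ) : ℤ))) : F)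
  let W' := fun (i k l : Fin (B.rk B.d)) =>
    ((B.comb _ fun s => x (.inr (.inr (i, k, l, s))) :
      riemannRochSpace (B.inf ((3 * B.d : ℕ) : ℤ))) : F)
  have hW : ∀ i k l, W i k l ∈ riemannRochSpace (B.inf ((3 * B.d : ℕ) : ℤ)) :=
    fun i k l => Subtype.property _
  have hW' : ∀ i k l, W' i k l ∈ riemannRochSpace (B.inf ((3 * B.d : ℕ) : ℤ)) :=
    fun i k l => Subtype.property _
  have hT : ∀ i k {b : Place K F}, b ∈ B.pool →
      eval x (B.tPoly Sum.inl i k b) = evAt B.U 0 b (c.u i * c.v k) := fun i k b hb => by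
    rw [B.eval_tPoly Sum.inl x i k hb, hc i k]
  have hWv : ∀ i k l {b : Place K F}, b ∈ B.pool →
      eval x (B.wPoly (fun q => .inr (.inl q)) i k l b) = evAt B.U 0 b (W i k l) :=
    fun i k l b hb => B.eval_evPoly _ _ x hb
  have hW'v : ∀ i k l {b : Place K F}, b ∈ B.pool →
      eval x (B.wPoly (fun q => .inr (.inr q)) i k l b) = evAt B.U 0 b (W' i k l) :=
    fun i k l b hb => B.eval_evPoly _ _ x hb
  have hcard := B.card_pool
  have eB : ∀ i j k l m, W i k l * (c.u j * c.v m) = W j m l * (c.u i * c.v k) := by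
    intro i j k l m
    refine B.eq_of_forall_evAt_eq (m := 3 * B.d + 2 * B.d) (by omega) ?_ ?_ fun b hb => ?_
    · rw [Nat.cast_add]; exact B.mul_mem_inf (hW i k l) (c.mul_mem j m)
    · rw [Nat.cast_add]; exact B.mul_mem_inf (hW j m l) (c.mul_mem i k)
    · have := h (.inr (.inl (i, j, k, l, m, ⟨b, hb⟩)))
      simp only [inertiaPoly, map_sub, map_mul, hT _ _ hb, hWv _ _ _ hb, sub_eq_zero] at this
      rw [B.evAt_mul_pool (hW i k l) (c.mul_mem j m) hb,
        B.evAt_mul_pool (hW j m l) (c.mul_mem i k) hb]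
      exact this
  have eC : ∀ i k l p q m, W i k l * W' p q m
      = c.u i * c.v p * (c.u q * c.v k) * (cz.u l * cz.v m) := by
    intro i k l p q m
    refine B.eq_of_forall_evAt_eq (m := 2 * B.d + 2 * B.d + 2 * B.d) (by omega) ?_ ?_ fun b hb => ?_
    · rw [show ((2 * B.d + 2 * B.d + 2 * B.d : ℕ) : ℤ) = ((3 * B.d : ℕ) : ℤ) + ((3 * B.d : ℕ) : ℤ)
        by push_cast; ring]
      exact B.mul_mem_inf (hW i k l) (hW' p q m)
    · rw [Nat.cast_add, Nat.cast_add]
      exact B.mul_mem_inf (B.mul_mem_inf (c.mul_mem i p) (c.mul_mem q k)) (cz.mul_mem l m)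
    · have := h (.inr (.inr (i, k, l, p, q, m, ⟨b, hb⟩)))
      simp only [inertiaPoly, map_sub, map_mul, eval_C, hT _ _ hb, hWv _ _ _ hb, hW'v _ _ _ hb,
        sub_eq_zero] at this
      rw [B.evAt_mul_pool (hW i k l) (hW' p q m) hb, this,
        B.evAt_mul_pool (B.mul_mem_inf (c.mul_mem i p) (c.mul_mem q k)) (cz.mul_mem l m) hb,
        B.evAt_mul_pool (c.mul_mem i p) (c.mul_mem q k) hb]
  let o : Fin (B.rk B.d) := ⟨0, B.rk_pos le_rfl⟩
  set T₀ := c.u o * c.v o
  have hT0 : T₀ ≠ 0 := mul_ne_zero (c.u_ne_zero o) (c.symm.u_ne_zero o)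
  let φ := fun l => W o o l / T₀
  have hWφ : ∀ i k l, W i k l = φ l * (c.u i * c.v k) := by
    intro i k l
    show W i k l = W o o l / T₀ * _
    rw [div_mul_eq_mul_div, eq_div_iff hT0]
    exact eB i o k l o
  have hb := B.bound_le
  have hφ : ∀ l, φ l ∈ riemannRochSpace (B.inf (B.d : ℤ)) := by
    intro l
    have hsub : ∀ y ∈ riemannRochSpace (B.inf ((2 * B.d : ℕ) : ℤ) + B.inf ((2 * B.d : ℕ) : ℤ)),
        φ l * y ∈ riemannRochSpace (B.inf ((3 * B.d : ℕ) : ℤ) + B.inf ((2 * B.d : ℕ) : ℤ)) := by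
      intro y hy
      have hy' := c.span_mul hy
      clear hy
      induction hy' using Submodule.span_induction with
      | zero => simp
      | add a b _ _ ha hb => rw [mul_add]; exact add_mem ha hb
      | smul t a _ ha => rw [mul_smul_comm]; exact Submodule.smul_mem _ _ ha
      | mem a ha =>
        obtain ⟨i, k, y', hy', rfl⟩ := ha
        rw [← mul_assoc, ← hWφ i k l]
        exact mul_mem_riemannRochSpace (hW i k l) hy'
    have := mem_of_forall_mul_mem (by rw [map_add, degree_inf]; push_cast; omega) hsub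
    rwa [add_sub_add_right_eq_sub, inf, inf, ← Finsupp.single_sub,
      show ((3 * B.d : ℕ) : ℤ) - ((2 * B.d : ℕ) : ℤ) = (B.d : ℤ) by push_cast; ring] at this
  have hprod : ∀ l, φ l * W' o o o = T₀ * (cz.u l * cz.v o) := fun l => by
    refine mul_left_cancel₀ hT0 ?_
    have := eC o o l o o o
    rw [hWφ] at this
    linear_combination this
  have hW0 : W' o o o ≠ 0 := fun h0 => by
    have := hprod o
    rw [h0, mul_zero] at this
    exact mul_ne_zero hT0 (mul_ne_zero (cz.u_ne_zero o) (cz.symm.u_ne_zero o)) this.symm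
  set η := T₀ * cz.v o / W' o o o
  have hη : η ≠ 0 := div_ne_zero (mul_ne_zero hT0 (cz.symm.u_ne_zero o)) hW0
  have hηL : ∀ a ∈ riemannRochSpace (B.dv B.d z), η * a ∈ riemannRochSpace (B.inf (B.d : ℤ)) := by
    intro a ha
    rw [← cz.span_u] at ha
    induction ha using Submodule.span_induction with
    | zero => simp
    | add a b _ _ ha hb => rw [mul_add]; exact add_mem ha hb
    | smul t a _ ha => rw [mul_smul_comm]; exact Submodule.smul_mem _ _ ha
    | mem a ha =>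
      obtain ⟨l, rfl⟩ := ha
      have e : η * cz.u l = φ l := by
        rw [div_mul_eq_mul_div, div_eq_iff hW0]
        linear_combination -(hprod l)
      rw [e]; exact hφ l
  have hmem := mem_of_forall_mul_mem (by rw [B.degree_dv]; omega) hηL
  rw [show B.inf (B.d : ℤ) - B.dv B.d z = -(z : Divisor K F) by rw [dv]; abel] at hmem
  exact hz (neg_mem_iff.mp (mem_principal_of_mem
    (by rw [map_neg, Divisor.mem_degZero.mp z.2, neg_zero]) hη hmem))

/-- **Inertia kills the difference.** -/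
theorem exists_bd_inertia {z : Z0 K F}
    (hz : (z : Divisor K F) ∉ Divisor.principal (K := K) (F := F)) :
    ∃ C, IsBd C ∧ ∀ (w : AbsoluteValue K ℝ) (g : SemilinearAut K F) (x : Z0 K F), B.Fixes g →
      IsNonarchimedean w → (∀ t, w (baseAut g t) = w t) →
      (∀ t, w t ≤ 1 → w (baseAut g t - t) < 1) → C w = 1 →
      ((x : Divisor K F) - (degZeroSMulHom g x : Divisor K F)) - (z : Divisor K F)
        ∉ Divisor.principal (K := K) (F := F) := by
  classical
  have hcard := B.card_pool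
  set cz := B.chartAt B.lev_d (B.degree_dv B.d z) AbsoluteValue.trivial
  obtain ⟨Cz, hCz, hcz⟩ := B.exists_bd_fixed_chart cz
  let Cc := fun w => B.cb w * Cz w
  have hCc : IsBd Cc := B.isBd_cb.mul hCz
  choose Cn hCn en hn using fun A => exists_bd_nullstellensatz (B.inertiaPoly cz A)
    (B.inertiaPoly_no_zero hz cz A)
  obtain ⟨Cr, hCr, hr⟩ := B.exists_bd_repr (2 * B.d) (by omega)
  obtain ⟨Cr', hCr', hr'⟩ := B.exists_bd_repr (3 * B.d) (by omega)
  obtain ⟨C₁, hC₁, h₁⟩ := B.exists_bd_one_le_W_mul le_rfl B.lev_d.card hCc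
  obtain ⟨C₃, hC₃, h₃⟩ := B.exists_bd_prod_W (n := 3) (by norm_num) (fun _ => B.d) (fun _ => le_rfl)
    (by simp; omega) hCc
  have hb := B.bound_le
  obtain ⟨Cp, hCp, hp⟩ := B.exists_bd_nu_pool (m := 3 * B.d) (by push_cast; omega)
  refine ⟨fun w => (∏ A, Cn A w) * (Cr w * Cr' w * (C₁ w * (C₃ w * (Cp w * Cc w)))),
    (IsBd.prod _ fun A _ => hCn A).mul ((hCr.mul hCr').mul (hC₁.mul (hC₃.mul (hCp.mul hCc)))),
    fun w g x hg hna hw hcong hC1 hcls => ?_⟩
  obtain ⟨e0, e1⟩ := eq_one_of_mul_eq_one_of_one_le ((IsBd.prod _ fun A _ => hCn A).one_le w)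
    (((hCr.mul hCr').mul (hC₁.mul (hC₃.mul (hCp.mul hCc)))).one_le w) hC1
  obtain ⟨e2, e3⟩ := eq_one_of_mul_eq_one_of_one_le ((hCr.mul hCr').one_le w)
    ((hC₁.mul (hC₃.mul (hCp.mul hCc))).one_le w) e1
  obtain ⟨r1, r2⟩ := eq_one_of_mul_eq_one_of_one_le (hCr.one_le w) (hCr'.one_le w) e2
  obtain ⟨f1, e4⟩ := eq_one_of_mul_eq_one_of_one_le (hC₁.one_le w)
    ((hC₃.mul (hCp.mul hCc)).one_le w) e3
  obtain ⟨f3, e5⟩ := eq_one_of_mul_eq_one_of_one_le (hC₃.one_le w) ((hCp.mul hCc).one_le w) e4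
  obtain ⟨fp, fc⟩ := eq_one_of_mul_eq_one_of_one_le (hCp.one_le w) (hCc.one_le w) e5
  have hx := B.degree_dv B.d x
  set c := B.chartAt B.lev_d hx w
  have hcA : c.Adapted w (Cc w) := (B.adapted_chartAt B.lev_d hx w).mono
    (le_mul_of_one_le_right (B.isBd_cb.nonneg w) (hCz.one_le w))
  set c2 := c.smulAut hg
  have hc2 : c2.Adapted w (Cc w) := hcA.smulAut hg hw
  obtain ⟨f, hf0, hfd⟩ := hcls
  let E : Z0 K F := x - degZeroSMulHom g x
  have hEord : ∀ P, B.dv B.d E P = B.dv B.d z P - P.ord f⁻¹ := fun P => by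
    have := hfd P
    simp only [Finsupp.sub_apply] at this
    simp only [E, dv, AddSubgroupClass.coe_sub, Finsupp.add_apply, Finsupp.sub_apply, P.ord_inv]
    omega
  set cE := cz.transport (inv_ne_zero hf0) hEord (B.degree_dv B.d E) (lead B.U B.b₀ f⁻¹)⁻¹
    (inv_ne_zero (lead_ne_zero B.U _ (inv_ne_zero hf0)))
  have hcE : cE.Adapted w (Cc w) := ((hcz w).mono
    (le_mul_of_one_le_left (hCz.nonneg w) (B.isBd_cb.one_le w))).transport _ hEord _
  have hsum : (g • B.dv B.d x) + B.dual B.d (B.dv B.d x) + B.dv B.d E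
      = B.inf ((3 * B.d : ℕ) : ℤ) := by
    rw [← hg.smul_dv, dual, dv, dv, dv]
    simp only [E, AddSubgroupClass.coe_sub, inf]
    ext P
    simp only [Finsupp.add_apply, Finsupp.sub_apply, Finsupp.single_apply]
    split_ifs <;> push_cast <;> ring
  have hsum' : B.dual B.d (g • B.dv B.d x) + B.dv B.d x + B.dual B.d (B.dv B.d E)
      = B.inf ((3 * B.d : ℕ) : ℤ) := by
    have hs : (B.dual B.d (g • B.dv B.d x) + B.dv B.d x + B.dual B.d (B.dv B.d E))
        + ((g • B.dv B.d x) + B.dual B.d (B.dv B.d x) + B.dv B.d E)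
        = B.inf ((3 * B.d : ℕ) : ℤ) + B.inf ((3 * B.d : ℕ) : ℤ) := by
      simp only [dual, inf, ← Finsupp.single_add]
      rw [show ((3 * B.d : ℕ) : ℤ) + ((3 * B.d : ℕ) : ℤ)
        = ((2 * B.d : ℕ) : ℤ) + ((2 * B.d : ℕ) : ℤ) + ((2 * B.d : ℕ) : ℤ) by push_cast; ring,
        Finsupp.single_add, Finsupp.single_add]
      abel
    rw [hsum] at hs
    exact add_right_cancel hs
  let Wf := fun i k l => c2.u i * c.v k * cE.u l
  let W'f := fun i k l => c2.v i * c.u k * cE.v l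
  have hWm : ∀ i k l, Wf i k l ∈ riemannRochSpace (B.inf ((3 * B.d : ℕ) : ℤ)) := fun i k l => by
    rw [← hsum]
    exact mul_mem_riemannRochSpace (mul_mem_riemannRochSpace (c2.u_mem i) (c.v_mem k)) (cE.u_mem l)
  have hW'm : ∀ i k l, W'f i k l ∈ riemannRochSpace (B.inf ((3 * B.d : ℕ) : ℤ)) := fun i k l => by
    rw [← hsum']
    exact mul_mem_riemannRochSpace (mul_mem_riemannRochSpace (c2.v_mem i) (c.u_mem k)) (cE.v_mem l)
  have hWev : ∀ i k l {b : Place K F}, b ∈ B.pool → evAt B.U 0 b (Wf i k l)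
      = evAt B.U ((g • B.dv B.d x) b) b (c2.u i) *
        evAt B.U (B.dual B.d (B.dv B.d x) b) b (c.v k) * evAt B.U (B.dv B.d E b) b (cE.u l) := by
    intro i k l b hb
    rw [← evAt_mul B.U (mem_riemannRochSpace.mp (c2.u_mem i) b)
      (mem_riemannRochSpace.mp (c.v_mem k) b), ← Finsupp.add_apply,
      ← evAt_mul B.U (mem_riemannRochSpace.mp (mul_mem_riemannRochSpace (c2.u_mem i) (c.v_mem k)) b)
      (mem_riemannRochSpace.mp (cE.u_mem l) b), ← Finsupp.add_apply, hsum, B.inf_pool _ hb]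
  have hW'ev : ∀ i k l {b : Place K F}, b ∈ B.pool → evAt B.U 0 b (W'f i k l)
      = evAt B.U (B.dual B.d (g • B.dv B.d x) b) b (c2.v i) *
        evAt B.U (B.dv B.d x b) b (c.u k) * evAt B.U (B.dual B.d (B.dv B.d E) b) b (cE.v l) := by
    intro i k l b hb
    rw [← evAt_mul B.U (mem_riemannRochSpace.mp (c2.v_mem i) b)
      (mem_riemannRochSpace.mp (c.u_mem k) b), ← Finsupp.add_apply,
      ← evAt_mul B.U (mem_riemannRochSpace.mp (mul_mem_riemannRochSpace (c2.v_mem i) (c.u_mem k)) b)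
      (mem_riemannRochSpace.mp (cE.v_mem l) b), ← Finsupp.add_apply, hsum', B.inf_pool _ hb]
  -- bounds on the pool
  have hprod3 : ∀ (E₁ E₂ E₃ : Divisor K F) (d₁ : B.Chart B.d E₁) (d₂ : B.Chart B.d E₂)
      (d₃ : B.Chart B.d E₃), E₁ + E₂ + E₃ = B.inf ((3 * B.d : ℕ) : ℤ) →
      d₁.Adapted w (Cc w) → d₂.Adapted w (Cc w) → d₃.Adapted w (Cc w) →
      ∀ b ∈ B.pool, d₁.W w b * d₂.W w b * d₃.W w b ≤ 1 := by
    intro E₁ E₂ E₃ d₁ d₂ d₃ hs hd₁ hd₂ hd₃ b hb
    have := (h₃ w ![E₁, E₂, E₃] (Fin.cons d₁ (Fin.cons d₂ (Fin.cons d₃ finZeroElim)))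
      (by simpa [Fin.sum_univ_three, mul_comm] using hs)
      (fun j => by fin_cases j <;> [exact hd₁; exact hd₂; exact hd₃]) b).1
    have e : ((∑ _j : Fin 3, B.d : ℕ) : ℤ) = ((3 * B.d : ℕ) : ℤ) := by simp
    simp only [f3, one_mul, e, Fin.prod_univ_three] at this
    exact this.trans ((hp w b hb).2.trans_eq fp)
  have hWb : ∀ i k l, ∀ b ∈ B.pool, w (evAt B.U 0 b (Wf i k l)) ≤ 1 := fun i k l b hb => by
    rw [hWev i k l hb, map_mul, map_mul]
    refine le_trans ?_ (hprod3 _ _ _ c2 c.symm cE hsum hc2 hcA.symm hcE b hb)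
    exact mul_le_mul (mul_le_mul (c2.le_W w b i) (c.symm.le_W w b k) (w.nonneg _) (c2.W_nonneg w b))
      (cE.le_W w b l) (w.nonneg _) (mul_nonneg (c2.W_nonneg w b) (c.symm.W_nonneg w b))
  have hW'b : ∀ i k l, ∀ b ∈ B.pool, w (evAt B.U 0 b (W'f i k l)) ≤ 1 := fun i k l b hb => by
    rw [hW'ev i k l hb, map_mul, map_mul]
    refine le_trans ?_ (hprod3 _ _ _ c2.symm c cE.symm hsum' hc2.symm hcA hcE.symm b hb)
    exact mul_le_mul (mul_le_mul (c2.symm.le_W w b i) (c.le_W w b k) (w.nonneg _)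
      (c2.symm.W_nonneg w b)) (cE.symm.le_W w b l) (w.nonneg _)
      (mul_nonneg (c2.symm.W_nonneg w b) (c.W_nonneg w b))
  have hTb : ∀ i k, ∀ b ∈ B.pool, w (evAt B.U 0 b (c.u i * c.v k)) ≤ 1 := fun i k b hb =>
    ((B.le_poolNorm w _ hb).trans (hcA.1.2 i k)).trans_eq fc
  have hdelta : ∀ i k, ∀ b ∈ B.pool,
      w (evAt B.U 0 b (c2.u i * c2.v k) - evAt B.U 0 b (c.u i * c.v k)) < 1 := fun i k b hb => by
    rw [c.evAt_smulAut hg hb]
    exact hcong _ (hTb i k b hb)
  let xx : B.IVar → K := Sum.elim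
    (fun q => (B.infBasis ((2 * B.d : ℕ) : ℤ)).repr ⟨_, c.mul_mem q.1 q.2.1⟩ q.2.2)
    (Sum.elim
      (fun q => (B.infBasis ((3 * B.d : ℕ) : ℤ)).repr ⟨_, hWm q.1 q.2.1 q.2.2.1⟩ q.2.2.2)
      (fun q => (B.infBasis ((3 * B.d : ℕ) : ℤ)).repr ⟨_, hW'm q.1 q.2.1 q.2.2.1⟩ q.2.2.2))
  have hxx : ∀ q, w (xx q) ≤ 1 := by
    rintro (⟨i, k, s⟩ | ⟨i, k, l, s⟩ | ⟨i, k, l, s⟩)
    · refine (hr w _ s).trans ?_
      rw [r1, one_mul]
      exact B.poolNorm_le w _ (hTb i k)
    · refine (hr' w _ s).trans ?_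
      rw [r2, one_mul]
      exact B.poolNorm_le w _ (hWb i k l)
    · refine (hr' w _ s).trans ?_
      rw [r2, one_mul]
      exact B.poolNorm_le w _ (hW'b i k l)
  let A : Fin (B.rk B.d) → B.pool := fun l => ⟨c.A l, c.A_mem l⟩
  obtain ⟨q, hq⟩ := hn A w xx le_rfl hxx
  have hCnA : Cn A w = 1 := le_antisymm (by
    rw [← e0, ← Finset.mul_prod_erase _ _ (Finset.mem_univ A)]
    exact le_mul_of_one_le_right ((hCn A).nonneg w)
      ((IsBd.prod (Finset.univ.erase A) fun B' _ => hCn B').one_le w)) ((hCn A).one_le w)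
  rw [hCnA, one_pow, one_mul, one_mul] at hq
  have hT : ∀ i k {b : Place K F}, b ∈ B.pool →
      eval xx (B.tPoly Sum.inl i k b) = evAt B.U 0 b (c.u i * c.v k) := fun i k b hb => by
    rw [B.eval_tPoly Sum.inl xx i k hb]
    congr 1
    rw [show (fun s => xx (Sum.inl (i, k, s)))
      = fun s => (B.infBasis ((2 * B.d : ℕ) : ℤ)).repr ⟨_, c.mul_mem i k⟩ s from rfl, comb_repr]
  have hWv : ∀ i k l {b : Place K F}, b ∈ B.pool →
      eval xx (B.wPoly (fun q => .inr (.inl q)) i k l b) = evAt B.U 0 b (Wf i k l) :=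
    fun i k l b hb => by
      rw [wPoly, B.eval_evPoly _ _ xx hb]
      congr 1
      rw [show (fun s => xx (Sum.inr (Sum.inl (i, k, l, s))))
        = fun s => (B.infBasis ((3 * B.d : ℕ) : ℤ)).repr ⟨_, hWm i k l⟩ s from rfl, comb_repr]
  have hW'v : ∀ i k l {b : Place K F}, b ∈ B.pool →
      eval xx (B.wPoly (fun q => .inr (.inr q)) i k l b) = evAt B.U 0 b (W'f i k l) :=
    fun i k l b hb => by
      rw [wPoly, B.eval_evPoly _ _ xx hb]
      congr 1
      rw [show (fun s => xx (Sum.inr (Sum.inr (i, k, l, s))))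
        = fun s => (B.infBasis ((3 * B.d : ℕ) : ℤ)).repr ⟨_, hW'm i k l⟩ s from rfl, comb_repr]
  rcases q with q | ⟨i, j, k, l, m, b, hb'⟩ | ⟨i, k, l, p, q, m, b, hb'⟩
  · have : eval xx (B.inertiaPoly cz A (.inl q)) = 0 :=
      B.eval_tensorPoly_chart Sum.inl c xx (fun i k s => rfl) q
    rw [this, map_zero] at hq
    exact absurd hq (not_le.mpr one_pos)
  · simp only [inertiaPoly, map_sub, map_mul, hT _ _ hb', hWv _ _ _ hb', hWev _ _ _ hb',
      c.evAt_pool hb'] at hq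
    set a := fun i => evAt B.U ((g • B.dv B.d x) b) b (c2.u i)
    set u := fun i => evAt B.U (B.dv B.d x b) b (c.u i)
    set v := fun i => evAt B.U (B.dual B.d (B.dv B.d x) b) b (c.v i)
    set t := evAt B.U (B.dv B.d E b) b (cE.u l)
    obtain ⟨p, hp'⟩ := c2.symm.exists_W_eq w b
    set a' := evAt B.U (B.dual B.d (g • B.dv B.d x) b) b (c2.v p)
    have hW2' : w a' = c.symm.W w b := by rw [← c.W_symm_smulAut hg hw hb']; exact hp'.symm
    have hΔ : w (a' * (a i * u j - a j * u i)) < c.W w b := by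
      have e : a' * (a i * u j - a j * u i)
          = (a i * a' - u i * v p) * u j - (a j * a' - u j * v p) * u i := by ring
      have hd : ∀ i', w (a i' * a' - u i' * v p) < 1 := fun i' => by
        have := hdelta i' p b hb'
        rwa [c2.evAt_pool hb', c.evAt_pool hb'] at this
      have hu : ∀ i', w (u i') ≤ c.W w b := fun i' => c.le_W w b i'
      have hlt : ∀ i' j', w ((a i' * a' - u i' * v p) * u j') < c.W w b := fun i' j' => by
        rw [map_mul]
        exact (mul_le_mul_of_nonneg_left (hu j') (w.nonneg _)).trans_lt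
          (mul_lt_of_lt_one_left (c.W_pos w b) (hd i'))
      rw [e, sub_eq_add_neg]
      refine (hna _ _).trans_lt (max_lt (hlt i j) ?_)
      rw [w.map_neg]; exact hlt j i
    have hWE : c.W w b * c.symm.W w b * cE.W w b ≤ 1 := by
      have := hprod3 _ _ _ c2 c.symm cE hsum hc2 hcA.symm hcE b hb'
      rwa [show c2.W w b = c.W w b from c.W_smulAut hg hw hb'] at this
    have hfac : a i * v k * t * (u j * v m) - a j * v m * t * (u i * v k)
        = v k * v m * t * (a i * u j - a j * u i) := by ring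
    rw [hfac, map_mul, map_mul, map_mul] at hq
    rw [map_mul, hW2'] at hΔ
    have hWs := c.symm.W_pos w b
    have hcalc : w (v k) * w (v m) * w t * w (a i * u j - a j * u i) < 1 := by
      calc w (v k) * w (v m) * w t * w (a i * u j - a j * u i)
          ≤ c.symm.W w b * c.symm.W w b * cE.W w b * w (a i * u j - a j * u i) := by
            refine mul_le_mul_of_nonneg_right ?_ (w.nonneg _)
            exact mul_le_mul (mul_le_mul (c.symm.le_W w b k) (c.symm.le_W w b m)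
              (w.nonneg _) hWs.le)
              (cE.le_W w b l) (w.nonneg _) (mul_nonneg hWs.le hWs.le)
        _ = c.symm.W w b * cE.W w b * (c.symm.W w b * w (a i * u j - a j * u i)) := by ring
        _ < c.symm.W w b * cE.W w b * c.W w b :=
            mul_lt_mul_of_pos_left hΔ (mul_pos hWs (cE.W_pos w b))
        _ = c.W w b * c.symm.W w b * cE.W w b := by ring
        _ ≤ 1 := hWE
    linarith
  · simp only [inertiaPoly, map_sub, map_mul, eval_C, hT _ _ hb', hWv _ _ _ hb', hW'v _ _ _ hb',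
      hWev _ _ _ hb', hW'ev _ _ _ hb', c.evAt_pool hb'] at hq
    have hR : cE.u l * cE.v m = cz.u l * cz.v m := by
      show (lead B.U B.b₀ f⁻¹)⁻¹ • (f⁻¹ * cz.u l) *
          ((lead B.U B.b₀ f⁻¹)⁻¹)⁻¹ • (f⁻¹⁻¹ * cz.v m) = _
      rw [smul_mul_smul_comm, mul_inv_cancel₀ (inv_ne_zero (lead_ne_zero B.U _ (inv_ne_zero hf0))),
        one_smul, mul_mul_mul_comm, mul_inv_cancel₀ (inv_ne_zero hf0), one_mul]
    rw [← hR, cE.evAt_pool hb'] at hq
    set a2 := evAt B.U ((g • B.dv B.d x) b) b (c2.u i)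
    set a2' := evAt B.U (B.dual B.d (g • B.dv B.d x) b) b (c2.v p)
    set u₁ := evAt B.U (B.dv B.d x b) b (c.u i)
    set uq := evAt B.U (B.dv B.d x b) b (c.u q)
    set v₁ := evAt B.U (B.dual B.d (B.dv B.d x) b) b (c.v p)
    set vk := evAt B.U (B.dual B.d (B.dv B.d x) b) b (c.v k)
    set t₁ := evAt B.U (B.dv B.d E b) b (cE.u l)
    set t₂ := evAt B.U (B.dual B.d (B.dv B.d E) b) b (cE.v m)
    have hfac : a2 * vk * t₁ * (a2' * uq * t₂) - u₁ * v₁ * (uq * vk) * (t₁ * t₂)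
        = (a2 * a2' - u₁ * v₁) * (uq * vk) * (t₁ * t₂) := by ring
    rw [hfac, map_mul, map_mul] at hq
    have h1 : w (a2 * a2' - u₁ * v₁) < 1 := by
      have := hdelta i p b hb'
      rwa [c2.evAt_pool hb', c.evAt_pool hb'] at this
    have h2 : w (uq * vk) ≤ 1 := by
      have := hTb q k b hb'
      rwa [c.evAt_pool hb'] at this
    have h3 : w (t₁ * t₂) ≤ 1 := by
      rw [← cE.evAt_pool hb' l m]
      exact ((B.le_poolNorm w _ hb').trans (hcE.1.2 l m)).trans_eq fc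
    have hlt : w (a2 * a2' - u₁ * v₁) * w (uq * vk) * w (t₁ * t₂) < 1 :=
      (mul_le_of_le_one_right (mul_nonneg (w.nonneg _) (w.nonneg _)) h3).trans_lt
        ((mul_le_of_le_one_right (w.nonneg _) h2).trans_lt h1)
    linarith

end Base

end Fermat.Agent.MW
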