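import Fermat.Agent.MordellWeil.Base

/-!
# The norms `nu v m P` are additive in `m`

Since `L(m·O) * L(n·O)` spans `L((m+n)·O)` in large degree, `nu` is additive in the degree up to
bounds (`exists_bd_nu_add_le`), and it is bounded above and below on the pool.
-/

set_option autoImplicit false

noncomputable section

open AlgebraicCurve

namespace Fermat.Agent.MW

open FF

variable {K F : Type*} [Field K] [Field F] [Algebra K F] [IsFunctionField K F] [IsAlgClosed K]

namespace Base

variable (B : Base K F)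

theorem exists_bd_nu_add_le_of_le {m n : ℤ} (hm : rBound K F + 1 ≤ m) (hm0 : 0 ≤ m)
    (hn : m + rBound K F ≤ n) :
    ∃ C, IsBd C ∧ ∀ (v : AbsoluteValue K ℝ) (P : Place K F),
      B.nu v (m + n) P ≤ C v * (B.nu v m P * B.nu v n P) := by
  classical
  let ι := Fin (ell (B.inf m)) × Fin (ell (B.inf n))
  let e : ι → riemannRochSpace (B.inf (m + n)) := fun p =>
    ⟨(B.infBasis m p.1 : F) * (B.infBasis n p.2 : F),
      B.mul_mem_inf (B.infBasis m p.1).2 (B.infBasis n p.2).2⟩
  have hspan : ∀ w, ∃ c : ι → K, ∑ p, c p • e p = B.infBasis (m + n) w := by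
    intro w
    rw [← Submodule.mem_span_range_iff_exists_fun]
    have h := span_mul_eq (A := B.inf m) (B := B.inf n) (by simpa using hm) (by simp; omega)
      (by simpa using hm0)
    rw [← B.inf_add] at h
    have hw : ((B.infBasis (m + n) w : F)) ∈ Submodule.span K
        {x : F |
          ∃ a ∈ riemannRochSpace (B.inf m), ∃ b ∈ riemannRochSpace (B.inf n), a * b = x} := by
      rw [h]; exact (B.infBasis (m + n) w).2
    have hle : Submodule.span K
        {x : F | ∃ a ∈ riemannRochSpace (B.inf m), ∃ b ∈ riemannRochSpace (B.inf n), a * b = x}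
        ≤ (Submodule.span K (Set.range e)).map (riemannRochSpace (B.inf (m + n))).subtype := by
      rw [Submodule.span_le]
      rintro x ⟨a, ha, b, hb, rfl⟩
      rw [show a = ((⟨a, ha⟩ : riemannRochSpace (B.inf m)) : F) from rfl,
        show b = ((⟨b, hb⟩ : riemannRochSpace (B.inf n)) : F) from rfl,
        ← (B.infBasis m).sum_repr ⟨a, ha⟩, ← (B.infBasis n).sum_repr ⟨b, hb⟩]
      simp only [Submodule.coe_sum, Submodule.coe_smul, Finset.sum_mul, Finset.mul_sum,
        smul_mul_assoc, mul_smul_comm, SetLike.mem_coe]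
      refine Submodule.sum_mem _ fun s _ => Submodule.smul_mem _ _
        (Submodule.sum_mem _ fun t _ => Submodule.smul_mem _ _ ?_)
      exact ⟨e (t, s), Submodule.subset_span ⟨(t, s), rfl⟩, rfl⟩
    obtain ⟨y, hy, hyw⟩ := hle hw
    rwa [show y = B.infBasis (m + n) w from Subtype.ext hyw] at hy
  choose c hc using hspan
  let l : List K := ((Finset.univ : Finset (Fin (ell (B.inf (m + n))) × ι)).image
    fun q => c q.1 q.2).toList
  refine ⟨fun v => archN v (Fintype.card ι) * coeffSize v l,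
    (IsBd.archN_bd _).mul (IsBd.coeffSize_bd _), fun v P => ?_⟩
  have h0 : 0 ≤ B.nu v m P * B.nu v n P := mul_nonneg (B.nu_nonneg v m P) (B.nu_nonneg v n P)
  have hl : 0 ≤ coeffSize v l := zero_le_one.trans (one_le_coeffSize v l)
  refine Real.iSup_le (fun w => ?_) (mul_nonneg (mul_nonneg (archN_pos v _).le hl) h0)
  rw [← hc w, map_sum, mul_assoc]
  refine sum_le_archN_univ v _ (mul_nonneg hl h0) fun p => ?_
  rw [map_smul, smul_eq_mul, map_mul]
  refine mul_le_mul (le_coeffSize_of_mem v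
    (Finset.mem_toList.mpr (Finset.mem_image.mpr ⟨(w, p), Finset.mem_univ _, rfl⟩))) ?_
    (v.nonneg _) hl
  rw [show evL B.U (B.inf (m + n)) P (e p) = _ from B.evL_mul P
    (B.infBasis m p.1) (B.infBasis n p.2),
    map_mul]
  exact mul_le_mul (B.le_nu v m P p.1) (B.le_nu v n P p.2) (v.nonneg _) (B.nu_nonneg v m P)

/-- `nu` is additive in the degree, up to bounds. -/
theorem exists_bd_nu_add_le {m n : ℤ} (hm : rBound K F + 1 ≤ m) (hm0 : 0 ≤ m)
    (hn : rBound K F + 1 ≤ n) (hn0 : 0 ≤ n) :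
    ∃ C, IsBd C ∧ ∀ (v : AbsoluteValue K ℝ) (P : Place K F),
      B.nu v (m + n) P ≤ C v * (B.nu v m P * B.nu v n P) := by
  set k : ℤ := m + n + |rBound K F| + 1 with hk
  have habs := le_abs_self (rBound K F)
  have habs0 := abs_nonneg (rBound K F)
  obtain ⟨C₁, hC₁, h₁⟩ := B.exists_bd_nu_mul_le (m + n) k
  obtain ⟨C₂, hC₂, h₂⟩ := B.exists_bd_nu_add_le_of_le hm hm0 (n := n + k) (by omega)
  obtain ⟨C₃, hC₃, h₃⟩ := B.exists_bd_nu_add_le_of_le hn hn0 (n := k) (by omega)
  refine ⟨fun v => C₁ v * C₂ v * C₃ v, (hC₁.mul hC₂).mul hC₃, fun v P => ?_⟩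
  have hkpos := B.nu_pos v (m := k) (by omega) P
  refine le_of_mul_le_mul_right ?_ hkpos
  calc B.nu v (m + n) P * B.nu v k P ≤ C₁ v * B.nu v (m + n + k) P := h₁ v P
    _ = C₁ v * B.nu v (m + (n + k)) P := by rw [add_assoc]
    _ ≤ C₁ v * (C₂ v * (B.nu v m P * B.nu v (n + k) P)) :=
        mul_le_mul_of_nonneg_left (h₂ v P) (hC₁.nonneg v)
    _ ≤ C₁ v * (C₂ v * (B.nu v m P * (C₃ v * (B.nu v n P * B.nu v k P)))) :=
        mul_le_mul_of_nonneg_left (mul_le_mul_of_nonneg_left
          (mul_le_mul_of_nonneg_left (h₃ v P) (B.nu_nonneg v m P)) (hC₂.nonneg v)) (hC₁.nonneg v)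
    _ = _ := by ring

/-- `nu` is `1` on the pool, up to bounds. -/
theorem exists_bd_nu_pool {m : ℕ} (hm : rBound K F + 1 ≤ (m : ℤ)) :
    ∃ C, IsBd C ∧ ∀ (v : AbsoluteValue K ℝ), ∀ b ∈ B.pool,
      1 ≤ C v * B.nu v m b ∧ B.nu v m b ≤ C v := by
  classical
  let g : Place K F → Fin (ell (B.inf (m : ℤ))) → K := fun b s =>
    evL B.U (B.inf (m : ℤ)) b (B.infBasis (m : ℤ) s)
  have hne : ∀ b : Place K F, ∃ s, g b s ≠ 0 := by
    intro b
    by_contra! hall
    obtain ⟨f, hf⟩ := exists_evL_ne_zero B.U (B.inf (m : ℤ)) b (by simpa using hm)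
    apply hf
    rw [← (B.infBasis (m : ℤ)).sum_repr f, map_sum]
    exact Finset.sum_eq_zero fun s _ => by rw [map_smul]; simp [g] at hall; rw [hall s, smul_zero]
  choose s₀ hs₀ using hne
  let l : List K := ((B.pool ×ˢ (Finset.univ : Finset (Fin (ell (B.inf (m : ℤ)))))).image
    fun p => g p.1 p.2).toList
  let l' : List K := (B.pool.image fun b => (g b (s₀ b))⁻¹).toList
  refine ⟨fun v => coeffSize v l * coeffSize v l', (IsBd.coeffSize_bd _).mul (IsBd.coeffSize_bd _),
    fun v b hb => ⟨?_, ?_⟩⟩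
  · calc (1 : ℝ) = v (g b (s₀ b))⁻¹ * v (g b (s₀ b)) := by
          rw [← map_mul, inv_mul_cancel₀ (hs₀ b), map_one]
      _ ≤ coeffSize v l' * B.nu v (m : ℤ) b :=
          mul_le_mul (le_coeffSize_of_mem v
            (Finset.mem_toList.mpr (Finset.mem_image.mpr ⟨b, hb, rfl⟩)))
            (B.le_nu v _ b _) (v.nonneg _) (zero_le_one.trans (one_le_coeffSize v l'))
      _ ≤ coeffSize v l * coeffSize v l' * B.nu v (m : ℤ) b :=
          mul_le_mul_of_nonneg_right (le_mul_of_one_le_left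
            (zero_le_one.trans (one_le_coeffSize v l')) (one_le_coeffSize v l))
            (B.nu_nonneg v _ b)
  · refine Real.iSup_le (fun s => (le_coeffSize_of_mem v (Finset.mem_toList.mpr
      (Finset.mem_image.mpr ⟨(b, s), Finset.mem_product.mpr ⟨hb, Finset.mem_univ _⟩, rfl⟩))).trans
      (le_mul_of_one_le_right (zero_le_one.trans (one_le_coeffSize v l)) (one_le_coeffSize v l')))
      (mul_nonneg (zero_le_one.trans (one_le_coeffSize v l))
        (zero_le_one.trans (one_le_coeffSize v l')))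

end Base

end Fermat.Agent.MW
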