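import Fermat.Agent.MordellWeil.Quad

/-!
# The vector `psi` of a class

`psi x` is projectively an invariant of the class of `x`; its norm at each absolute value is
`Fz x`, and it determines the class up to finitely many choices.
-/

set_option autoImplicit false

noncomputable section

open AlgebraicCurve

namespace Fermat.Agent.MW

open FF

variable {K F : Type*} [Field K] [Field F] [Algebra K F] [IsFunctionField K F] [IsAlgClosed K]

namespace Base

variable (B : Base K F)

/-- Families of pool places. -/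
abbrev Idx : Type _ := Fin (B.rk B.d) → B.pool

/-- The coordinates of a class. -/
def psi (x : Z0 K F) (A : B.Idx) : K :=
  B.theta B.d (B.dv B.d x) (fun l => (A l : Place K F)) *
    B.theta B.d (B.dv B.d (-x)) (fun l => (A l : Place K F))

/-- The norm of `psi`. -/
def pm (w : AbsoluteValue K ℝ) (x : Z0 K F) : ℝ := ⨆ A, w (B.psi x A)

theorem le_pm (w : AbsoluteValue K ℝ) (x : Z0 K F) (A : B.Idx) : w (B.psi x A) ≤ B.pm w x :=
  Finite.le_ciSup (fun A => w (B.psi x A)) A

/-- Substituting one place multiplies by a value of `u i * v i`. -/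
theorem psi_update {x : Z0 K F} (c : B.Chart B.d (B.dv B.d x)) (i : Fin (B.rk B.d))
    (b : B.pool) :
    B.psi x (Function.update (fun l => ⟨c.A l, c.A_mem l⟩) i b)
      = evAt B.U 0 (b : Place K F) (c.u i * c.v i) * B.psi x (fun l => ⟨c.A l, c.A_mem l⟩) := by
  classical
  have hx : Divisor.degree (B.dv B.d x) = B.d := B.degree_dv _ x
  have hup : ∀ (E : Divisor K F) (c' : B.Chart B.d E) (hE : Divisor.degree E = B.d) (q : Place K F),
      B.theta B.d E (Function.update c'.A i q) * evAt B.U (E (c'.A i)) (c'.A i) (c'.u i)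
        = evAt B.U (E q) q (c'.u i) * B.theta B.d E c'.A := by
    intro E c' hE q
    rw [B.theta_eq B.lev_d hE, B.theta_eq B.lev_d hE, B.det_evMat_basis E c'.uBasis,
      B.det_evMat_basis E c'.uBasis _ c'.A, B.det_evMat_update_diag]
    conv_rhs => rw [← Function.update_eq_self i c'.A, B.det_evMat_update_diag]
    ring
  have h2 : B.dual B.d (B.dv B.d x) = B.dv B.d (-x) := B.dual_dv _ x
  have e1 :
      (fun l => ((Function.update (fun l => (⟨c.A l, c.A_mem l⟩ : B.pool)) i b) l : Place K F))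
      = Function.update c.A i (b : Place K F) := by
    funext l
    rcases eq_or_ne l i with rfl | h
    · simp
    · simp [Function.update_of_ne h]
  simp only [psi, e1]
  rw [← h2]
  have hu := hup _ c hx (b : Place K F)
  have hv : B.theta B.d (B.dual B.d (B.dv B.d x)) (Function.update c.A i (b : Place K F)) *
      evAt B.U (B.dual B.d (B.dv B.d x) (c.A i)) (c.A i) (c.v i)
      = evAt B.U (B.dual B.d (B.dv B.d x) b) b (c.v i) *
        B.theta B.d (B.dual B.d (B.dv B.d x)) c.A := hup _ c.symm (B.degree_dual hx) (b : Place K F)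
  have hone := c.one i
  rw [c.evAt_pool b.2]
  linear_combination
    (B.theta B.d (B.dual B.d (B.dv B.d x)) (Function.update c.A i (b : Place K F)) *
    evAt B.U (B.dual B.d (B.dv B.d x) (c.A i)) (c.A i) (c.v i)) * hu
    + (evAt B.U (B.dv B.d x b) b (c.u i) * B.theta B.d (B.dv B.d x) c.A) * hv
    - (B.theta B.d (B.dv B.d x) (Function.update c.A i (b : Place K F)) *
      B.theta B.d (B.dual B.d (B.dv B.d x)) (Function.update c.A i (b : Place K F))) * hone

/-- A chart with given places exists as soon as the coordinate does not vanish. -/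
theorem exists_chart_of_psi {x : Z0 K F} {A : B.Idx} (h : B.psi x A ≠ 0) :
    ∃ c : B.Chart B.d (B.dv B.d x), ∀ l, c.A l = A l := by
  classical
  have hx : Divisor.degree (B.dv B.d x) = B.d := B.degree_dv _ x
  let A' : Fin (B.rk B.d) → Place K F := fun l => A l
  obtain ⟨h1, h2⟩ := mul_ne_zero_iff.mp h
  rw [← B.dual_dv] at h2
  rw [B.theta_eq B.lev_d hx] at h1
  rw [B.theta_eq B.lev_d (B.degree_dual hx)] at h2
  set e := B.eBasis B.lev_d hx
  set e' := B.eBasis B.lev_d (B.degree_dual hx)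
  exact ⟨B.chartOfDet le_rfl hx A' (fun l => (A l).2) e e' h1 h2, fun l => rfl⟩

/-- `psi` does not vanish at the places of a chart. -/
theorem psi_chart_ne_zero {x : Z0 K F} (c : B.Chart B.d (B.dv B.d x)) :
    B.psi x (fun l => ⟨c.A l, c.A_mem l⟩) ≠ 0 := by
  have hx : Divisor.degree (B.dv B.d x) = B.d := B.degree_dv _ x
  have key : ∀ (E : Divisor K F) (c' : B.Chart B.d E), Divisor.degree E = B.d →
      B.theta B.d E c'.A ≠ 0 := by
    intro E c' hE
    rw [B.theta_eq B.lev_d hE, B.det_evMat_basis E c'.uBasis]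
    refine mul_ne_zero ?_ (det_toMatrix_ne_zero _ _)
    rw [c'.det_evMat_A]
    exact Finset.prod_ne_zero_iff.mpr fun l _ => c'.ev_u_ne_zero l
  exact mul_ne_zero (key _ c hx) (by rw [← B.dual_dv]; exact key _ c.symm (B.degree_dual hx))

/-- `psi` is projectively an invariant of the class. -/
theorem psi_equiv {x x' : Z0 K F}
    (h : ((x' : Divisor K F) - (x : Divisor K F)) ∈ Divisor.principal (K := K) (F := F)) :
    ∃ κ : K, κ ≠ 0 ∧ ∀ A, B.psi x' A = κ * B.psi x A := by
  obtain ⟨f, hf, hfd⟩ := h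
  have e : ∀ P, (x' : Divisor K F) P - (x : Divisor K F) P = P.ord f := fun P => by
    rw [← Finsupp.sub_apply, hfd]
  obtain ⟨κ₁, hκ₁, h₁⟩ := B.theta_equiv B.lev_d (B.degree_dv _ x) (B.degree_dv _ x')
    (inv_ne_zero hf) (fun P => by
      simp only [dv, Finsupp.add_apply, P.ord_inv]
      have := e P; omega)
  obtain ⟨κ₂, hκ₂, h₂⟩ := B.theta_equiv B.lev_d (B.degree_dv _ (-x)) (B.degree_dv _ (-x')) hf
    (fun P => by
      simp only [dv, Finsupp.add_apply, AddSubgroup.coe_neg, Finsupp.neg_apply]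
      have := e P; omega)
  refine ⟨κ₁ * κ₂, mul_ne_zero hκ₁ hκ₂, fun A => ?_⟩
  have hprod : (∏ l, lead B.U (A l : Place K F) f⁻¹) * (∏ l, lead B.U (A l : Place K F) f) = 1 := by
    rw [← Finset.prod_mul_distrib]
    exact Finset.prod_eq_one fun l _ => by rw [mul_comm, lead_mul_lead_inv B.U _ hf]
  simp only [psi, h₁, h₂]
  linear_combination (B.theta B.d (B.dv B.d x) (fun l => (A l : Place K F)) *
    B.theta B.d (B.dv B.d (-x)) (fun l => (A l : Place K F)) * κ₁ * κ₂) * hprod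

/-- The norm of `psi` is `Fz`. -/
theorem exists_bd_pm :
    ∃ C, IsBd C ∧ ∀ (w : AbsoluteValue K ℝ) (x : Z0 K F), 0 < B.pm w x ∧
      |Real.log (B.pm w x) - B.Fz x w| ≤ Real.log (C w) := by
  classical
  obtain ⟨Cu, hCu, hu⟩ := B.exists_bd_theta_le B.lev_d
  obtain ⟨C₂, hC₂, h₂⟩ := B.exists_bd_G_dual_pool B.lev_d
  obtain ⟨Cg, hCg, hg⟩ := B.exists_bd_theta_ge B.lev_d
  obtain ⟨Cq, hCq, hq⟩ := B.exists_bd_W_G B.lev_d B.isBd_cb
  set r := B.rk B.d
  let C' := fun w => Cu w * Cu w * C₂ w ^ r * (Cg w * (archN w r.factorial * Cq w ^ r))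
  have hC' : IsBd C' := ((hCu.mul hCu).mul (hC₂.pow r)).mul
    (hCg.mul ((IsBd.archN_bd _).mul (hCq.pow r)))
  refine ⟨C', hC', fun w x => ?_⟩
  have hx : Divisor.degree (B.dv B.d x) = B.d := B.degree_dv _ x
  have hx' : Divisor.degree (B.dv B.d (-x)) = B.d := B.degree_dv _ _
  set E := Real.exp (B.T B.d (B.dv B.d x) w) * Real.exp (B.T B.d (B.dv B.d (-x)) w)
  have hE : 0 < E := mul_pos (Real.exp_pos _) (Real.exp_pos _)
  have hup : B.pm w x ≤ Cu w * Cu w * C₂ w ^ r * E := by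
    refine Real.iSup_le (fun A => ?_) (mul_nonneg ((hCu.mul hCu).mul (hC₂.pow r) |>.nonneg w) hE.le)
    rw [psi, map_mul]
    have hprod : (∏ l, B.G B.d (B.dv B.d x) w (A l)) * ∏ l, B.G B.d (B.dv B.d (-x)) w (A l)
        ≤ C₂ w ^ r := by
      rw [← Finset.prod_mul_distrib, ← B.dual_dv]
      refine (Finset.prod_le_prod (fun l _ => mul_nonneg (B.G_pos _ _ _ _).le
        (B.G_pos _ _ _ _).le) fun l _ => (h₂ w _ hx _ (A l).2).1).trans_eq ?_
      rw [Finset.prod_const, Finset.card_univ, Fintype.card_fin]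
    refine (mul_le_mul (hu w _ hx _) (hu w _ hx' _) (w.nonneg _) (mul_nonneg (hCu.nonneg w)
      (mul_nonneg (Real.exp_pos _).le (Finset.prod_nonneg fun l _ => (B.G_pos _ _ _ _).le)))).trans
        ?_
    calc _ = Cu w * Cu w * E * ((∏ l, B.G B.d (B.dv B.d x) w (A l)) *
          ∏ l, B.G B.d (B.dv B.d (-x)) w (A l)) := by ring
      _ ≤ Cu w * Cu w * E * C₂ w ^ r :=
          mul_le_mul_of_nonneg_left hprod (mul_nonneg ((hCu.mul hCu).nonneg w) hE.le)
      _ = _ := by ring
  set c := B.chartAt B.lev_d hx w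
  have hc := B.adapted_chartAt B.lev_d hx w
  have hlow : E ≤ Cg w * (archN w r.factorial * Cq w ^ r) * B.pm w x := by
    have hcs : Divisor.degree (B.dual B.d (B.dv B.d x)) = B.d := B.degree_dual hx
    have hd := B.dual_dv B.d x
    set κ := (c.symm.uBasis.toMatrix (B.eBasis B.lev_d hcs)).det
    have hths : ∀ A : Fin r → Place K F, w (B.theta B.d (B.dual B.d (B.dv B.d x)) A)
        = w κ * w (B.evMat _ c.symm.uBasis A).det := fun A => by
      rw [B.theta_eq B.lev_d hcs, B.det_evMat_basis _ c.symm.uBasis, map_mul, mul_comm]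
    obtain ⟨A₀, -, -, -, hA₀⟩ := hg w _ hcs B.O
    have hT : Real.exp (B.T B.d (B.dual B.d (B.dv B.d x)) w)
        ≤ Cg w * (archN w r.factorial * Cq w ^ r) * w κ := by
      refine le_of_mul_le_mul_right ?_ (Finset.prod_pos fun l (_ : l ∈ Finset.univ) =>
        B.G_pos B.d (B.dual B.d (B.dv B.d x)) w (A₀ l))
      refine hA₀.trans ?_
      rw [hths]
      have hW : ∏ l, c.symm.W w (A₀ l)
          ≤ Cq w ^ r * ∏ l, B.G B.d (B.dual B.d (B.dv B.d x)) w (A₀ l) := by
        refine (Finset.prod_le_prod (fun l _ => c.symm.W_nonneg w _)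
          fun l _ => (hq w _ c.symm hc.symm (A₀ l)).1).trans_eq ?_
        rw [Finset.prod_mul_distrib, Finset.prod_const, Finset.card_univ, Fintype.card_fin]
      refine (mul_le_mul_of_nonneg_left (mul_le_mul_of_nonneg_left
        ((c.symm.abs_det_le w A₀).trans (mul_le_mul_of_nonneg_left hW (archN_pos w _).le))
        (w.nonneg _)) (hCg.nonneg w)).trans_eq ?_
      ring
    have hval : Real.exp (B.T B.d (B.dv B.d x) w) * w κ ≤ B.pm w x := by
      refine le_trans (le_of_eq ?_) (B.le_pm w x (fun l => ⟨c.A l, c.A_mem l⟩))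
      rw [psi, map_mul, ← hd, hths, B.abs_theta B.lev_d hx]
      show _ = _ * w (B.evMat _ c.uBasis c.A).det * (_ * w (B.evMat _ c.symm.uBasis c.symm.A).det)
      rw [c.det_evMat_A, c.symm.det_evMat_A]
      have h1 : w (∏ l, evAt B.U (B.dv B.d x (c.A l)) (c.A l) (c.u l)) *
        w (∏ l, evAt B.U (B.dual B.d (B.dv B.d x) (c.symm.A l)) (c.symm.A l) (c.symm.u l)) = 1 := by
        rw [← map_mul, ← Finset.prod_mul_distrib, Finset.prod_eq_one (fun l _ => ?_), map_one]
        exact c.one l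
      calc Real.exp (B.T B.d (B.dv B.d x) w) * w κ
          = Real.exp (B.T B.d (B.dv B.d x) w) * w κ *
            (w (∏ l, evAt B.U (B.dv B.d x (c.A l)) (c.A l) (c.u l)) *
            w (∏ l, evAt B.U (B.dual B.d (B.dv B.d x) (c.symm.A l)) (c.symm.A l) (c.symm.u l))) :=
            by rw [h1, mul_one]
        _ = _ := by ring
    calc E = Real.exp (B.T B.d (B.dv B.d x) w) *
          Real.exp (B.T B.d (B.dual B.d (B.dv B.d x)) w) := by rw [hd]
      _ ≤ Real.exp (B.T B.d (B.dv B.d x) w) *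
          (Cg w * (archN w r.factorial * Cq w ^ r) * w κ) :=
          mul_le_mul_of_nonneg_left hT (Real.exp_pos _).le
      _ = Cg w * (archN w r.factorial * Cq w ^ r) * (Real.exp (B.T B.d (B.dv B.d x) w) * w κ) := by
          ring
      _ ≤ _ := mul_le_mul_of_nonneg_left hval
          (hCg.mul ((IsBd.archN_bd _).mul (hCq.pow r)) |>.nonneg w)
  have hpm : 0 < B.pm w x := by
    by_contra! hle
    have := hlow.trans (mul_nonpos_of_nonneg_of_nonpos
      (hCg.mul ((IsBd.archN_bd _).mul (hCq.pow r)) |>.nonneg w) hle)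
    linarith
  refine ⟨hpm, ?_⟩
  have hF : B.Fz x w = Real.log E := by
    rw [Real.log_mul (Real.exp_pos _).ne' (Real.exp_pos _).ne', Real.log_exp, Real.log_exp]
    rfl
  rw [hF]
  refine abs_log_sub_log_le hpm hE (hC'.pos w) (hup.trans (mul_le_mul_of_nonneg_right
    (le_mul_of_one_le_right ((hCu.mul hCu).mul (hC₂.pow r) |>.nonneg w)
      (hCg.mul ((IsBd.archN_bd _).mul (hCq.pow r)) |>.one_le w)) hE.le))
    (hlow.trans (mul_le_mul_of_nonneg_right (le_mul_of_one_le_left
      (hCg.mul ((IsBd.archN_bd _).mul (hCq.pow r)) |>.nonneg w)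
      ((hCu.mul hCu).mul (hC₂.pow r) |>.one_le w)) hpm.le))

/-- The same, as a negligible family. -/
theorem negl_pm :
    (fun (x : Z0 K F) w => Real.log (B.pm w x) - B.Fz x w) ∈ negl K _ := by
  obtain ⟨C, hC, h⟩ := B.exists_bd_pm
  exact negl_of_abs_le hC fun x w => (h w x).2

/-- A vector is `psi` of finitely many classes only. -/
theorem finite_classes (ψ₀ : B.Idx → K) :
    {c : Pic0 K F | ∃ x : Z0 K F, Pic0.mk x = c ∧
      ∃ lam : K, lam ≠ 0 ∧ ∀ A, B.psi x A = lam * ψ₀ A}.Finite := by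
  classical
  rcases Set.eq_empty_or_nonempty {c : Pic0 K F | ∃ x : Z0 K F, Pic0.mk x = c ∧
      ∃ lam : K, lam ≠ 0 ∧ ∀ A, B.psi x A = lam * ψ₀ A} with he | ⟨_, x₀, -, lam₀, hlam₀, hx₀⟩
  · rw [he]; exact Set.finite_empty
  obtain ⟨A₀, hA₀⟩ : ∃ A, B.psi x₀ A ≠ 0 :=
    ⟨_, B.psi_chart_ne_zero (B.chartAt B.lev_d (B.degree_dv _ x₀) AbsoluteValue.trivial)⟩
  obtain ⟨c₀, hc₀⟩ := B.exists_chart_of_psi hA₀
  let i : Fin (B.rk B.d) := ⟨0, B.rk_pos le_rfl⟩
  set g := c₀.u i * c₀.v i
  have hg : g ≠ 0 := mul_ne_zero (c₀.u_ne_zero i) (c₀.symm.u_ne_zero i)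
  obtain ⟨Dg, hDg, -⟩ := HasPrincipalDivisors.exists_divisor (K := K) g hg
  let cls : Divisor K F → Pic0 K F := fun E =>
    if h : Divisor.degree (E - B.inf (B.d : ℤ)) = 0 then
      Pic0.mk ⟨E - B.inf (B.d : ℤ), Divisor.mem_degZero.mpr h⟩ else 0
  refine ((Finset.Icc (0 : Divisor K F) (Dg + B.inf (2 * B.d : ℕ))).image cls).finite_toSet.subset
    ?_
  rintro _ ⟨x, rfl, lam, hlam, hx⟩
  have hA : B.psi x A₀ ≠ 0 := by
    rw [hx]
    refine mul_ne_zero hlam fun h => hA₀ ?_
    rw [hx₀, h, mul_zero]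
  obtain ⟨c, hc⟩ := B.exists_chart_of_psi hA
  have hcA : ∀ {y : Z0 K F} (c' : B.Chart B.d (B.dv B.d y)), (∀ l, c'.A l = A₀ l) →
      (fun l => (⟨c'.A l, c'.A_mem l⟩ : B.pool)) = A₀ :=
    fun c' h => funext fun l => Subtype.ext (h l)
  have heq : c.u i * c.v i = g := by
    rw [← sub_eq_zero]
    refine B.eq_zero_of_evAt_eq_zero (Submodule.sub_mem _ (c.mul_mem i i) (c₀.mul_mem i i))
      (le_refl B.pool) (by have := B.card_pool; omega) fun b hb => ?_
    have h1 := B.psi_update c i ⟨b, hb⟩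
    have h0 := B.psi_update c₀ i ⟨b, hb⟩
    rw [hcA c hc] at h1
    rw [hcA c₀ hc₀] at h0
    simp only at h1 h0
    rw [hx, hx] at h1
    rw [hx₀, hx₀] at h0
    have hψ : ψ₀ A₀ ≠ 0 := fun h => hA₀ (by rw [hx₀, h, mul_zero])
    have e := evL B.U (B.inf (2 * B.d : ℕ)) b |>.map_sub ⟨_, c.mul_mem i i⟩ ⟨_, c₀.mul_mem i i⟩
    simp only [evL_apply, B.inf_pool _ hb] at e
    refine e.trans (sub_eq_zero.mpr ?_)
    refine mul_right_cancel₀ hψ ?_
    have a1 : ψ₀ (Function.update A₀ i ⟨b, hb⟩) = evAt B.U 0 b (c.u i * c.v i) * ψ₀ A₀ :=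
      mul_left_cancel₀ hlam (by linear_combination h1)
    have a0 : ψ₀ (Function.update A₀ i ⟨b, hb⟩) = evAt B.U 0 b g * ψ₀ A₀ :=
      mul_left_cancel₀ hlam₀ (by linear_combination h0)
    exact a1.symm.trans a0
  obtain ⟨Du, hDu, hDu0⟩ := HasPrincipalDivisors.exists_divisor (K := K) (c.u i) (c.u_ne_zero i)
  refine Finset.mem_coe.mpr
    (Finset.mem_image.mpr ⟨Du + B.dv B.d x, Finset.mem_Icc.mpr ⟨?_, ?_⟩, ?_⟩)
  · intro P
    have := mem_riemannRochSpace.mp (c.u_mem i) P
    rw [mem_ordGE_of_ne_zero P (c.u_ne_zero i), ← hDu P] at this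
    simp only [Finsupp.coe_zero, Pi.zero_apply, Finsupp.add_apply]
    omega
  · intro P
    have hv0 : c.v i ≠ 0 := c.symm.u_ne_zero i
    have h2 := mem_riemannRochSpace.mp (c.v_mem i) P
    rw [mem_ordGE_of_ne_zero P hv0] at h2
    have h3 : P.ord g = P.ord (c.u i) + P.ord (c.v i) := by
      rw [← heq, P.ord_mul (c.u_ne_zero i) hv0]
    rw [← hDu P, ← hDg P] at h3
    simp only [Finsupp.add_apply]
    simp only [Base.dual, Finsupp.sub_apply] at h2
    omega
  · have hdeg : Divisor.degree (Du + B.dv B.d x - B.inf (B.d : ℤ)) = 0 := by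
      rw [map_sub, map_add, hDu0, B.degree_dv, degree_inf]; ring
    simp only [cls, dif_pos hdeg]
    refine (QuotientAddGroup.eq_iff_sub_mem).mpr ?_
    show ((Du + B.dv B.d x - B.inf (B.d : ℤ)) - (x : Divisor K F))
      ∈ Divisor.principal (K := K) (F := F)
    refine ⟨c.u i, c.u_ne_zero i, fun P => ?_⟩
    rw [← hDu P]
    simp [Base.dv]
    ring

end Base

end Fermat.Agent.MW
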