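import Fermat.Agent.MordellWeil.Shift

/-!
# `T x + T (-x)` satisfies the parallelogram law, up to negligible families

Moving one place at a time (`negl_step`, `negl_moves`) shows that the second difference of
`Tz x` is biadditive up to negligible families, whence `negl_parallelogram` for `Fz`.
-/

set_option autoImplicit false

noncomputable section

open AlgebraicCurve

namespace Fermat.Agent.MW

open FF

variable {K F : Type*} [Field K] [Field F] [Algebra K F] [IsFunctionField K F] [IsAlgClosed K]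

/-- Divisors of degree zero. -/
abbrev Z0 (K F : Type*) [Field K] [Field F] [Algebra K F] : Type _ :=
  Divisor.degZero (K := K) (F := F)

/-- An effective divisor of degree `k` is a sum of `k` places. -/
theorem exists_sum_single (k : ℕ) (E : Divisor K F) (hE : 0 ≤ E) (hk : Divisor.degree E = k) :
    ∃ Ps : Fin k → Place K F, E = ∑ i, Finsupp.single (Ps i) 1 := by
  induction k generalizing E with
  | zero =>
    exact ⟨Fin.elim0, by simpa using (eq_of_le_of_degree_eq hE (by simpa using hk.symm)).symm⟩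
  | succ k ih =>
    obtain ⟨P, hP⟩ : ∃ P, E P ≠ 0 := by
      by_contra! hall
      rw [show E = 0 from Finsupp.ext hall, map_zero] at hk
      push_cast at hk
      omega
    have hle : Finsupp.single P 1 ≤ E := fun Q => by
      rcases eq_or_ne Q P with rfl | hQ
      · have h0 : 0 ≤ E Q := hE Q
        rw [Finsupp.single_eq_same]
        omega
      · rw [Finsupp.single_eq_of_ne hQ]
        exact hE Q
    obtain ⟨Ps, hPs⟩ := ih (E - Finsupp.single P 1) (sub_nonneg.mpr hle)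
      (by rw [map_sub, hk, degree_single_eq]; push_cast; ring)
    refine ⟨Fin.cons P Ps, ?_⟩
    rw [Fin.sum_univ_succ]
    simp only [Fin.cons_zero, Fin.cons_succ, ← hPs]
    abel

namespace Base

variable (B : Base K F)

/-- The divisor of degree `a` attached to a divisor of degree zero. -/
def dv (a : ℕ) (x : Z0 K F) : Divisor K F := (x : Divisor K F) + B.inf (a : ℤ)

theorem degree_dv (a : ℕ) (x : Z0 K F) : Divisor.degree (B.dv a x) = a := by
  rw [dv, map_add, degree_inf, Divisor.mem_degZero.mp x.2, zero_add]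

theorem dual_dv (a : ℕ) (x : Z0 K F) : B.dual a (B.dv a x) = B.dv a (-x) := by
  rw [dual, dv, dv, show ((2 * a : ℕ) : ℤ) = (a : ℤ) + a by push_cast; ring, B.inf_add,
    AddSubgroup.coe_neg]
  abel

/-- `P - O`. -/
def pt (P : Place K F) : Z0 K F :=
  ⟨Finsupp.single P 1 - Finsupp.single B.O 1, by
    rw [Divisor.mem_degZero, map_sub, degree_single_eq, degree_single_eq, sub_self]⟩

/-- `log G(x) (P) - log G(x) (O)`. -/
def mu (a : ℕ) (x : Z0 K F) (P : Place K F) (w : AbsoluteValue K ℝ) : ℝ :=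
  Real.log (B.G a (B.dv a x) w P) - Real.log (B.G a (B.dv a x) w B.O)

/-- `log nu m (P) - log nu m (O)`. -/
def nn (m : ℕ) (P : Place K F) (w : AbsoluteValue K ℝ) : ℝ :=
  Real.log (B.nu w (m : ℤ) P) - Real.log (B.nu w (m : ℤ) B.O)

/-- The `mu` of divisors with sum a multiple of `O` add up to `nn`. -/
theorem negl_sum_mu {n : ℕ} (hn : 0 < n) (hn4 : n ≤ 4) (a : Fin n → ℕ) (ha : ∀ j, B.Lev (a j)) :
    (fun (q : {x : Fin n → Z0 K F // ∑ j, x j = 0} × Place K F) w =>
      ∑ j, B.mu (a j) (q.1.1 j) q.2 w - B.nn (∑ j, a j) q.2 w) ∈ negl K _ := by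
  obtain ⟨C, hC, h⟩ := B.exists_bd_prod_G hn hn4 a ha
  have hb := B.bound_le
  let j₀ : Fin n := ⟨0, hn⟩
  have hm : (B.d : ℤ) ≤ ((∑ j, a j : ℕ) : ℤ) := by
    exact_mod_cast (ha j₀).le.trans (Finset.single_le_sum (f := a) (fun i _ => Nat.zero_le _)
      (Finset.mem_univ j₀))
  have hbase : (fun (q : {x : Fin n → Z0 K F // ∑ j, x j = 0} × Place K F) w =>
      Real.log (∏ j, B.G (a j) (B.dv (a j) (q.1.1 j)) w q.2)
        - Real.log (B.nu w ((∑ j, a j : ℕ) : ℤ) q.2)) ∈ negl K _ := by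
    have hsum : ∀ q : {x : Fin n → Z0 K F // ∑ j, x j = 0},
        ∑ j, B.dv (a j) (q.1 j) = B.inf ((∑ j, a j : ℕ) : ℤ) := by
      intro q
      simp only [dv, Finset.sum_add_distrib]
      rw [← AddSubgroup.val_finsetSum, q.2, AddSubgroup.coe_zero, zero_add]
      simp only [inf]
      rw [← Finsupp.single_finsetSum, Nat.cast_sum]
    refine negl_log_sub_log hC (fun q w => Finset.prod_pos fun j _ => B.G_pos _ _ _ _)
      (fun q w => B.nu_pos w (by omega) _) (fun q w => ?_) (fun q w => ?_)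
    · exact (h w _ (fun j => B.degree_dv (a j) (q.1.1 j)) (hsum q.1) q.2).1
    · exact (h w _ (fun j => B.degree_dv (a j) (q.1.1 j)) (hsum q.1) q.2).2
  refine negl_congr (sub_mem hbase (negl_comp hbase fun q => (q.1, B.O))) fun q w => ?_
  simp only [Pi.sub_apply, mu, nn, Finset.sum_sub_distrib]
  rw [Real.log_prod fun j _ => (B.G_pos _ _ _ _).ne',
    Real.log_prod fun j _ => (B.G_pos _ _ _ _).ne']
  ring

theorem negl_mu_two {a : ℕ} (ha : B.Lev a) :
    (fun (q : Z0 K F × Place K F) w =>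
      B.mu a q.1 q.2 w + B.mu a (-q.1) q.2 w - B.nn (a + a) q.2 w) ∈ negl K _ := by
  refine negl_congr (negl_comp (B.negl_sum_mu two_pos (by norm_num) ![a, a]
    (fun j => by fin_cases j <;> exact ha))
    fun q : Z0 K F × Place K F => (⟨![q.1, -q.1], by simp [Fin.sum_univ_two]⟩, q.2)) fun q w => ?_
  simp [Fin.sum_univ_two]

theorem negl_mu_three {a b : ℕ} (ha : B.Lev a) (hb : B.Lev b) :
    (fun (q : Z0 K F × Z0 K F × Place K F) w =>
      B.mu a q.1 q.2.2 w + B.mu b q.2.1 q.2.2 w + B.mu b (-(q.1 + q.2.1)) q.2.2 w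
        - B.nn (a + b + b) q.2.2 w) ∈ negl K _ := by
  refine negl_congr (negl_comp (B.negl_sum_mu (n := 3) (by norm_num) (by norm_num) ![a, b, b]
    (fun j => by fin_cases j <;> [exact ha; exact hb; exact hb]))
    fun q : Z0 K F × Z0 K F × Place K F =>
      (⟨![q.1, q.2.1, -(q.1 + q.2.1)], by simp [Fin.sum_univ_three]⟩, q.2.2)) fun q w => ?_
  simp [Fin.sum_univ_three]

/-- The defect of additivity. -/
def lam (P : Place K F) (w : AbsoluteValue K ℝ) : ℝ :=
  B.nn (B.d + B.d) P w - B.nn (B.d + B.d + B.d) P w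

theorem negl_mu_add :
    (fun (q : Z0 K F × Z0 K F × Place K F) w =>
      B.mu B.d (q.1 + q.2.1) q.2.2 w - B.mu B.d q.1 q.2.2 w - B.mu B.d q.2.1 q.2.2 w
        - B.lam q.2.2 w) ∈ negl K _ := by
  refine negl_congr (sub_mem (negl_comp (B.negl_mu_two B.lev_d)
    fun q : Z0 K F × Z0 K F × Place K F => (q.1 + q.2.1, q.2.2))
    (B.negl_mu_three B.lev_d B.lev_d)) fun q w => ?_
  simp only [Pi.sub_apply, lam]
  ring

theorem negl_mu_zero :
    (fun (P : Place K F) w => B.mu B.d 0 P w + B.lam P w) ∈ negl K _ := by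
  refine negl_congr (neg_mem (negl_comp B.negl_mu_add
    fun P : Place K F => ((0 : Z0 K F), (0 : Z0 K F), P))) fun P w => ?_
  simp only [Pi.neg_apply, add_zero]
  ring

theorem negl_mu_succ :
    (fun (q : Z0 K F × Place K F) w =>
      B.mu (B.d + 1) q.1 q.2 w - B.mu B.d q.1 q.2 w + B.nn (B.d + B.d) q.2 w
        - B.nn (B.d + 1 + B.d + B.d) q.2 w + B.mu B.d 0 q.2 w) ∈ negl K _ := by
  refine negl_congr (sub_mem (negl_comp (B.negl_mu_three B.lev_succ B.lev_d)
    fun q : Z0 K F × Place K F => (q.1, -q.1, q.2)) (B.negl_mu_two B.lev_d)) fun q w => ?_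
  simp only [Pi.sub_apply, add_neg_cancel, neg_zero]
  ring

/-- The scale of the class of `x`. -/
def Tz (x : Z0 K F) (w : AbsoluteValue K ℝ) : ℝ := B.T B.d (B.dv B.d x) w

/-- Moving one place changes `Tz` by `mu` and a term depending only on the place. -/
theorem negl_step : ∃ c : Place K F → AbsoluteValue K ℝ → ℝ,
    (fun (q : Z0 K F × Place K F) w =>
      B.Tz (q.1 + B.pt q.2) w - B.Tz q.1 w + B.mu B.d q.1 q.2 w - c q.2 w) ∈ negl K _ := by
  refine ⟨fun P w => -((B.rk B.d : ℝ) * (Real.log (B.gm w B.O) - Real.log (B.gm w P)))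
    - B.mu B.d (B.pt P) P w - B.lam P w + B.nn (B.d + B.d) P w
    - B.nn (B.d + 1 + B.d + B.d) P w + B.mu B.d 0 P w, ?_⟩
  let D1 : Z0 K F × Place K F → {D : Divisor K F // Divisor.degree D = (B.d + 1 : ℕ)} := fun q =>
    ⟨B.dv (B.d + 1) (q.1 + B.pt q.2), B.degree_dv _ _⟩
  have e1 : ∀ (x : Z0 K F) (P : Place K F),
      B.dv (B.d + 1) (x + B.pt P) - Finsupp.single P 1 = B.dv B.d x := by
    intro x P
    simp only [dv, pt, inf, AddSubgroup.coe_add, Nat.cast_add, Nat.cast_one, Finsupp.single_add]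
    abel
  have e2 : ∀ (x : Z0 K F) (P : Place K F),
      B.dv (B.d + 1) (x + B.pt P) - Finsupp.single B.O 1 = B.dv B.d (x + B.pt P) := by
    intro x P
    simp only [dv, pt, inf, AddSubgroup.coe_add, Nat.cast_add, Nat.cast_one, Finsupp.single_add]
    abel
  have hA := sub_mem (negl_comp B.negl_shift fun q => ((D1 q, B.O) : B.ShiftIdx))
    (negl_comp B.negl_shift fun q => ((D1 q, q.2) : B.ShiftIdx))
  refine negl_congr (sub_mem (sub_mem hA
    (negl_comp B.negl_mu_succ fun q : Z0 K F × Place K F => (q.1 + B.pt q.2, q.2)))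
    (negl_comp B.negl_mu_add fun q : Z0 K F × Place K F => (q.1, B.pt q.2, q.2))) fun q w => ?_
  simp only [Pi.sub_apply, D1, e1, e2, Tz]
  rw [show B.mu (B.d + 1) (q.1 + B.pt q.2) q.2 w
    = Real.log (B.G (B.d + 1) (B.dv (B.d + 1) (q.1 + B.pt q.2)) w q.2)
      - Real.log (B.G (B.d + 1) (B.dv (B.d + 1) (q.1 + B.pt q.2)) w B.O) from rfl]
  ring

/-- Moving `k` places, by induction from `negl_step`. -/
theorem negl_moves (k : ℕ) : ∃ c : (Fin k → Place K F) → AbsoluteValue K ℝ → ℝ,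
    (fun (q : Z0 K F × (Fin k → Place K F)) w =>
      B.Tz (q.1 + ∑ i, B.pt (q.2 i)) w - B.Tz q.1 w + ∑ i, B.mu B.d q.1 (q.2 i) w - c q.2 w)
      ∈ negl K _ := by
  induction k with
  | zero =>
    refine ⟨fun _ _ => 0, negl_congr (zero_mem _) fun q w => ?_⟩
    simp
  | succ k ih =>
    obtain ⟨c, hc⟩ := ih
    obtain ⟨cs, hcs⟩ := B.negl_step
    refine ⟨fun Ps w => c (Fin.init Ps) w + cs (Ps (Fin.last k)) w
      - B.mu B.d (∑ i, B.pt (Fin.init Ps i)) (Ps (Fin.last k)) w - B.lam (Ps (Fin.last k)) w, ?_⟩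
    refine negl_congr (sub_mem (add_mem
      (negl_comp hcs fun q : Z0 K F × (Fin (k + 1) → Place K F) =>
        (q.1 + ∑ i, B.pt (Fin.init q.2 i), q.2 (Fin.last k)))
      (negl_comp hc fun q : Z0 K F × (Fin (k + 1) → Place K F) => (q.1, Fin.init q.2)))
      (negl_comp B.negl_mu_add fun q : Z0 K F × (Fin (k + 1) → Place K F) =>
        (q.1, ∑ i, B.pt (Fin.init q.2 i), q.2 (Fin.last k)))) fun q w => ?_
    simp only [Pi.sub_apply, Pi.add_apply, Fin.sum_univ_castSucc, Fin.init, ← add_assoc]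
    ring

/-- Pairs of linearly equivalent divisors of degree zero. -/
abbrev EquZ (K F : Type*) [Field K] [Field F] [Algebra K F] : Type _ :=
  {q : Z0 K F × Z0 K F //
    ((q.2 : Divisor K F) - (q.1 : Divisor K F)) ∈ Divisor.principal (K := K) (F := F)}

/-- `Tz` is invariant under linear equivalence. -/
theorem negl_Tz_equiv :
    (fun (q : EquZ K F) w => B.Tz q.1.2 w - B.Tz q.1.1 w) ∈ negl K _ := by
  refine negl_congr (negl_comp (B.negl_T_equiv B.lev_d) fun q : EquZ K F =>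
    (⟨(B.dv B.d q.1.1, B.dv B.d q.1.2), B.degree_dv _ _, B.degree_dv _ _, ?_⟩ : Equ B.d))
    fun q w => rfl
  obtain ⟨f, hf, hfd⟩ := q.2
  refine ⟨f⁻¹, inv_ne_zero hf, fun P => ?_⟩
  have := hfd P
  rw [Finsupp.sub_apply] at this
  simp only [dv, Finsupp.add_apply, P.ord_inv]
  omega

/-- The number of points needed to represent a class. -/
def npt (_B : Base K F) : ℕ := (rGenus K F).toNat

theorem exists_pts (z : Z0 K F) : ∃ Ps : Fin B.npt → Place K F,
    ((z : Divisor K F) - ((∑ i, B.pt (Ps i) : Z0 K F) : Divisor K F))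
      ∈ Divisor.principal (K := K) (F := F) := by
  have hg := rGenus_nonneg (K := K) (F := F)
  have hk : (B.npt : ℤ) = rGenus K F := Int.toNat_of_nonneg hg
  have hdeg : Divisor.degree ((z : Divisor K F) + B.inf (B.npt : ℤ)) = B.npt := B.degree_dv _ z
  have hl := ell_ge ((z : Divisor K F) + B.inf (B.npt : ℤ))
  rw [hdeg, hk] at hl
  obtain ⟨f, hf, hf0⟩ : ∃ f ∈ riemannRochSpace ((z : Divisor K F) + B.inf (B.npt : ℤ)), f ≠ 0 := by
    refine Submodule.exists_mem_ne_zero_of_ne_bot fun h => ?_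
    have h0 : ell ((z : Divisor K F) + B.inf (B.npt : ℤ)) = 0 := by rw [ell, h, finrank_bot]
    rw [hk] at h0
    omega
  obtain ⟨Df, hDf, hDf0⟩ := HasPrincipalDivisors.exists_divisor (K := K) f hf0
  have hE : 0 ≤ Df + ((z : Divisor K F) + B.inf (B.npt : ℤ)) := fun P => by
    have := mem_riemannRochSpace.mp hf P
    rw [mem_ordGE_of_ne_zero P hf0, ← hDf P] at this
    simp only [Finsupp.coe_zero, Pi.zero_apply, Finsupp.add_apply] at this ⊢
    omega
  obtain ⟨Ps, hPs⟩ := exists_sum_single B.npt _ hE (by rw [map_add, hdeg, hDf0, zero_add])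
  refine ⟨Ps, f⁻¹, inv_ne_zero hf0, fun P => ?_⟩
  have h := congrArg (fun E : Divisor K F => E P) hPs
  simp only [AddSubgroup.val_finsetSum, pt, Finset.sum_sub_distrib, Finset.sum_const,
    Finset.card_univ, Fintype.card_fin, P.ord_inv, ← hDf P, Finsupp.add_apply,
    Finsupp.sub_apply, inf, Finsupp.smul_apply, nsmul_eq_mul] at h ⊢
  rw [← h]
  rcases eq_or_ne P B.O with rfl | hP
  · simp; ring
  · simp [Finsupp.single_eq_of_ne hP]

/-- The chosen points of a class. -/
def pts (z : Z0 K F) : Fin B.npt → Place K F := (B.exists_pts z).choose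

/-- The second difference of `Tz`. -/
def Del (x y : Z0 K F) (w : AbsoluteValue K ℝ) : ℝ :=
  B.Tz (x + y) w - B.Tz x w - B.Tz y w + B.Tz 0 w

theorem negl_Del :
    (fun (q : Z0 K F × Z0 K F) w => B.Del q.1 q.2 w
      + ∑ i, (B.mu B.d q.1 (B.pts q.2 i) w - B.mu B.d 0 (B.pts q.2 i) w)) ∈ negl K _ := by
  obtain ⟨c, hc⟩ := B.negl_moves B.npt
  have hz : ∀ x z : Z0 K F, ((x + z : Z0 K F) : Divisor K F)
      - ((x + ∑ i, B.pt (B.pts z i) : Z0 K F) : Divisor K F)
      ∈ Divisor.principal (K := K) (F := F) := fun x z => by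
    rw [AddSubgroup.coe_add, AddSubgroup.coe_add, add_sub_add_left_eq_sub]
    exact (B.exists_pts z).choose_spec
  let e1 : Z0 K F × Z0 K F → EquZ K F := fun q =>
    ⟨(q.1 + ∑ i, B.pt (B.pts q.2 i), q.1 + q.2), hz q.1 q.2⟩
  let e0 : Z0 K F × Z0 K F → EquZ K F := fun q =>
    ⟨(0 + ∑ i, B.pt (B.pts q.2 i), 0 + q.2), hz 0 q.2⟩
  refine negl_congr (sub_mem (add_mem (negl_comp B.negl_Tz_equiv e1)
      (negl_comp hc fun q : Z0 K F × Z0 K F => (q.1, B.pts q.2)))
    (add_mem (negl_comp B.negl_Tz_equiv e0)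
      (negl_comp hc fun q : Z0 K F × Z0 K F => ((0 : Z0 K F), B.pts q.2)))) fun q w => ?_
  simp only [Pi.sub_apply, Pi.add_apply, Del, e1, e0, Finset.sum_sub_distrib, zero_add]
  ring

/-- The second difference is additive. -/
theorem negl_Del_add :
    (fun (q : Z0 K F × Z0 K F × Z0 K F) w =>
      B.Del (q.1 + q.2.1) q.2.2 w - B.Del q.1 q.2.2 w - B.Del q.2.1 q.2.2 w) ∈ negl K _ := by
  have h1 : (fun (q : Z0 K F × Z0 K F × Z0 K F) w =>
      ∑ i, (B.mu B.d (q.1 + q.2.1) (B.pts q.2.2 i) w - B.mu B.d q.1 (B.pts q.2.2 i) w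
        - B.mu B.d q.2.1 (B.pts q.2.2 i) w + B.mu B.d 0 (B.pts q.2.2 i) w)) ∈ negl K _ := by
    have := sum_mem (t := (Finset.univ : Finset (Fin B.npt))) fun i (_ : i ∈ Finset.univ) => add_mem
      (negl_comp B.negl_mu_add fun q : Z0 K F × Z0 K F × Z0 K F => (q.1, q.2.1, B.pts q.2.2 i))
      (negl_comp B.negl_mu_zero fun q : Z0 K F × Z0 K F × Z0 K F => B.pts q.2.2 i)
    refine negl_congr this fun q w => ?_
    simp only [Finset.sum_apply, Pi.add_apply]
    exact Finset.sum_congr rfl fun i _ => by ring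
  refine negl_congr (sub_mem (sub_mem (sub_mem
    (negl_comp B.negl_Del fun q : Z0 K F × Z0 K F × Z0 K F => (q.1 + q.2.1, q.2.2))
    (negl_comp B.negl_Del fun q : Z0 K F × Z0 K F × Z0 K F => (q.1, q.2.2)))
    (negl_comp B.negl_Del fun q : Z0 K F × Z0 K F × Z0 K F => (q.2.1, q.2.2))) h1) fun q w => ?_
  simp only [Pi.sub_apply, Finset.sum_sub_distrib, Finset.sum_add_distrib]
  ring

/-- The symmetrised scale. -/
def Fz (x : Z0 K F) (w : AbsoluteValue K ℝ) : ℝ := B.Tz x w + B.Tz (-x) w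

/-- **The parallelogram law.** -/
theorem negl_parallelogram :
    (fun (q : Z0 K F × Z0 K F) w => B.Fz (q.1 + q.2) w + B.Fz (q.1 - q.2) w + 2 * B.Fz 0 w
      - 2 * B.Fz q.1 w - 2 * B.Fz q.2 w) ∈ negl K _ := by
  refine negl_congr (neg_mem (add_mem
    (negl_comp B.negl_Del_add fun q : Z0 K F × Z0 K F => (q.1, -q.1, q.2))
    (negl_comp B.negl_Del_add fun q : Z0 K F × Z0 K F => (q.1, -q.1, -q.2)))) fun q w => ?_
  simp only [Pi.neg_apply, Pi.add_apply, Del, Fz, add_neg_cancel, zero_add, sub_eq_add_neg,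
    neg_add_rev, neg_zero, neg_neg]
  rw [add_comm (-q.2) (-q.1), add_comm q.2 (-q.1)]
  ring

/-- `Fz` is invariant under linear equivalence. -/
theorem negl_Fz_equiv :
    (fun (q : EquZ K F) w => B.Fz q.1.2 w - B.Fz q.1.1 w) ∈ negl K _ := by
  let e : EquZ K F → EquZ K F := fun q => ⟨(-q.1.1, -q.1.2), by
    rw [AddSubgroup.coe_neg, AddSubgroup.coe_neg,
      show -(q.1.2 : Divisor K F) - -(q.1.1 : Divisor K F)
        = -((q.1.2 : Divisor K F) - (q.1.1 : Divisor K F)) by abel]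
    exact neg_mem q.2⟩
  refine negl_congr (add_mem B.negl_Tz_equiv (negl_comp B.negl_Tz_equiv e)) fun q w => ?_
  simp only [Pi.add_apply, Fz, e]
  ring

end Base

end Fermat.Agent.MW
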