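import Fermat.Agent.MordellWeil.Det
import Mathlib.LinearAlgebra.Matrix.Determinant.Basic

/-!
# The scale `T` under `D ↦ D - P` and under linear equivalence

`theta_ext` expands the determinant of `D` along the place `P`; comparing it with the one of
`D - P` gives `negl_shift`, and comparing linearly equivalent divisors gives `negl_T_equiv`.
-/

set_option autoImplicit false

noncomputable section

open AlgebraicCurve Matrix

namespace Fermat.Agent.MW

open FF

variable {K F : Type*} [Field K] [Field F] [Algebra K F] [IsFunctionField K F] [IsAlgClosed K]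

namespace Base

variable (B : Base K F)

theorem rk_succ : B.rk (B.d + 1) = B.rk B.d + 1 := by
  have h1 := B.cast_rk (a := B.d) le_rfl
  have h2 := B.cast_rk (a := B.d + 1) (Nat.le_succ _)
  omega

/-- `(d-1)·O + P`. -/
def zed (P : Place K F) : Divisor K F := B.inf ((B.d : ℤ) - 1) + Finsupp.single P 1

theorem degree_zed (P : Place K F) : Divisor.degree (B.zed P) = B.d := by
  rw [zed, map_add, degree_inf, degree_single_eq]; ring

/-- `∞`-norm of the functions of the dual chart of `zed P`. -/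
def gm (w : AbsoluteValue K ℝ) (P : Place K F) : ℝ :=
  ⨆ k, B.poolNorm w ((B.chartAt B.lev_d (B.degree_zed P) w).v k)

theorem zed_dual_le (P : Place K F) : B.dual B.d (B.zed P) ≤ B.inf ((B.d + 1 : ℕ) : ℤ) := by
  have : B.dual B.d (B.zed P) = B.inf ((B.d + 1 : ℕ) : ℤ) - Finsupp.single P 1 := by
    rw [dual, zed, show ((2 * B.d : ℕ) : ℤ) = ((B.d + 1 : ℕ) : ℤ) + ((B.d : ℤ) - 1) by
      push_cast; ring, B.inf_add]
    abel
  rw [this]
  exact sub_le_self _ (Finsupp.single_nonneg.mpr zero_le_one)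

theorem gm_pos (w : AbsoluteValue K ℝ) (P : Place K F) : 0 < B.gm w P := by
  set c := B.chartAt B.lev_d (B.degree_zed P) w
  have hm : B.d + 1 < B.pool.card := by have := B.card_pool; omega
  let k : Fin (B.rk B.d) := ⟨0, B.rk_pos le_rfl⟩
  exact lt_of_lt_of_le
    (B.poolNorm_pos w hm (riemannRochSpace_mono (B.zed_dual_le P) (c.v_mem k)) (c.symm.u_ne_zero k))
    (Finite.le_ciSup (fun k => B.poolNorm w (c.v k)) k)

/-- The gauges of `D - P` and of `D` are proportional, away from few places. -/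
theorem exists_bd_G_ratio :
    ∃ C, IsBd C ∧ ∀ (w : AbsoluteValue K ℝ) (D : Divisor K F),
      Divisor.degree D = (B.d + 1 : ℕ) → ∀ P : Place K F,
        (∀ b ∈ B.pool, b ≠ P →
          B.G B.d (D - Finsupp.single P 1) w b ≤ C w * (B.gm w P * B.G (B.d + 1) D w b)) ∧
        ∃ bad : Finset (Place K F), bad.card ≤ B.d + 2 ∧ P ∈ bad ∧
          ∀ b ∈ B.pool, b ∉ bad →
            B.gm w P * B.G (B.d + 1) D w b ≤ C w * B.G B.d (D - Finsupp.single P 1) w b := by
  classical
  have hb := B.bound_le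
  obtain ⟨C₃, hC₃, h₃⟩ := B.exists_bd_prod_G (n := 3) (by norm_num) (by norm_num)
    ![B.d, B.d + 1, B.d] (fun j => by
      fin_cases j <;> [exact B.lev_d; exact B.lev_succ; exact B.lev_d])
  obtain ⟨Cp, hCp, hp⟩ := B.exists_bd_nu_pool (m := B.d + (B.d + 1) + B.d) (by push_cast; omega)
  obtain ⟨C₂, hC₂, h₂⟩ := B.exists_bd_G_dual_pool B.lev_succ
  obtain ⟨C₁, hC₁, h₁⟩ := B.exists_bd_one_le_W_mul le_rfl B.lev_d.card B.isBd_cb
  obtain ⟨Cs, hCs, hs⟩ := B.exists_bd_smallSet (B.d + 1)
  let C' := fun w => Cp w * C₃ w * C₂ w * C₁ w * B.cb w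
  have hC' : IsBd C' := (((hCp.mul hC₃).mul hC₂).mul hC₁).mul B.isBd_cb
  refine ⟨fun w => C' w * Cs w, hC'.mul hCs, fun w D hD P => ?_⟩
  set c := B.chartAt B.lev_d (B.degree_zed P) w
  have hc := (B.adapted_chartAt B.lev_d (B.degree_zed P) w).1
  have hDP : Divisor.degree (D - Finsupp.single P 1) = (B.d : ℕ) := by
    rw [map_sub, hD, degree_single_eq]; push_cast; ring
  have hsum : (D - Finsupp.single P 1) + B.dual (B.d + 1) D + B.zed P
      = B.inf ((B.d + (B.d + 1) + B.d : ℕ) : ℤ) := by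
    rw [dual, zed, show ((B.d + (B.d + 1) + B.d : ℕ) : ℤ)
      = ((2 * (B.d + 1) : ℕ) : ℤ) + ((B.d : ℤ) - 1) by push_cast; ring, B.inf_add]
    abel
  have key : ∀ b ∈ B.pool,
      B.G B.d (D - Finsupp.single P 1) w b ≤ C' w * (B.G (B.d + 1) D w b * c.symm.W w b) ∧
      B.G (B.d + 1) D w b * c.symm.W w b ≤ C' w * B.G B.d (D - Finsupp.single P 1) w b := by
    intro b hbp
    have e3 := h₃ w ![D - Finsupp.single P 1, B.dual (B.d + 1) D, B.zed P]
      (fun j => by fin_cases j <;> [exact hDP; exact B.degree_dual hD; exact B.degree_zed P])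
      (by simpa [Fin.sum_univ_three] using hsum) b
    simp only [Fin.sum_univ_three, Fin.prod_univ_three, Matrix.cons_val_zero, Matrix.cons_val_one,
      Matrix.cons_val_two, Matrix.head_cons, Matrix.tail_cons] at e3
    have eG : B.G B.d (B.zed P) w b = c.W w b := B.G_eq B.lev_d (B.degree_zed P) w b
    rw [eG] at e3
    obtain ⟨e2, e2'⟩ := h₂ w D hD b hbp
    obtain ⟨ep, ep'⟩ := hp w b hbp
    have e1 := c.W_mul_W_le hc hbp
    have e1' := h₁ w _ c hc b hbp
    set x := B.G B.d (D - Finsupp.single P 1) w b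
    set y := B.G (B.d + 1) D w b
    set y' := B.G (B.d + 1) (B.dual (B.d + 1) D) w b
    set z := c.W w b
    set z' := c.symm.W w b
    have hx : 0 < x := B.G_pos _ _ _ _
    have hy : 0 < y := B.G_pos _ _ _ _
    have hy' : 0 < y' := B.G_pos _ _ _ _
    have hz : 0 < z := c.W_pos w b
    have hz' : 0 < z' := c.symm.W_pos w b
    have t1 : x * y' * z ≤ C₃ w * Cp w := e3.1.trans (mul_le_mul_of_nonneg_left ep' (hC₃.nonneg w))
    have t2 : 1 ≤ Cp w * (C₃ w * (x * y' * z)) :=
      ep.trans (mul_le_mul_of_nonneg_left e3.2 (hCp.nonneg w))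
    constructor
    · calc x = x * 1 * 1 := by ring
        _ ≤ x * (C₂ w * (y * y')) * (C₁ w * (z * z')) := by
            refine mul_le_mul (mul_le_mul_of_nonneg_left e2' hx.le) e1' zero_le_one ?_
            exact mul_nonneg hx.le (mul_nonneg (hC₂.nonneg w) (mul_pos hy hy').le)
        _ = C₂ w * C₁ w * (y * z') * (x * y' * z) := by ring
        _ ≤ C₂ w * C₁ w * (y * z') * (C₃ w * Cp w) := mul_le_mul_of_nonneg_left t1
            (mul_nonneg (mul_nonneg (hC₂.nonneg w) (hC₁.nonneg w)) (mul_pos hy hz').le)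
        _ ≤ C₂ w * C₁ w * (y * z') * (C₃ w * Cp w) * B.cb w := le_mul_of_one_le_right
            (mul_nonneg (mul_nonneg (mul_nonneg (hC₂.nonneg w) (hC₁.nonneg w)) (mul_pos hy hz').le)
              ((hC₃.mul hCp).nonneg w)) (B.isBd_cb.one_le w)
        _ = _ := by simp only [C']; ring
    · calc y * z' ≤ y * z' * (Cp w * (C₃ w * (x * y' * z))) :=
            le_mul_of_one_le_right (mul_pos hy hz').le t2
        _ = Cp w * C₃ w * x * ((y * y') * (z * z')) := by ring
        _ ≤ Cp w * C₃ w * x * (C₂ w * B.cb w) := mul_le_mul_of_nonneg_left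
            (mul_le_mul e2 e1 (mul_pos hz hz').le (hC₂.nonneg w))
            (mul_nonneg ((hCp.mul hC₃).nonneg w) hx.le)
        _ ≤ Cp w * C₃ w * x * (C₂ w * B.cb w) * C₁ w := le_mul_of_one_le_right
            (mul_nonneg (mul_nonneg ((hCp.mul hC₃).nonneg w) hx.le)
              ((hC₂.mul B.isBd_cb).nonneg w)) (hC₁.one_le w)
        _ = _ := by simp only [C']; ring
  have hval : ∀ b ∈ B.pool, b ≠ P → B.dual B.d (B.zed P) b = 0 := fun b hbp hne => by
    rw [dual, zed, Finsupp.sub_apply, Finsupp.add_apply, B.inf_pool _ hbp, B.inf_pool _ hbp,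
      Finsupp.single_eq_of_ne hne]
    simp
  refine ⟨fun b hbp hne => ?_, ?_⟩
  · have hW : c.symm.W w b ≤ B.gm w P := by
      obtain ⟨k, hk⟩ := c.symm.exists_W_eq w b
      rw [hk, hval b hbp hne]
      exact (B.le_poolNorm w _ hbp).trans (Finite.le_ciSup (fun k => B.poolNorm w (c.v k)) k)
    calc _ ≤ C' w * (B.G (B.d + 1) D w b * c.symm.W w b) := (key b hbp).1
      _ ≤ C' w * (B.G (B.d + 1) D w b * B.gm w P) := mul_le_mul_of_nonneg_left
          (mul_le_mul_of_nonneg_left hW (B.G_pos _ _ _ _).le) (hC'.nonneg w)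
      _ = C' w * (B.gm w P * B.G (B.d + 1) D w b) := by ring
      _ ≤ C' w * Cs w * (B.gm w P * B.G (B.d + 1) D w b) := mul_le_mul_of_nonneg_right
          (le_mul_of_one_le_right (hC'.nonneg w) (hCs.one_le w))
          (mul_nonneg (B.gm_pos w P).le (B.G_pos _ _ _ _).le)
  · have : Nonempty (Fin (B.rk B.d)) := ⟨⟨0, B.rk_pos le_rfl⟩⟩
    obtain ⟨k, hk⟩ := exists_eq_ciSup_of_finite (f := fun k => B.poolNorm w (c.v k))
    change B.poolNorm w (c.v k) = B.gm w P at hk
    refine ⟨insert P (B.smallSet w (c.v k) (Cs w)), ?_, Finset.mem_insert_self _ _,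
      fun b hbp hbn => ?_⟩
    · exact (Finset.card_insert_le _ _).trans (Nat.succ_le_succ
        (hs w _ (riemannRochSpace_mono (B.zed_dual_le P) (c.v_mem k))))
    rw [Finset.mem_insert, not_or] at hbn
    have hg : B.gm w P ≤ Cs w * c.symm.W w b := by
      rw [← hk]
      refine (B.le_of_notMem_smallSet hbp hbn.2).trans (mul_le_mul_of_nonneg_left ?_ (hCs.nonneg w))
      have := c.symm.le_W w b k
      rwa [hval b hbp hbn.1] at this
    calc B.gm w P * B.G (B.d + 1) D w b ≤ Cs w * c.symm.W w b * B.G (B.d + 1) D w b :=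
          mul_le_mul_of_nonneg_right hg (B.G_pos _ _ _ _).le
      _ = Cs w * (B.G (B.d + 1) D w b * c.symm.W w b) := by ring
      _ ≤ Cs w * (C' w * B.G B.d (D - Finsupp.single P 1) w b) :=
          mul_le_mul_of_nonneg_left (key b hbp).2 (hCs.nonneg w)
      _ = _ := by ring

/-- Prepend a place. -/
def ext (P : Place K F) (A : Fin (B.rk B.d) → Place K F) : Fin (B.rk (B.d + 1)) → Place K F :=
  fun i => (Fin.cons P A : Fin (B.rk B.d + 1) → Place K F) (Fin.cast B.rk_succ i)

open Classical in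
/-- Laplace expansion of `theta` along a place `P`. -/
theorem theta_ext {D : Divisor K F} (hD : Divisor.degree D = (B.d + 1 : ℕ)) (P : Place K F) :
    ∃ κ : K, κ ≠ 0 ∧ ∀ A : Fin (B.rk B.d) → Place K F,
      B.theta (B.d + 1) D (B.ext P A)
        = κ * B.theta B.d (D - Finsupp.single P 1) A * ∏ l, if A l = P then 0 else 1 := by
  have hb := B.bound_le
  have hDP : Divisor.degree (D - Finsupp.single P 1) = (B.d : ℕ) := by
    rw [map_sub, hD, degree_single_eq]; push_cast; ring
  set e := B.eBasis B.lev_succ hD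
  set e' := B.eBasis B.lev_d hDP
  obtain ⟨u0, hu0⟩ := exists_evL_ne_zero B.U D P (by rw [hD]; push_cast; omega)
  have hle : D - Finsupp.single P 1 ≤ D := sub_le_self _ (Finsupp.single_nonneg.mpr zero_le_one)
  let ι : riemannRochSpace (D - Finsupp.single P 1) →ₗ[K] riemannRochSpace D :=
    Submodule.inclusion (riemannRochSpace_mono hle)
  have hι : ∀ f, evL B.U D P (ι f) = 0 := fun f => (evL_eq_zero_iff B.U D P _).mpr f.2
  let v : Fin (B.rk B.d + 1) → riemannRochSpace D := Fin.cons u0 (ι ∘ e')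
  have hv : LinearIndependent K v := by
    refine LinearIndependent.finCons (e'.linearIndependent.map'
      ι (LinearMap.ker_eq_bot.mpr (Submodule.inclusion_injective _))) fun hmem => hu0 ?_
    have : Submodule.span K (Set.range (ι ∘ e')) ≤ LinearMap.ker (evL B.U D P) :=
      Submodule.span_le.mpr (by rintro _ ⟨i, rfl⟩; exact hι (e' i))
    exact this hmem
  have hcard : Fintype.card (Fin (B.rk B.d + 1)) = Module.finrank K (riemannRochSpace D) := by
    rw [Fintype.card_fin, ← B.rk_succ]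
    exact (B.ell_eq_rk (Nat.le_succ _) hD).symm
  let f := basisOfLinearIndependentOfCardEqFinrank hv hcard
  let e'' := e.reindex (finCongr B.rk_succ)
  refine ⟨(f.toMatrix e'').det * evL B.U D P u0,
    mul_ne_zero (det_toMatrix_ne_zero _ _) hu0, fun A => ?_⟩
  rw [B.theta_eq B.lev_succ hD, B.theta_eq B.lev_d hDP]
  have h1 : (B.evMat D e (B.ext P A)).det = (B.evMat D e'' (Fin.cons P A)).det := by
    rw [← Matrix.det_submatrix_equiv_self (finCongr B.rk_succ) (B.evMat D e'' (Fin.cons P A))]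
    congr 1
    ext i j
    show evL B.U D _ _ = evL B.U D _ (e'' _)
    rw [Module.Basis.reindex_apply]
    rfl
  have h2 : (B.evMat D f (Fin.cons P A)).det = evL B.U D P u0 *
      ((∏ l, if A l = P then (0 : K) else 1) *
        (B.evMat (D - Finsupp.single P 1) e' A).det) := by
    have hf : ∀ j, f j = v j := fun j => by
      rw [show f = basisOfLinearIndependentOfCardEqFinrank hv hcard from rfl,
        coe_basisOfLinearIndependentOfCardEqFinrank]
    rw [Matrix.det_succ_row_zero, Fin.sum_univ_succ]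
    have hz : ∀ j : Fin (B.rk B.d), B.evMat D f (Fin.cons P A) 0 j.succ = 0 := fun j => by
      show evL B.U D P (f j.succ) = 0
      rw [hf]; exact hι (e' j)
    rw [Finset.sum_eq_zero fun j _ => by rw [hz, mul_zero, zero_mul], add_zero]
    simp only [Fin.val_zero, pow_zero, one_mul]
    congr 1
    · show evL B.U D P (f 0) = _
      rw [hf]; rfl
    rw [← Matrix.det_mul_column]
    congr 1
    ext l j
    show evL B.U D (A l) (f ((0 : Fin (B.rk B.d + 1)).succAbove j)) = _
    rw [Fin.succAbove_zero, hf, Matrix.of_apply]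
    show evL B.U D (A l) (ι (e' j)) = _ * evL B.U (D - Finsupp.single P 1) (A l) (e' j)
    split_ifs with h
    · rw [h, hι, zero_mul]
    · rw [one_mul, evL_apply, evL_apply, Finsupp.sub_apply, Finsupp.single_eq_of_ne h,
        sub_zero]
      rfl
  rw [h1, B.det_evMat_basis D f, h2]
  ring

/-- The index type of the shift identity. -/
abbrev ShiftIdx : Type _ := {D : Divisor K F // Divisor.degree D = (B.d + 1 : ℕ)} × Place K F

/-- **The shift identity.** -/
theorem negl_shift :
    (fun (q : B.ShiftIdx) w => B.T B.d (q.1.1 - Finsupp.single q.2 1) w - B.T (B.d + 1) q.1.1 w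
      - Real.log (B.G (B.d + 1) q.1.1 w q.2) + (B.rk B.d : ℝ) * Real.log (B.gm w q.2))
      ∈ negl K B.ShiftIdx := by
  classical
  obtain ⟨Cr, hCr, hr⟩ := B.exists_bd_G_ratio
  obtain ⟨Cu, hCu, hu⟩ := B.exists_bd_theta_le B.lev_d
  obtain ⟨Cu', hCu', hu'⟩ := B.exists_bd_theta_le B.lev_succ
  obtain ⟨Cg, hCg, hg⟩ := B.exists_bd_theta_ge B.lev_succ
  obtain ⟨Ca, hCa, ha⟩ := B.exists_bd_theta_avoid B.lev_d
  set r := B.rk B.d
  refine ⟨fun w => Cu w * Cu' w * Cg w * Ca w * Cr w ^ r,
    (((hCu.mul hCu').mul hCg).mul hCa).mul (hCr.pow r), fun q => ?_⟩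
  obtain ⟨⟨D, hD⟩, P⟩ := q
  obtain ⟨κ, hκ, hext⟩ := B.theta_ext hD P
  refine ⟨κ, hκ, fun w => ?_⟩
  dsimp only
  have hDP : Divisor.degree (D - Finsupp.single P 1) = (B.d : ℕ) := by
    rw [map_sub, hD, degree_single_eq]; push_cast; ring
  set D' := D - Finsupp.single P 1
  set X := Real.exp (B.T B.d D' w) * B.gm w P ^ r * w κ
  set Y := Real.exp (B.T (B.d + 1) D w) * B.G (B.d + 1) D w P
  have hgm := B.gm_pos w P
  have hκ' := w.pos hκ
  have hX : 0 < X := mul_pos (mul_pos (Real.exp_pos _) (pow_pos hgm r)) hκ'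
  have hY : 0 < Y := mul_pos (Real.exp_pos _) (B.G_pos _ _ _ _)
  obtain ⟨hr1, bad, hbad, hPbad, hr2⟩ := hr w D hD P
  have hdE : ∀ A : Fin r → Place K F, ∏ l, B.G (B.d + 1) D w (B.ext P A l)
      = B.G (B.d + 1) D w P * ∏ l, B.G (B.d + 1) D w (A l) := by
    intro A
    rw [← Fintype.prod_equiv (finCongr B.rk_succ).symm
      (fun i => B.G (B.d + 1) D w ((Fin.cons P A : Fin (r + 1) → Place K F) i))
      (fun l => B.G (B.d + 1) D w (B.ext P A l)) (fun i => by simp [Base.ext, r])]
    rw [Fin.prod_univ_succ]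
    simp only [Fin.cons_zero, Fin.cons_succ]
    rfl
  -- first inequality
  have hle1 : Y ≤ Cu w * Cg w * Cr w ^ r * X := by
    obtain ⟨A, i₀, hi₀, hApool, hA⟩ := hg w D hD P
    let σ : Equiv.Perm (Fin (B.rk (B.d + 1))) := Equiv.swap ((finCongr B.rk_succ).symm 0) i₀
    let A' : Fin r → Place K F := fun l => A (σ ((finCongr B.rk_succ).symm l.succ))
    have hAσ : A ∘ σ = B.ext P A' := by
      funext i
      obtain ⟨j, rfl⟩ := (finCongr B.rk_succ).symm.surjective i
      show A (σ _) = (Fin.cons P A' : Fin (r + 1) → Place K F) _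
      rw [show Fin.cast B.rk_succ ((finCongr B.rk_succ).symm j) = j from rfl]
      refine Fin.cases ?_ (fun l => ?_) j
      · rw [Fin.cons_zero, Equiv.swap_apply_left, hi₀]
      · rw [Fin.cons_succ]
    have hAp : ∀ l, A' l ∈ B.pool := fun l => by
      refine hApool _ fun h => ?_
      have h' := congrArg σ h
      rw [show σ i₀ = (finCongr B.rk_succ).symm 0 from Equiv.swap_apply_right _ _] at h'
      rw [Equiv.swap_apply_self] at h'
      exact Fin.succ_ne_zero l ((finCongr B.rk_succ).symm.injective h')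
    have hthA : w (B.theta (B.d + 1) D A) = w (B.theta (B.d + 1) D (B.ext P A')) := by
      rw [← hAσ, B.theta_eq B.lev_succ hD, B.theta_eq B.lev_succ hD]
      exact (B.det_evMat_comp D _ A σ w).symm
    have hprod : ∏ l, B.G (B.d + 1) D w (A l)
        = B.G (B.d + 1) D w P * ∏ l, B.G (B.d + 1) D w (A' l) := by
      rw [← hdE, ← hAσ]
      exact (Equiv.prod_comp σ fun l => B.G (B.d + 1) D w (A l)).symm
    rw [hprod, hthA, hext, map_mul, map_mul] at hA
    have hne : ∀ l, A' l ≠ P := by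
      intro l hl
      rw [Finset.prod_eq_zero (f := fun l => if A' l = P then (0 : K) else 1) (Finset.mem_univ l)
        (if_pos hl), map_zero, mul_zero, mul_zero] at hA
      exact absurd hA (not_le.mpr (mul_pos (Real.exp_pos _) (mul_pos (B.G_pos _ _ _ _)
        (Finset.prod_pos fun j _ => B.G_pos _ _ _ _))))
    rw [Finset.prod_eq_one (s := (Finset.univ : Finset (Fin r))) (f := fun l => if A' l = P then
      (0 : K) else 1) (fun l _ => if_neg (hne l)), map_one, mul_one] at hA
    have hG : ∏ l, B.G B.d D' w (A' l)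
        ≤ Cr w ^ r * (B.gm w P ^ r * ∏ l, B.G (B.d + 1) D w (A' l)) := by
      refine (Finset.prod_le_prod (fun l _ => (B.G_pos _ _ _ _).le)
        fun l _ => hr1 _ (hAp l) (hne l)).trans_eq ?_
      rw [Finset.prod_mul_distrib, Finset.prod_mul_distrib, Finset.prod_const, Finset.prod_const,
        Finset.card_univ, Fintype.card_fin]
    refine le_of_mul_le_mul_right ?_ (Finset.prod_pos fun l (_ : l ∈ Finset.univ) =>
      B.G_pos (B.d + 1) D w (A' l))
    calc Y * _ = Real.exp (B.T (B.d + 1) D w) *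
          (B.G (B.d + 1) D w P * ∏ l, B.G (B.d + 1) D w (A' l)) := mul_assoc _ _ _
      _ ≤ Cg w * (w κ * w (B.theta B.d D' A')) := hA
      _ ≤ Cg w * (w κ * (Cu w * (Real.exp (B.T B.d D' w) * (Cr w ^ r *
          (B.gm w P ^ r * ∏ l, B.G (B.d + 1) D w (A' l)))))) :=
          mul_le_mul_of_nonneg_left (mul_le_mul_of_nonneg_left ((hu w D' hDP A').trans
            (mul_le_mul_of_nonneg_left (mul_le_mul_of_nonneg_left hG (Real.exp_pos _).le)
              (hCu.nonneg w))) hκ'.le) (hCg.nonneg w)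
      _ = _ := by simp only [X]; ring
  -- second inequality
  have hle2 : X ≤ Cu' w * Ca w * Cr w ^ r * Y := by
    obtain ⟨A', hA', hA⟩ := ha w D' hDP bad (by have := B.card_pool; omega)
    have hne : ∀ l, A' l ≠ P := fun l h => (hA' l).2 (h ▸ hPbad)
    have hG : B.gm w P ^ r * ∏ l, B.G (B.d + 1) D w (A' l)
        ≤ Cr w ^ r * ∏ l, B.G B.d D' w (A' l) := by
      refine le_trans (le_of_eq ?_) ((Finset.prod_le_prod (s := (Finset.univ : Finset (Fin r)))
        (fun l _ => mul_nonneg hgm.le (B.G_pos _ _ _ _).le)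
        fun l _ => hr2 _ (hA' l).1 (hA' l).2).trans_eq ?_)
      · rw [Finset.prod_mul_distrib, Finset.prod_const, Finset.card_univ, Fintype.card_fin]
      · rw [Finset.prod_mul_distrib, Finset.prod_const, Finset.card_univ, Fintype.card_fin]
    have hth : w (B.theta (B.d + 1) D (B.ext P A')) = w κ * w (B.theta B.d D' A') := by
      rw [hext, map_mul, map_mul, Finset.prod_eq_one (s := (Finset.univ : Finset (Fin r)))
        (f := fun l => if A' l = P then (0 : K) else 1) (fun l _ => if_neg (hne l)), map_one,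
        mul_one]
    refine le_of_mul_le_mul_right ?_ (Finset.prod_pos fun l (_ : l ∈ Finset.univ) =>
      B.G_pos (B.d + 1) D w (A' l))
    calc X * _ = w κ * (Real.exp (B.T B.d D' w) *
          (B.gm w P ^ r * ∏ l, B.G (B.d + 1) D w (A' l))) := by simp only [X]; ring
      _ ≤ w κ * (Real.exp (B.T B.d D' w) * (Cr w ^ r * ∏ l, B.G B.d D' w (A' l))) :=
          mul_le_mul_of_nonneg_left (mul_le_mul_of_nonneg_left hG (Real.exp_pos _).le) hκ'.le
      _ = Cr w ^ r * w κ * (Real.exp (B.T B.d D' w) * ∏ l, B.G B.d D' w (A' l)) := by ring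
      _ ≤ Cr w ^ r * w κ * (Ca w * w (B.theta B.d D' A')) :=
          mul_le_mul_of_nonneg_left hA (mul_nonneg ((hCr.pow r).nonneg w) hκ'.le)
      _ = Cr w ^ r * Ca w * w (B.theta (B.d + 1) D (B.ext P A')) := by rw [hth]; ring
      _ ≤ Cr w ^ r * Ca w * (Cu' w * (Real.exp (B.T (B.d + 1) D w) *
          (B.G (B.d + 1) D w P * ∏ l, B.G (B.d + 1) D w (A' l)))) :=
          mul_le_mul_of_nonneg_left ((hu' w D hD _).trans_eq (by rw [hdE]))
            ((hCr.pow r).mul hCa |>.nonneg w)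
      _ = _ := by simp only [Y]; ring
  have hC := ((((hCu.mul hCu').mul hCg).mul hCa).mul (hCr.pow r))
  have key := abs_log_sub_log_le hX hY (hC.pos w)
    (hle2.trans (mul_le_mul_of_nonneg_right (by
      calc Cu' w * Ca w * Cr w ^ r = (Cu' w * Ca w * Cr w ^ r) * 1 := (mul_one _).symm
        _ ≤ (Cu' w * Ca w * Cr w ^ r) * (Cu w * Cg w) := mul_le_mul_of_nonneg_left
            ((hCu.mul hCg).one_le w) (((hCu'.mul hCa).mul (hCr.pow r)).nonneg w)
        _ = _ := by ring) hY.le))
    (hle1.trans (mul_le_mul_of_nonneg_right (by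
      calc Cu w * Cg w * Cr w ^ r = (Cu w * Cg w * Cr w ^ r) * 1 := (mul_one _).symm
        _ ≤ (Cu w * Cg w * Cr w ^ r) * (Cu' w * Ca w) := mul_le_mul_of_nonneg_left
            ((hCu'.mul hCa).one_le w) (((hCu.mul hCg).mul (hCr.pow r)).nonneg w)
        _ = _ := by ring) hX.le))
  refine le_of_eq_of_le ?_ key
  congr 1
  simp only [X, Y]
  rw [Real.log_mul (mul_pos (Real.exp_pos _) (pow_pos hgm r)).ne' hκ'.ne',
    Real.log_mul (Real.exp_pos _).ne' (pow_pos hgm r).ne', Real.log_exp, Real.log_pow,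
    Real.log_mul (Real.exp_pos _).ne' (B.G_pos _ _ _ _).ne', Real.log_exp]
  ring

/-- Linearly equivalent divisors. -/
def Equ (a : ℕ) : Type _ := {q : Divisor K F × Divisor K F //
  Divisor.degree q.1 = a ∧ Divisor.degree q.2 = a ∧ ∃ h : F, h ≠ 0 ∧ ∀ P, q.2 P = q.1 P - P.ord h}

/-- The gauge of a linearly equivalent divisor. -/
theorem exists_bd_G_equiv {a : ℕ} (ha : B.Lev a) :
    ∃ C, IsBd C ∧ ∀ (w : AbsoluteValue K ℝ) (D D' : Divisor K F) (h : F),
      Divisor.degree D = a → Divisor.degree D' = a → h ≠ 0 → (∀ P, D' P = D P - P.ord h) → ∀ P,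
        w (lead B.U B.b₀ h)⁻¹ * w (lead B.U P h) * B.G a D w P ≤ C w * B.G a D' w P ∧
        B.G a D' w P ≤ C w * (w (lead B.U B.b₀ h)⁻¹ * w (lead B.U P h) * B.G a D w P) := by
  obtain ⟨C, hC, h'⟩ := B.exists_bd_W_G ha B.isBd_cb
  refine ⟨C, hC, fun w D D' h hD hD' hh hord P => ?_⟩
  have := h' w D' _ ((B.adapted_chartAt ha hD w).transport hh hord hD') P
  rwa [Chart.W_transport, ← B.G_eq ha hD w P] at this

/-- Determinants of linearly equivalent divisors. -/
theorem theta_equiv {a : ℕ} (ha : B.Lev a) {D D' : Divisor K F} (hD : Divisor.degree D = a)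
    (hD' : Divisor.degree D' = a) {h : F} (hh : h ≠ 0) (hord : ∀ P, D' P = D P - P.ord h) :
    ∃ κ₀ : K, κ₀ ≠ 0 ∧ ∀ A : Fin (B.rk a) → Place K F,
      B.theta a D' A = (∏ l, lead B.U (A l) h) * B.theta a D A * κ₀ := by
  set e := B.eBasis ha hD
  let μ : riemannRochSpace D →ₗ[K] riemannRochSpace D' :=
    LinearMap.codRestrict _ ((LinearMap.mul K F h).comp (riemannRochSpace D).subtype)
      fun f => mul_mem_of_apply_eq hh hord f.2
  have hμ : Function.Injective μ := fun f g hfg =>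
    Subtype.ext (mul_left_cancel₀ hh (congrArg Subtype.val hfg))
  have hcard : Fintype.card (Fin (B.rk a)) = Module.finrank K (riemannRochSpace D') :=
    (Fintype.card_fin _).trans (B.ell_eq_rk ha.le hD').symm
  have : Nonempty (Fin (B.rk a)) := ⟨⟨0, B.rk_pos ha.le⟩⟩
  have hli : LinearIndependent K (μ ∘ e) :=
    e.linearIndependent.map' μ (LinearMap.ker_eq_bot.mpr hμ)
  let f := basisOfLinearIndependentOfCardEqFinrank hli hcard
  refine ⟨(f.toMatrix (B.eBasis ha hD')).det, det_toMatrix_ne_zero _ _, fun A => ?_⟩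
  rw [B.theta_eq ha hD', B.theta_eq ha hD, B.det_evMat_basis D' f, ← Matrix.det_mul_column]
  congr 2
  ext l j
  show evL B.U D' (A l) (f j) = lead B.U (A l) h * evL B.U D (A l) (e j)
  rw [show f j = μ (e j) by
    rw [show f = basisOfLinearIndependentOfCardEqFinrank hli hcard from rfl,
      coe_basisOfLinearIndependentOfCardEqFinrank]; rfl, evL_apply, evL_apply, hord]
  exact evAt_mul_left B.U (mem_riemannRochSpace.mp (e j).2 _)

/-- `T` is invariant under linear equivalence. -/
theorem negl_T_equiv {a : ℕ} (ha : B.Lev a) :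
    (fun (q : Equ (K := K) (F := F) a) w => B.T a q.1.2 w - B.T a q.1.1 w)
      ∈ negl K (Equ (K := K) (F := F) a) := by
  classical
  obtain ⟨Cu, hCu, hu⟩ := B.exists_bd_theta_le ha
  obtain ⟨Ca, hCa, hav⟩ := B.exists_bd_theta_avoid ha
  obtain ⟨Cq, hCq, hq⟩ := B.exists_bd_G_equiv ha
  set r := B.rk a
  refine ⟨fun w => Cu w * Ca w * Cq w ^ r, (hCu.mul hCa).mul (hCq.pow r), fun q => ?_⟩
  obtain ⟨⟨D, D'⟩, hD, hD', h, hh, hord⟩ := q
  dsimp only at hD hD' hord ⊢
  obtain ⟨κ₀, hκ₀, hθ⟩ := B.theta_equiv ha hD hD' hh hord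
  have hl₀ := lead_ne_zero B.U B.b₀ hh
  refine ⟨(κ₀ * lead B.U B.b₀ h ^ r)⁻¹, inv_ne_zero (mul_ne_zero hκ₀ (pow_ne_zero _ hl₀)),
    fun w => ?_⟩
  set lam := w κ₀ * w (lead B.U B.b₀ h) ^ r
  have hlam : 0 < lam := mul_pos (w.pos hκ₀) (pow_pos (w.pos hl₀) r)
  set X := Real.exp (B.T a D' w)
  set Y := Real.exp (B.T a D w) * lam
  have hY : 0 < Y := mul_pos (Real.exp_pos _) hlam
  let L := fun A : Fin r → Place K F => ∏ l, w (lead B.U (A l) h)
  have hL : ∀ A, 0 < L A := fun A => Finset.prod_pos fun l _ => w.pos (lead_ne_zero B.U _ hh)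
  have hlow : ∀ A : Fin r → Place K F, L A * ∏ l, B.G a D w (A l)
      ≤ Cq w ^ r * (w (lead B.U B.b₀ h) ^ r * ∏ l, B.G a D' w (A l)) := by
    intro A
    have := Finset.prod_le_prod
      (fun l (_ : l ∈ (Finset.univ : Finset (Fin r))) => mul_nonneg (mul_nonneg (w.nonneg _)
        (w.nonneg _)) (B.G_pos a D w (A l)).le) fun l _ => (hq w D D' h hD hD' hh hord (A l)).1
    simp only [Finset.prod_mul_distrib, Finset.prod_const, Finset.card_univ, Fintype.card_fin,
      map_inv₀, inv_pow] at this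
    rw [mul_assoc, inv_mul_le_iff₀ (pow_pos (w.pos hl₀) r)] at this
    exact this.trans_eq (by ring)
  have hup : ∀ A : Fin r → Place K F, w (lead B.U B.b₀ h) ^ r * ∏ l, B.G a D' w (A l)
      ≤ Cq w ^ r * (L A * ∏ l, B.G a D w (A l)) := by
    intro A
    have := Finset.prod_le_prod
      (fun l (_ : l ∈ (Finset.univ : Finset (Fin r))) => (B.G_pos a D' w (A l)).le)
      fun l _ => (hq w D D' h hD hD' hh hord (A l)).2
    simp only [Finset.prod_mul_distrib, Finset.prod_const, Finset.card_univ, Fintype.card_fin,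
      map_inv₀, inv_pow] at this
    refine (mul_le_mul_of_nonneg_left this (pow_nonneg (w.nonneg _) r)).trans_eq ?_
    field_simp [(pow_pos (w.pos hl₀) r).ne']
    ring
  have hth : ∀ A : Fin r → Place K F, w (B.theta a D' A) = L A * w (B.theta a D A) * w κ₀ :=
    fun A => by rw [hθ, map_mul, map_mul, map_prod]
  have h1 : X ≤ Cu w * Ca w * Cq w ^ r * Y := by
    obtain ⟨A, -, hA⟩ := hav w D' hD' ∅ (by have := ha.card; simp; omega)
    refine le_of_mul_le_mul_right ?_ (Finset.prod_pos fun l (_ : l ∈ Finset.univ) =>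
      B.G_pos a D' w (A l))
    refine le_of_mul_le_mul_left ?_ (pow_pos (w.pos hl₀) r)
    calc _ = w (lead B.U B.b₀ h) ^ r * (X * ∏ l, B.G a D' w (A l)) := rfl
      _ ≤ w (lead B.U B.b₀ h) ^ r * (Ca w * (L A * (Cu w * (Real.exp (B.T a D w) *
          ∏ l, B.G a D w (A l))) * w κ₀)) := by
          refine mul_le_mul_of_nonneg_left (hA.trans (mul_le_mul_of_nonneg_left ?_ (hCa.nonneg w)))
            (pow_nonneg (w.nonneg _) r)
          rw [hth]
          exact mul_le_mul_of_nonneg_right (mul_le_mul_of_nonneg_left (hu w D hD A) (hL A).le)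
            (w.nonneg _)
      _ = Cu w * Ca w * Y * (L A * ∏ l, B.G a D w (A l)) := by simp only [Y, lam]; ring
      _ ≤ Cu w * Ca w * Y * (Cq w ^ r * (w (lead B.U B.b₀ h) ^ r * ∏ l, B.G a D' w (A l))) :=
          mul_le_mul_of_nonneg_left (hlow A) (mul_nonneg ((hCu.mul hCa).nonneg w) hY.le)
      _ = _ := by ring
  have h2 : Y ≤ Cu w * Ca w * Cq w ^ r * X := by
    obtain ⟨A, -, hA⟩ := hav w D hD ∅ (by have := ha.card; simp; omega)
    refine le_of_mul_le_mul_right ?_ (mul_pos (hL A) (Finset.prod_pos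
      fun l (_ : l ∈ Finset.univ) => B.G_pos a D w (A l)))
    calc _ = lam * L A * (Real.exp (B.T a D w) * ∏ l, B.G a D w (A l)) := by
          simp only [Y]; ring
      _ ≤ lam * L A * (Ca w * w (B.theta a D A)) :=
          mul_le_mul_of_nonneg_left hA (mul_nonneg hlam.le (hL A).le)
      _ = Ca w * w (lead B.U B.b₀ h) ^ r * w (B.theta a D' A) := by rw [hth]; simp only [lam]; ring
      _ ≤ Ca w * w (lead B.U B.b₀ h) ^ r * (Cu w * (X * ∏ l, B.G a D' w (A l))) :=
          mul_le_mul_of_nonneg_left (hu w D' hD' A)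
            (mul_nonneg (hCa.nonneg w) (pow_nonneg (w.nonneg _) r))
      _ = Cu w * Ca w * X * (w (lead B.U B.b₀ h) ^ r * ∏ l, B.G a D' w (A l)) := by ring
      _ ≤ Cu w * Ca w * X * (Cq w ^ r * (L A * ∏ l, B.G a D w (A l))) :=
          mul_le_mul_of_nonneg_left (hup A)
            (mul_nonneg ((hCu.mul hCa).nonneg w) (Real.exp_pos _).le)
      _ = _ := by ring
  refine le_of_eq_of_le ?_
    (abs_log_sub_log_le (Real.exp_pos _) hY (((hCu.mul hCa).mul (hCq.pow r)).pos w) h1 h2)
  congr 1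
  simp only [Y, lam]
  rw [Real.log_mul (Real.exp_pos _).ne' (mul_pos (w.pos hκ₀) (pow_pos (w.pos hl₀) r)).ne',
    Real.log_exp, Real.log_exp, map_inv₀, Real.log_inv, map_mul, map_pow]
  ring

end Base

end Fermat.Agent.MW
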