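import Fermat.Agent.MordellWeil.Gauge
import Mathlib.Algebra.MvPolynomial.Basic

/-!
# Polynomial systems whose unknowns are elements of the spaces `L(m·O)`

The equations `tensorPoly` cut out the tensors of charts (`exists_chart_of_tensorPoly`,
`eval_tensorPoly_chart`); they feed the Nullstellensatz argument for inertia.
-/

set_option autoImplicit false

noncomputable section

open AlgebraicCurve MvPolynomial

namespace Fermat.Agent.MW

open FF

variable {K F : Type*} [Field K] [Field F] [Algebra K F] [IsFunctionField K F] [IsAlgClosed K]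

/-- A degree zero divisor with a nonzero section is principal. -/
theorem mem_principal_of_mem {D : Divisor K F} (hD : Divisor.degree D = 0) {f : F} (hf : f ≠ 0)
    (h : f ∈ riemannRochSpace D) : D ∈ Divisor.principal (K := K) (F := F) := by
  obtain ⟨Df, hDf, hDf0⟩ := HasPrincipalDivisors.exists_divisor (K := K) f hf
  have hle : -Df ≤ D := fun P => by
    have := mem_riemannRochSpace.mp h P
    rw [mem_ordGE_of_ne_zero P hf, ← hDf P] at this
    simp only [Finsupp.neg_apply]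
    omega
  rw [← eq_of_le_of_degree_eq hle (by rw [map_neg, hDf0, hD, neg_zero])]
  exact neg_mem ⟨f, hf, hDf⟩

namespace Base

variable (B : Base K F)

theorem eq_of_forall_evAt_eq {m : ℕ} (hm : m < B.pool.card) {f g : F}
    (hf : f ∈ riemannRochSpace (B.inf m)) (hg : g ∈ riemannRochSpace (B.inf m))
    (h : ∀ b ∈ B.pool, evAt B.U 0 b f = evAt B.U 0 b g) : f = g := by
  rw [← sub_eq_zero]
  refine B.eq_zero_of_evAt_eq_zero (Submodule.sub_mem _ hf hg) le_rfl hm fun b hb => ?_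
  have e := (evL B.U (B.inf (m : ℤ)) b).map_sub ⟨f, hf⟩ ⟨g, hg⟩
  simp only [evL_apply, B.inf_pool _ hb] at e
  exact e.trans (sub_eq_zero.mpr (h b hb))

theorem evAt_mul_pool {m n : ℤ} {f g : F} (hf : f ∈ riemannRochSpace (B.inf m))
    (hg : g ∈ riemannRochSpace (B.inf n)) {b : Place K F} (hb : b ∈ B.pool) :
    evAt B.U 0 b (f * g) = evAt B.U 0 b f * evAt B.U 0 b g := by
  rw [← evAt_mul B.U (B.mem_ordGE_pool hf hb) (B.mem_ordGE_pool hg hb), add_zero]

/-- The element of `L(m·O)` with given coordinates. -/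
def comb (m : ℤ) (x : Fin (ell (B.inf m)) → K) : riemannRochSpace (B.inf m) :=
  ∑ s, x s • B.infBasis m s

/-- The value at a pool place, as a linear form in the coordinates. -/
def evPoly (m : ℤ) {σ : Type*} (v : Fin (ell (B.inf m)) → σ) (b : Place K F) :
    MvPolynomial σ K :=
  ∑ s, X (v s) * C (evAt B.U 0 b (B.infBasis m s : F))

theorem eval_evPoly (m : ℤ) {σ : Type*} (v : Fin (ell (B.inf m)) → σ) (x : σ → K)
    {b : Place K F} (hb : b ∈ B.pool) :
    eval x (B.evPoly m v b) =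
      evAt B.U 0 b ((B.comb m fun s => x (v s) : riemannRochSpace (B.inf m)) : F) := by
  have h : evAt B.U 0 b ((B.comb m fun s => x (v s) : riemannRochSpace (B.inf m)) : F)
      = evL B.U (B.inf m) b (B.comb m fun s => x (v s)) := by
    rw [evL_apply, B.inf_pool _ hb]
  rw [h, comb, map_sum, evPoly, map_sum]
  refine Finset.sum_congr rfl fun s _ => ?_
  rw [map_smul, smul_eq_mul, evL_apply, B.inf_pool _ hb, map_mul, eval_X, eval_C]

theorem comb_repr (m : ℤ) (f : riemannRochSpace (B.inf m)) :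
    B.comb m (fun s => (B.infBasis m).repr f s) = f :=
  (B.infBasis m).sum_repr f

/-- Tensor variables. -/
abbrev TVar : Type := Fin (B.rk B.d) × Fin (B.rk B.d) × Fin (ell (B.inf ((2 * B.d : ℕ) : ℤ)))

/-- Tensor equations. -/
abbrev TIdx : Type _ := (Fin (B.rk B.d) × Fin (B.rk B.d) × Fin (B.rk B.d)) ⊕
  (Fin (B.rk B.d) × Fin (B.rk B.d) × Fin (B.rk B.d) × Fin (B.rk B.d) × B.pool)

/-- The value of the tensor entry. -/
def tPoly {σ : Type*} (v : B.TVar → σ) (i k : Fin (B.rk B.d)) (b : Place K F) : MvPolynomial σ K :=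
  B.evPoly _ (fun s => v (i, k, s)) b

/-- The equations saying that the unknown is a chart tensor at the places `A`. -/
def tensorPoly {σ : Type*} (v : B.TVar → σ) (A : Fin (B.rk B.d) → B.pool) :
    B.TIdx → MvPolynomial σ K
  | .inl (i, k, l) => B.tPoly v i k (A l : Place K F) - C (if i = l ∧ k = l then 1 else 0)
  | .inr (i, j, k, l, b) =>
      B.tPoly v i j b * B.tPoly v k l b - B.tPoly v i l b * B.tPoly v k j b

theorem eval_tPoly {σ : Type*} (v : B.TVar → σ) (x : σ → K) (i k : Fin (B.rk B.d))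
    {b : Place K F} (hb : b ∈ B.pool) :
    eval x (B.tPoly v i k b)
      = evAt B.U 0 b ((B.comb _ fun s => x (v (i, k, s)) :
        riemannRochSpace (B.inf ((2 * B.d : ℕ) : ℤ))) : F) :=
  B.eval_evPoly _ _ x hb

/-- A zero of the tensor equations is the tensor of a chart. -/
theorem exists_chart_of_tensorPoly {σ : Type*} (v : B.TVar → σ) (A : Fin (B.rk B.d) → B.pool)
    (x : σ → K) (h : ∀ q, eval x (B.tensorPoly v A q) = 0) :
    ∃ (D : Divisor K F) (c : B.Chart B.d D), ∀ i k,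
      c.u i * c.v k = ((B.comb _ fun s => x (v (i, k, s)) :
        riemannRochSpace (B.inf ((2 * B.d : ℕ) : ℤ))) : F) := by
  classical
  set T := fun i k =>
    ((B.comb _ fun s => x (v (i, k, s)) : riemannRochSpace (B.inf ((2 * B.d : ℕ) : ℤ))) : F)
  have hmem : ∀ i k, T i k ∈ riemannRochSpace (B.inf ((2 * B.d : ℕ) : ℤ)) := fun i k =>
    Subtype.property _
  have hT : B.IsTensor B.d (fun l => (A l : Place K F)) T := by
    refine ⟨le_rfl, fun l => (A l).2, hmem, fun i k l => ?_, fun i j k l => ?_⟩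
    · have := h (.inl (i, k, l))
      rwa [tensorPoly, map_sub, B.eval_tPoly v x i k (A l).2, eval_C, sub_eq_zero] at this
    · refine B.eq_of_forall_evAt_eq (m := 2 * B.d + 2 * B.d) (by have := B.card_pool; omega) ?_ ?_
        fun b hb => ?_
      · rw [Nat.cast_add]; exact B.mul_mem_inf (hmem i j) (hmem k l)
      · rw [Nat.cast_add]; exact B.mul_mem_inf (hmem i l) (hmem k j)
      · have := h (.inr (i, j, k, l, ⟨b, hb⟩))
        rw [tensorPoly, map_sub, map_mul, map_mul, B.eval_tPoly v x i j hb, B.eval_tPoly v x k l hb,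
          B.eval_tPoly v x i l hb, B.eval_tPoly v x k j hb, sub_eq_zero] at this
        rw [B.evAt_mul_pool (hmem i j) (hmem k l) hb, B.evAt_mul_pool (hmem i l) (hmem k j) hb]
        exact this
  obtain ⟨D, c, -, hc⟩ := B.exists_chart_of_isTensor hT
  exact ⟨D, c, hc⟩

/-- A chart's tensor solves the tensor equations. -/
theorem eval_tensorPoly_chart {σ : Type*} (v : B.TVar → σ) {D : Divisor K F}
    (c : B.Chart B.d D) (x : σ → K)
    (hx : ∀ i k s, x (v (i, k, s)) = (B.infBasis ((2 * B.d : ℕ) : ℤ)).repr ⟨_, c.mul_mem i k⟩ s)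
    (q : B.TIdx) :
    eval x (B.tensorPoly v (fun l => ⟨c.A l, c.A_mem l⟩) q) = 0 := by
  classical
  have hv : ∀ i k {b : Place K F}, b ∈ B.pool →
      eval x (B.tPoly v i k b) = evAt B.U 0 b (c.u i * c.v k) := by
    intro i k b hb
    rw [B.eval_tPoly v x i k hb]
    congr 1
    rw [show (fun s => x (v (i, k, s))) = fun s => _ from funext (hx i k), comb_repr]
  rcases q with ⟨i, k, l⟩ | ⟨i, j, k, l, b⟩
  · rw [tensorPoly, map_sub, hv i k (c.A_mem l), eval_C, c.isTensor.card_ev, sub_self]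
  · rw [tensorPoly, map_sub, map_mul, map_mul, hv i j b.2, hv k l b.2, hv i l b.2, hv k j b.2,
      c.evAt_pool b.2, c.evAt_pool b.2, c.evAt_pool b.2, c.evAt_pool b.2]
    ring

/-- A fixed chart is adapted at every absolute value, with a bound. -/
theorem exists_bd_fixed_chart {D : Divisor K F} (c : B.Chart B.d D) :
    ∃ C, IsBd C ∧ ∀ w : AbsoluteValue K ℝ, c.Adapted w (C w) := by
  classical
  obtain ⟨l₁, hl₁⟩ : ∃ l : List K, ∀ i k, ∀ b ∈ B.pool, evAt B.U 0 b (c.u i * c.v k) ∈ l := by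
    refine ⟨B.pool.toList.flatMap fun b => (Finset.univ : Finset (Fin (B.rk B.d))).toList.flatMap
      fun i => (Finset.univ : Finset (Fin (B.rk B.d))).toList.map
        fun k => evAt B.U 0 b (c.u i * c.v k), fun i k b hb => ?_⟩
    simp only [List.mem_flatMap, List.mem_map, Finset.mem_toList]
    exact ⟨b, hb, i, Finset.mem_univ i, k, Finset.mem_univ k, rfl⟩
  obtain ⟨l₂, h₁, h₂, h₃, h₄⟩ : ∃ l : List K,
      (∀ i, evAt B.U (D B.b₀) B.b₀ (c.u i) ∈ l) ∧
      (∀ i, (evAt B.U (D B.b₀) B.b₀ (c.u i))⁻¹ ∈ l) ∧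
      (∀ i, evAt B.U (B.dual B.d D B.b₀) B.b₀ (c.v i) ∈ l) ∧
      (∀ i, (evAt B.U (B.dual B.d D B.b₀) B.b₀ (c.v i))⁻¹ ∈ l) :=
    ⟨(Finset.univ : Finset (Fin (B.rk B.d))).toList.flatMap fun i =>
      [evAt B.U (D B.b₀) B.b₀ (c.u i), (evAt B.U (D B.b₀) B.b₀ (c.u i))⁻¹,
       evAt B.U (B.dual B.d D B.b₀) B.b₀ (c.v i), (evAt B.U (B.dual B.d D B.b₀) B.b₀ (c.v i))⁻¹],
      fun i => List.mem_flatMap.mpr ⟨i, Finset.mem_toList.mpr (Finset.mem_univ i), by simp⟩,
      fun i => List.mem_flatMap.mpr ⟨i, Finset.mem_toList.mpr (Finset.mem_univ i), by simp⟩,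
      fun i => List.mem_flatMap.mpr ⟨i, Finset.mem_toList.mpr (Finset.mem_univ i), by simp⟩,
      fun i => List.mem_flatMap.mpr ⟨i, Finset.mem_toList.mpr (Finset.mem_univ i), by simp⟩⟩
  let C := fun w : AbsoluteValue K ℝ => coeffSize w l₁ * coeffSize w l₂
  refine ⟨C, (IsBd.coeffSize_bd _).mul (IsBd.coeffSize_bd _), fun w => ?_⟩
  have hC : 1 ≤ C w :=
    one_le_mul_of_one_le_of_one_le (one_le_coeffSize w l₁) (one_le_coeffSize w l₂)
  have hl₂ : ∀ a, a ∈ l₂ → w a ≤ C w := fun a ha => (le_coeffSize_of_mem w ha).trans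
    (le_mul_of_one_le_left (zero_le_one.trans (one_le_coeffSize w l₂)) (one_le_coeffSize w l₁))
  have key : ∀ (E : Divisor K F) (c' : B.Chart B.d E),
      (∀ i, evAt B.U (E B.b₀) B.b₀ (c'.u i) ∈ l₂) →
      (∀ i, (evAt B.U (E B.b₀) B.b₀ (c'.u i))⁻¹ ∈ l₂) →
      c'.W w B.b₀ ≤ C w ∧ 1 ≤ C w * c'.W w B.b₀ := by
    intro E c' h1 h2
    refine ⟨Real.iSup_le (fun i => hl₂ _ (h1 i)) (zero_le_one.trans hC), ?_⟩
    obtain ⟨i, hi⟩ := c'.exists_W_eq w B.b₀
    have hne : evAt B.U (E B.b₀) B.b₀ (c'.u i) ≠ 0 := fun h0 =>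
      (c'.W_pos w B.b₀).ne' (by rw [hi, h0, map_zero])
    calc (1 : ℝ) = w (evAt B.U (E B.b₀) B.b₀ (c'.u i))⁻¹ * c'.W w B.b₀ := by
          rw [hi, ← map_mul, inv_mul_cancel₀ hne, map_one]
      _ ≤ _ := mul_le_mul_of_nonneg_right (hl₂ _ (h2 i)) (c'.W_nonneg w _)
  obtain ⟨a1, a2⟩ := key D c h₁ h₂
  obtain ⟨a3, a4⟩ := key _ c.symm h₃ h₄
  refine ⟨⟨hC, fun i k => B.poolNorm_le w _ fun b hb => ?_⟩, a1, a2, a3, a4⟩
  exact (le_coeffSize_of_mem w (hl₁ i k b hb)).trans
    (le_mul_of_one_le_right (zero_le_one.trans (one_le_coeffSize w l₁)) (one_le_coeffSize w l₂))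

end Base

end Fermat.Agent.MW
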