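import Fermat.Agent.MordellWeil.Chart

/-!
# Charts from tensors

A tensor in `L(2a·O)` satisfying the rank-one and cardinality equations comes from a chart.
-/

set_option autoImplicit false

noncomputable section

open AlgebraicCurve

namespace Fermat.Agent.MW

open FF

variable {K F : Type*} [Field K] [Field F] [Algebra K F] [IsFunctionField K F] [IsAlgClosed K]

omit [IsFunctionField K F] in
/-- Comparable divisors of the same degree are equal. -/
theorem eq_of_le_of_degree_eq [IsFunctionField K F] {D E : Divisor K F} (h : D ≤ E)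
    (hd : Divisor.degree D = Divisor.degree E) : D = E := by
  classical
  ext P
  by_contra hne
  have hlt : D + Finsupp.single P 1 ≤ E := fun Q => by
    rcases eq_or_ne Q P with rfl | hQ
    · have := h Q; simp; omega
    · simpa [Finsupp.single_eq_of_ne hQ] using h Q
  have := degree_mono hlt
  rw [map_add, degree_single_eq] at this
  omega

namespace Base

variable (B : Base K F)

/-- The equations of a chart tensor. -/
structure IsTensor (a : ℕ) (A : Fin (B.rk a) → Place K F)
    (T : Fin (B.rk a) → Fin (B.rk a) → F) : Prop where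
  le_a : B.d ≤ a
  A_mem : ∀ l, A l ∈ B.pool
  mem : ∀ i k, T i k ∈ riemannRochSpace (B.inf (2 * a : ℕ))
  card_ev : ∀ i k l, evAt B.U 0 (A l) (T i k) = if i = l ∧ k = l then 1 else 0
  rank_one : ∀ i j k l, T i j * T k l = T i l * T k j

theorem Chart.isTensor {B : Base K F} {a : ℕ} {D : Divisor K F} (c : B.Chart a D) :
    B.IsTensor a c.A (fun i k => c.u i * c.v k) where
  le_a := c.le_a
  A_mem := c.A_mem
  mem := c.mul_mem
  card_ev i k l := by
    rw [c.evAt_pool (c.A_mem l)]
    by_cases hi : i = l
    · subst hi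
      by_cases hk : k = i
      · subst hk; simp [c.one k]
      · simp [c.v_zero k i hk, hk]
    · simp [c.u_zero i l hi, hi]
  rank_one i j k l := by ring

/-- **Charts from tensors.** -/
theorem exists_chart_of_isTensor {a : ℕ} {A : Fin (B.rk a) → Place K F}
    {T : Fin (B.rk a) → Fin (B.rk a) → F} (h : B.IsTensor a A T) :
    ∃ (D : Divisor K F) (c : B.Chart a D), c.A = A ∧ ∀ i k, c.u i * c.v k = T i k := by
  classical
  have hr := B.rk_pos h.le_a
  let i₀ : Fin (B.rk a) := ⟨0, hr⟩
  have hne : Nonempty (Fin (B.rk a)) := ⟨i₀⟩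
  have hTii : ∀ i, T i i ≠ 0 := fun i h0 => by
    have := h.card_ev i i i
    rw [h0, evAt_zero] at this
    simp at this
  let u : Fin (B.rk a) → F := fun i => T i i₀
  let v : Fin (B.rk a) → F := fun k => T i₀ k / T i₀ i₀
  have huv : ∀ i k, u i * v k = T i k := fun i k => by
    show T i i₀ * (T i₀ k / T i₀ i₀) = T i k
    rw [← mul_div_assoc, h.rank_one i i₀ i₀ k, mul_div_cancel_right₀ _ (hTii i₀)]
  have hu0 : ∀ i, u i ≠ 0 := fun i h0 => hTii i (by rw [← huv i i, h0, zero_mul])
  have hv0 : ∀ i, v i ≠ 0 := fun i h0 => hTii i (by rw [← huv i i, h0, mul_zero])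
  let mk : (Fin (B.rk a) → F) → Divisor K F := fun w =>
    Finsupp.onFinset (Finset.univ.biUnion fun i =>
        ((finite_setOf_ord_pos (K := K) (w i)).union
          (finite_setOf_ord_neg (K := K) (w i))).toFinset)
      (fun P => Finset.univ.sup' Finset.univ_nonempty fun i => -P.ord (w i)) fun P hP => by
        simp only [Finset.mem_biUnion, Finset.mem_univ, true_and, Set.Finite.mem_toFinset,
          Set.mem_union, Set.mem_ofPred_eq]
        by_contra! hall
        apply hP
        obtain ⟨i, -, hi⟩ := Finset.exists_mem_eq_sup' (Finset.univ_nonempty (α := Fin (B.rk a)))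
          fun i => -P.ord (w i)
        rw [hi]; have := hall i; omega
  have hmem : ∀ (w : Fin (B.rk a) → F) i, w i ∈ riemannRochSpace (mk w) := fun w i => by
    rw [mem_riemannRochSpace]
    intro P
    refine mem_ordGE_of_le_ord P ?_
    have : -P.ord (w i) ≤ mk w P :=
      Finset.le_sup' (fun i => -P.ord (w i)) (Finset.mem_univ i)
    omega
  set Du := mk u
  set Dv := mk v
  have hle : Du + Dv ≤ B.inf (2 * a : ℕ) := fun P => by
    obtain ⟨i, -, hi⟩ := Finset.exists_mem_eq_sup' (Finset.univ_nonempty (α := Fin (B.rk a)))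
      fun i => -P.ord (u i)
    obtain ⟨k, -, hk⟩ := Finset.exists_mem_eq_sup' (Finset.univ_nonempty (α := Fin (B.rk a)))
      fun i => -P.ord (v i)
    have h1 := mem_riemannRochSpace.mp (h.mem i k) P
    rw [← huv i k, mem_ordGE_of_ne_zero P (mul_ne_zero (hu0 i) (hv0 k)),
      P.ord_mul (hu0 i) (hv0 k)] at h1
    rw [Finsupp.add_apply, show Du P = -P.ord (u i) from hi, show Dv P = -P.ord (v k) from hk]
    omega
  have hA0 : ∀ l, Du (A l) + Dv (A l) = 0 := fun l => by
    have h1 := hle (A l)
    rw [Finsupp.add_apply, B.inf_pool _ (h.A_mem l)] at h1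
    refine le_antisymm h1 ?_
    have h2 : evAt B.U 0 (A l) (T l l) = 1 := by rw [h.card_ev]; simp
    have hTmem := B.mem_ordGE_pool (h.mem l l) (h.A_mem l)
    have h3 : ¬ (T l l ∈ ordGE (A l) (-0 + 1)) := fun h4 => by
      rw [(evAt_eq_zero_iff B.U hTmem).mpr h4] at h2
      exact zero_ne_one h2
    rw [mem_ordGE_of_ne_zero _ (hTii l), ← huv l l, (A l).ord_mul (hu0 l) (hv0 l)] at h3
    have hu1 := mem_riemannRochSpace.mp (hmem u l) (A l)
    have hv1 := mem_riemannRochSpace.mp (hmem v l) (A l)
    rw [mem_ordGE_of_ne_zero _ (hu0 l)] at hu1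
    rw [mem_ordGE_of_ne_zero _ (hv0 l)] at hv1
    show (0 : ℤ) ≤ mk u (A l) + mk v (A l)
    omega
  have hev : ∀ i k l, evAt B.U (Du (A l)) (A l) (u i) * evAt B.U (Dv (A l)) (A l) (v k)
      = if i = l ∧ k = l then 1 else 0 := fun i k l => by
    rw [← evAt_mul B.U (mem_riemannRochSpace.mp (hmem u i) (A l))
      (mem_riemannRochSpace.mp (hmem v k) (A l)), hA0 l, huv, h.card_ev]
  have hevu : ∀ l, evAt B.U (Du (A l)) (A l) (u l) ≠ 0 ∧ evAt B.U (Dv (A l)) (A l) (v l) ≠ 0 :=
    fun l => mul_ne_zero_iff.mp (by rw [hev l l l]; simp)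
  have huz : ∀ i l, i ≠ l → evAt B.U (Du (A l)) (A l) (u i) = 0 := fun i l hil => by
    have := hev i l l
    rw [if_neg (fun hh => hil hh.1), mul_eq_zero] at this
    exact this.resolve_right (hevu l).2
  have hvz : ∀ i l, i ≠ l → evAt B.U (Dv (A l)) (A l) (v i) = 0 := fun i l hil => by
    have := hev l i l
    rw [if_neg (fun hh => hil hh.2), mul_eq_zero] at this
    exact this.resolve_left (hevu l).1
  have hdeg : ∀ (E : Divisor K F) (w : Fin (B.rk a) → F), (∀ i, w i ∈ riemannRochSpace E) →
      (∀ l, evAt B.U (E (A l)) (A l) (w l) ≠ 0) →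
      (∀ i l, i ≠ l → evAt B.U (E (A l)) (A l) (w i) = 0) → (a : ℤ) ≤ Divisor.degree E := by
    intro E w hw hne' hz
    have hind : LinearIndependent K (fun i => (⟨w i, hw i⟩ : riemannRochSpace E)) := by
      rw [Fintype.linearIndependent_iff]
      intro g hg l
      have := congrArg (evL B.U E (A l)) hg
      simp only [map_sum, map_smul, map_zero, smul_eq_mul, evL_apply] at this
      rw [Finset.sum_eq_single l (fun i _ hi => by rw [hz i l hi, mul_zero])
        (fun hh => absurd (Finset.mem_univ l) hh)] at this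
      exact (mul_eq_zero.mp this).resolve_right (hne' l)
    have hcard := hind.fintype_card_le_finrank
    rw [Fintype.card_fin] at hcard
    by_contra! hlt
    have hle' : E ≤ E + B.inf ((a : ℤ) - 1 - Divisor.degree E) :=
      le_add_of_nonneg_right (fun P => by
        rcases eq_or_ne P B.O with rfl | hP
        · simp [Base.inf]; omega
        · simp [Base.inf, Finsupp.single_eq_of_ne hP])
    have h1 := ell_mono hle'
    have := B.bound_le
    have := B.cast_rk h.le_a
    have := h.le_a
    have h2 := ell_eq (D := E + B.inf ((a : ℤ) - 1 - Divisor.degree E))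
      (by rw [map_add, degree_inf]; omega)
    rw [map_add, degree_inf] at h2
    change B.rk a ≤ ell E at hcard
    omega
  have h1 := hdeg Du u (hmem u) (fun l => (hevu l).1) huz
  have h2 := hdeg Dv v (hmem v) (fun l => (hevu l).2) hvz
  have h3 := degree_mono hle
  rw [map_add, degree_inf] at h3
  push_cast at h3
  have hsum : Du + Dv = B.inf (2 * a : ℕ) :=
    eq_of_le_of_degree_eq hle (by rw [map_add, degree_inf]; push_cast; omega)
  have hdual : B.dual a Du = Dv := by rw [Base.dual, ← hsum]; abel
  refine ⟨Du,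
    { A := A
      A_mem := h.A_mem
      u := u
      v := v
      u_mem := hmem u
      v_mem := fun i => by rw [hdual]; exact hmem v i
      u_zero := huz
      v_zero := fun i l hil => by rw [hdual]; exact hvz i l hil
      one := fun l => by rw [hdual, hev l l l]; simp
      degree_eq := by omega
      le_a := h.le_a }, rfl, huv⟩

end Base

end Fermat.Agent.MW
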