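import Fermat.Agent.MordellWeil.Global
import Fermat.Agent.MordellWeil.Inertia
import Fermat.Agent.Gal.Hermite
import Fermat.Agent.Duality.Places.FiniteSupport

/-!
# Weak Mordell–Weil from finiteness of `J(ℚ̄)/2J(ℚ̄)` and of `J[2]`

Halves of a fixed class are moved by inertia only at the finitely many primes where some bound is
not `1` (see `Inertia`), so Hermite's theorem leaves finitely many fields of definition and
`finiteIndex_two` follows.
-/

set_option autoImplicit false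

noncomputable section

open AlgebraicCurve AlgebraicCurve.SemilinearAut
open scoped Pointwise

namespace Fermat.Agent.MW

open FF

local notation "Qbar" => AlgebraicClosure ℚ
local notation "Γ" => (AlgebraicClosure ℚ ≃ₐ[ℚ] AlgebraicClosure ℚ)

/-- An extension of an embedding of a number field to an automorphism. -/
def closureLift {M : IntermediateField ℚ Qbar} (b : M →ₐ[ℚ] Qbar) : Γ :=
  AlgEquiv.ofBijective (b.liftNormal Qbar) (AlgHom.normal_bijective _ _ _ _)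

theorem closureLift_apply {M : IntermediateField ℚ Qbar} (b : M →ₐ[ℚ] Qbar) (x : M) :
    closureLift b (x : Qbar) = b x := b.liftNormal_commutes Qbar x

/-- A coefficient has absolute value at most one at all places over almost all primes. -/
theorem exists_int_mem_place (c : Qbar) :
    ∃ D : ℤ, D ≠ 0 ∧ ∀ (q : ℕ), q.Prime → ¬(q : ℤ) ∣ D → ∀ A : ValuationSubring Qbar,
      A.LiesOverPrime q → c ∈ A := by
  obtain ⟨D, hD, hint⟩ := ((IsFractionRing.isAlgebraic_iff ℤ ℚ Qbar).2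
    (Algebra.IsAlgebraic.isAlgebraic c)).exists_integral_multiple
  refine ⟨D, hD, fun q hq hndvd A hA => ?_⟩
  have h2 : (D : Qbar) ∉ A.nonunits := fun h => hndvd ((Gal.intCast_mem_nonunits_iff A hq hA D).1 h)
  have h3 := mul_mem (Gal.inv_mem_of_mem_of_notMem_nonunits A h2) (Gal.mem_of_isIntegral A hint)
  rwa [zsmul_eq_mul, inv_mul_cancel_left₀ (Int.cast_ne_zero.2 hD)] at h3

/-- The absolute value of a place over `q`. -/
theorem exists_absVal_of_place {q : ℕ} [Fact q.Prime] {A : ValuationSubring Qbar}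
    (hA : A.LiesOverPrime q) :
    ∃ w : AbsoluteValue Qbar ℝ, IsNonarchimedean w ∧ (∀ x, w x ≤ 1 ↔ x ∈ A) ∧
      (∀ x, w x < 1 ↔ x ∈ A.nonunits) ∧
      ∀ σ : Γ, σ • A = A → ∀ x, w (σ x) = w x := by
  obtain ⟨σ₀, rfl⟩ := Duality.Places.exists_smul_padicPlace_eq q hA
  let φ : Qbar →+* PadicAlgCl q := (padicEmbedding q).toRingHom.comp σ₀.symm.toRingEquiv.toRingHom
  have hna : IsNonarchimedean (norm : PadicAlgCl q → ℝ) := PadicAlgCl.isNonarchimedean q
  let w : AbsoluteValue Qbar ℝ :=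
    { toFun := fun x => ‖φ x‖
      map_mul' := fun x y => by rw [map_mul, norm_mul]
      nonneg' := fun x => norm_nonneg _
      eq_zero' := fun x => by rw [norm_eq_zero, map_eq_zero]
      add_le' := fun x y => by rw [map_add]; exact norm_add_le _ _ }
  refine ⟨w, fun x y => ?_, fun x => ?_, fun x => ?_, fun σ hσ x => ?_⟩
  · show ‖φ (x + y)‖ ≤ _
    rw [map_add]; exact hna _ _
  · rw [Gal.mem_smul_valuationSubring_iff, Duality.Places.mem_padicPlace]
    rfl
  · rw [Gal.mem_nonunits_smul_iff, Duality.Places.mem_nonunits_padicPlace]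
    rfl
  · show ‖φ (σ x)‖ = ‖φ x‖
    have h : (σ₀⁻¹ * σ * σ₀) • padicPlace q = padicPlace q := by
      rw [mul_smul, mul_smul, hσ, inv_smul_smul]
    have := Duality.Places.norm_eq_of_smul_eq q h (σ₀.symm x)
    rw [AlgEquiv.mul_apply, AlgEquiv.mul_apply, AlgEquiv.apply_symm_apply,
      AlgEquiv.aut_inv] at this
    exact this

/-- A bound is one at all places over almost all primes. -/
theorem exists_finset_bd_eq_one {C : AbsoluteValue Qbar ℝ → ℝ} (hC : IsBd C) :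
    ∃ S : Finset Nat.Primes, ∀ q : Nat.Primes, q ∉ S → ∀ A : ValuationSubring Qbar,
      A.LiesOverPrime (q : ℕ) → ∀ w : AbsoluteValue Qbar ℝ, IsNonarchimedean w →
        (∀ x, w x ≤ 1 ↔ x ∈ A) → C w = 1 := by
  classical
  obtain ⟨h1, N, l, hl⟩ := hC
  choose D hD0 hD using exists_int_mem_place
  set E : ℤ := (l.map D).prod with hE
  have hE0 : E ≠ 0 := by
    rw [hE, Ne, List.prod_eq_zero_iff, List.mem_map]
    rintro ⟨c, -, hc⟩
    exact hD0 c hc
  refine ⟨E.natAbs.primeFactors.subtype Nat.Prime, fun q hq A hA w hw hwA => ?_⟩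
  refine le_antisymm ((hl w).trans (le_of_eq ?_)) (h1 w)
  have hcoef : ∀ c ∈ l, w c ≤ 1 := fun c hc => (hwA c).2 (hD c q q.2 (fun hdvd => hq <|
    Finset.mem_subtype.2 (Nat.mem_primeFactors.2 ⟨q.2, Int.natCast_dvd.1
      (hdvd.trans (List.dvd_prod (List.mem_map.2 ⟨c, hc, rfl⟩))), Int.natAbs_ne_zero.2 hE0⟩)) A hA)
  rw [archN, if_pos hw, one_mul, coeffSize]
  refine List.prod_eq_one fun x hx => ?_
  obtain ⟨c, hc, rfl⟩ := List.mem_map.1 hx
  exact max_eq_left (hcoef c hc)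

variable {F : Type*} [Field F] [Algebra Qbar F] [IsFunctionField Qbar F]

variable {k : IntermediateField ℚ Qbar}

/-- Descent data for one divisible class. -/
theorem exists_hom_of_two_nsmul (B : Base Qbar F) (ρ : (Qbar ≃ₐ[k] Qbar) →* SemilinearAut Qbar F)
    (hρ : ∀ σ a, baseAut (ρ σ) a = σ a) (hfix : ∀ σ, B.Fixes (ρ σ)) [FiniteDimensional ℚ k]
    (htfin : {c : Pic0 Qbar F | 2 • c = 0}.Finite)
    (htfix : ∀ σ (c : Pic0 Qbar F), 2 • c = 0 → ρ σ • c = c) :
    ∃ (S : Finset Nat.Primes) (d : ℕ), ∀ y : Pic0 Qbar F, 2 • y ∈ fixedClasses ⇑ρ →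
      (∃ E₀ : IntermediateField ℚ Qbar, FiniteDimensional ℚ E₀ ∧
        ∀ σ : Qbar ≃ₐ[k] Qbar, (∀ x ∈ E₀, σ x = x) → ρ σ • y = y) →
      ∃ M : IntermediateField ℚ Qbar, M.IsUnramifiedOutside S ∧ Module.finrank ℚ M ≤ d ∧
        ∀ σ : Qbar ≃ₐ[k] Qbar, (∀ x ∈ M, σ x = x) → ρ σ • y = y := by
  classical
  obtain ⟨Sk, hSk⟩ := Duality.Places.exists_isUnramifiedOutside k
  have hrep : ∀ τ : Pic0 Qbar F, ∃ z, Pic0.mk z = τ := Pic0.mk_surjective
  choose rep hrep' using hrep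
  have hC : ∀ τ : Pic0 Qbar F, ∃ C, IsBd C ∧ (τ ≠ 0 →
      ∀ (w : AbsoluteValue Qbar ℝ) (g : SemilinearAut Qbar F) (x : Z0 Qbar F), B.Fixes g →
      IsNonarchimedean w → (∀ t, w (baseAut g t) = w t) →
      (∀ t, w t ≤ 1 → w (baseAut g t - t) < 1) → C w = 1 →
      Pic0.mk x - g • Pic0.mk x ≠ τ) := by
    intro τ
    rcases eq_or_ne τ 0 with hτ | hτ
    · exact ⟨fun _ => 1, IsBd.one, fun h => absurd hτ h⟩
    have hz : ((rep τ : Z0 Qbar F) : Divisor Qbar F) ∉ Divisor.principal (K := Qbar) (F := F) := by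
      intro h
      apply hτ
      rw [← hrep' τ]
      exact (QuotientAddGroup.eq_zero_iff _).mpr h
    obtain ⟨C, hC, h⟩ := B.exists_bd_inertia hz
    refine ⟨C, hC, fun _ w g x h1 h2 h3 h4 h5 heq => h w g x h1 h2 h3 h4 h5 ?_⟩
    have : Pic0.mk (x - degZeroSMulHom g x) = Pic0.mk (rep τ) := by
      rw [hrep', ← heq, pic0_smul_mk]
      rfl
    have := sub_mem_principal_of_mk_eq this
    simpa using this
  choose C hCbd hCne using hC
  choose Sτ hSτ using fun τ => exists_finset_bd_eq_one (hCbd τ)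
  refine ⟨Sk ∪ htfin.toFinset.biUnion Sτ,
    Fintype.card (k →ₐ[ℚ] Qbar) * htfin.toFinset.card, fun y hy hlev => ?_⟩
  obtain ⟨E₀, hE₀, hE₀y⟩ := hlev
  -- the kernel
  let e := IntermediateField.fixingSubgroupEquiv k
  let δ : k.fixingSubgroup → Pic0 Qbar F := fun σ => ρ (e σ) • y - y
  have hδ2 : ∀ σ, 2 • δ σ = 0 := fun σ => by
    simp only [δ]
    rw [nsmul_sub, two_nsmul (ρ (e σ) • y), ← smul_add (ρ (e σ)) y y, ← two_nsmul y, hy (e σ),
      sub_self]
  have hδmul : ∀ σ τ, δ (σ * τ) = δ σ + δ τ := fun σ τ => by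
    have h1 : ρ (e σ) • δ τ = δ τ := htfix _ _ (hδ2 τ)
    simp only [δ, map_mul, mul_smul, smul_sub] at h1 ⊢
    calc ρ (e σ) • ρ (e τ) • y - y
        = (ρ (e σ) • ρ (e τ) • y - ρ (e σ) • y) + (ρ (e σ) • y - y) := by abel
      _ = _ := by rw [h1]; abel
  have hδ1 : δ 1 = 0 := by
    have := hδmul 1 1
    rw [mul_one] at this
    exact left_eq_add.mp this
  let U : Subgroup Γ :=
    { carrier := {σ | ∃ h : σ ∈ k.fixingSubgroup, δ ⟨σ, h⟩ = 0}
      one_mem' := ⟨one_mem _, hδ1⟩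
      mul_mem' := by
        rintro σ τ ⟨h, h'⟩ ⟨g, g'⟩
        exact ⟨mul_mem h g, by
          rw [show (⟨σ * τ, mul_mem h g⟩ : k.fixingSubgroup) = ⟨σ, h⟩ * ⟨τ, g⟩ from rfl, hδmul, h',
            g', add_zero]⟩
      inv_mem' := by
        rintro σ ⟨h, h'⟩
        refine ⟨inv_mem h, ?_⟩
        have := hδmul ⟨σ, h⟩ ⟨σ⁻¹, inv_mem h⟩
        rw [show (⟨σ, h⟩ : k.fixingSubgroup) * ⟨σ⁻¹, inv_mem h⟩ = 1 from
          Subtype.ext (mul_inv_cancel σ), hδ1, h', zero_add] at this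
        exact this.symm }
  have hUle : (k ⊔ E₀).fixingSubgroup ≤ U := fun σ hσ => by
    rw [IntermediateField.fixingSubgroup_sup] at hσ
    exact ⟨hσ.1, sub_eq_zero.2 (hE₀y _ fun x hx =>
      (IntermediateField.mem_fixingSubgroup_iff _ _).1 hσ.2 x hx)⟩
  set M := IntermediateField.fixedField U
  have hMle : M ≤ k ⊔ E₀ := by
    rw [← InfiniteGalois.fixedField_fixingSubgroup (k ⊔ E₀)]
    exact IntermediateField.fixedField_le hUle
  have hMU : M.fixingSubgroup = U :=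
    InfiniteGalois.fixingSubgroup_fixedField ⟨U, OpenSubgroup.isClosed
      ⟨_, Subgroup.isOpen_mono hUle (k ⊔ E₀).fixingSubgroup_isOpen⟩⟩
  have hMfin : FiniteDimensional ℚ M :=
    FiniteDimensional.of_injective (IntermediateField.inclusion hMle).toLinearMap
      (IntermediateField.inclusion hMle).injective
  refine ⟨M, ⟨hMfin, fun q hq A hA σ hσ => ?_⟩, ?_, fun σ hσ => ?_⟩
  · rw [hMU]
    rw [Finset.mem_union, not_or, Finset.mem_biUnion] at hq
    have hσk := hSk.2 q hq.1 A hA hσ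
    refine ⟨hσk, ?_⟩
    by_contra hne
    have : Fact (q : ℕ).Prime := ⟨q.2⟩
    obtain ⟨w, hna, hwA, hwA', hwσ⟩ := exists_absVal_of_place hA
    obtain ⟨hσA, hin⟩ := (Gal.mem_inertia_iff A σ).1 hσ
    obtain ⟨x, hx⟩ := Pic0.mk_surjective y
    set τ := δ ⟨σ, hσk⟩
    have hτ : τ ∈ htfin.toFinset := htfin.mem_toFinset.2 (hδ2 _)
    have hC1 : C τ w = 1 :=
      hSτ τ q (fun h => hq.2 ⟨τ, hτ, h⟩) A hA w hna hwA
    have hb : ∀ t, baseAut (ρ (e ⟨σ, hσk⟩)) t = σ t := fun t => hρ _ t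
    refine hCne τ hne w (ρ (e ⟨σ, hσk⟩)) x (hfix _) hna (fun t => by rw [hb]; exact hwσ σ hσA t)
      (fun t ht => by rw [hb]; exact (hwA' _).2 (hin t ((hwA t).1 ht))) hC1 ?_
    rw [hx, ← neg_sub]
    exact (eq_neg_of_add_eq_zero_left (by rw [← two_nsmul]; exact hδ2 _)).symm
  · let r : Γ → (k →ₐ[ℚ] Qbar) := fun σ => σ.toAlgHom.comp k.val
    let s := fun a : k →ₐ[ℚ] Qbar => if h : ∃ σ, r σ = a then h.choose else 1
    have hs : ∀ σ, (s (r σ))⁻¹ * σ ∈ k.fixingSubgroup := fun σ => by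
      rw [IntermediateField.mem_fixingSubgroup_iff]
      intro x hx
      have h : ∃ σ', r σ' = r σ := ⟨σ, rfl⟩
      have : r (s (r σ)) = r σ := by simp only [s, dif_pos h]; exact h.choose_spec
      have := DFunLike.congr_fun this ⟨x, hx⟩
      rw [AlgEquiv.mul_apply, AlgEquiv.aut_inv, AlgEquiv.symm_apply_eq]
      exact this.symm
    let lab : (M →ₐ[ℚ] Qbar) → (k →ₐ[ℚ] Qbar) × htfin.toFinset := fun b =>
      let σ := (closureLift b)
      (r σ, ⟨δ ⟨_, hs σ⟩, htfin.mem_toFinset.2 (hδ2 _)⟩)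
    have hinj : Function.Injective lab := by
      intro b b' h
      simp only [lab, Prod.mk.injEq, Subtype.mk.injEq] at h
      obtain ⟨h1, h2⟩ := h
      set σ := closureLift b
      set σ' := closureLift b'
      have hmem : ((s (r σ))⁻¹ * σ)⁻¹ * ((s (r σ'))⁻¹ * σ') ∈ M.fixingSubgroup := by
        rw [hMU]
        refine ⟨mul_mem (inv_mem (hs σ)) (hs σ'), ?_⟩
        have h3 := hδmul ⟨_, hs σ⟩ ⟨_, mul_mem (inv_mem (hs σ)) (hs σ')⟩
        rw [show (⟨_, hs σ⟩ : k.fixingSubgroup) * ⟨_, mul_mem (inv_mem (hs σ)) (hs σ')⟩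
          = ⟨_, hs σ'⟩ from Subtype.ext (mul_inv_cancel_left _ _), ← h2] at h3
        exact left_eq_add.mp h3
      rw [h1] at hmem
      rw [show ((s (r σ'))⁻¹ * σ)⁻¹ * ((s (r σ'))⁻¹ * σ') = σ⁻¹ * σ' by group,
        IntermediateField.mem_fixingSubgroup_iff] at hmem
      ext x
      have h4 := congrArg σ (hmem x x.2)
      rw [AlgEquiv.mul_apply, AlgEquiv.aut_inv, AlgEquiv.apply_symm_apply] at h4
      rw [← closureLift_apply b x, ← closureLift_apply b' x]
      exact h4.symm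
    rw [← AlgHom.card ℚ M Qbar, ← Fintype.card_coe htfin.toFinset, ← Fintype.card_prod]
    exact Fintype.card_le_of_injective lab hinj
  · have h : (e.symm σ : Γ) ∈ M.fixingSubgroup := by
      rw [IntermediateField.mem_fixingSubgroup_iff]; exact hσ
    rw [hMU] at h
    obtain ⟨h', h''⟩ := h
    have : ρ σ • y - y = 0 := by
      simpa [δ] using h''
    exact sub_eq_zero.1 this

/-- **Weak Mordell–Weil.** -/
theorem finiteIndex_two (B : Base Qbar F) (ρ : (Qbar ≃ₐ[k] Qbar) →* SemilinearAut Qbar F)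
    (hρ : ∀ σ a, baseAut (ρ σ) a = σ a) (hfix : ∀ σ, B.Fixes (ρ σ)) [FiniteDimensional ℚ k]
    (hdiv : (nsmulAddMonoidHom (α := Pic0 Qbar F) 2).range.FiniteIndex)
    (htfin : {c : Pic0 Qbar F | 2 • c = 0}.Finite)
    (htfix : ∀ σ (c : Pic0 Qbar F), 2 • c = 0 → ρ σ • c = c)
    (hlev : ∀ y : Pic0 Qbar F, ∃ E₀ : IntermediateField ℚ Qbar, FiniteDimensional ℚ E₀ ∧
        ∀ σ : Qbar ≃ₐ[k] Qbar, (∀ x ∈ E₀, σ x = x) → ρ σ • y = y) :
    (nsmulAddMonoidHom (α := fixedClasses ⇑ρ) 2).range.FiniteIndex := by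
  classical
  obtain ⟨S, d, hSd⟩ := exists_hom_of_two_nsmul B ρ hρ hfix htfin htfix
  obtain ⟨E, hE, hle⟩ := Gal.exists_isUnramifiedOutside_forall_le S d
  have : FiniteDimensional ℚ E := hE.1
  set H : AddSubgroup (fixedClasses ⇑ρ) :=
    (nsmulAddMonoidHom (α := Pic0 Qbar F) 2).range.addSubgroupOf (fixedClasses ⇑ρ) with hH
  have : (nsmulAddMonoidHom (α := Pic0 Qbar F) 2).range.FiniteIndex := hdiv
  set R := (nsmulAddMonoidHom (α := fixedClasses ⇑ρ) 2).range
  have hRH : R ≤ H := by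
    rintro _ ⟨c, rfl⟩
    exact ⟨c, rfl⟩
  choose y hy using fun c : H => (AddSubgroup.mem_addSubgroupOf.1 c.2)
  have hy' : ∀ c : H, 2 • y c = ((c : fixedClasses ⇑ρ) : Pic0 Qbar F) := hy
  have hmem : ∀ c : H, 2 • y c ∈ fixedClasses ⇑ρ := fun c => by
    rw [hy']; exact (c : fixedClasses ⇑ρ).2
  have h2 : ∀ (c : H) σ, 2 • (ρ σ • y c - y c) = 0 := fun c σ => by
    rw [nsmul_sub, two_nsmul (ρ σ • y c), ← smul_add (ρ σ) (y c) (y c), ← two_nsmul (y c), hmem c σ,
      sub_self]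
  let r : (Qbar ≃ₐ[k] Qbar) → (E →ₐ[ℚ] Qbar) := fun σ => (σ.restrictScalars ℚ).toAlgHom.comp E.val
  let rr : Set.range r → (Qbar ≃ₐ[k] Qbar) := fun a => a.2.choose
  let lab : H → (Set.range r → htfin.toFinset) := fun c a =>
    ⟨ρ (rr a) • y c - y c, htfin.mem_toFinset.2 (h2 c _)⟩
  have key : ∀ c c' : H, lab c = lab c' → (c : fixedClasses ⇑ρ) - c' ∈ R := by
    intro c c' h
    have hfixd : y c - y c' ∈ fixedClasses ⇑ρ := by
      intro σ
      have hval : ∀ c'' : H, ρ σ • y c'' - y c'' = ρ (rr ⟨r σ, σ, rfl⟩) • y c'' - y c'' := by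
        intro c''
        obtain ⟨M, hM, hMd, hMfix⟩ := hSd (y c'') (hmem c'') (hlev _)
        have hrs : r (rr ⟨r σ, σ, rfl⟩) = r σ := Exists.choose_spec (⟨σ, rfl⟩ : ∃ σ', r σ' = r σ)
        set σ' := rr ⟨r σ, σ, rfl⟩
        have hfx : ρ (σ'⁻¹ * σ) • y c'' = y c'' := hMfix _ fun x hx => by
          have h4 : σ' x = σ x := DFunLike.congr_fun hrs ⟨x, hle M hM hMd hx⟩
          rw [AlgEquiv.mul_apply, AlgEquiv.aut_inv, AlgEquiv.symm_apply_eq]
          exact h4.symm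
        conv_rhs => rw [← hfx, ← mul_smul, ← map_mul, mul_inv_cancel_left, hfx]
      have e := congrArg (fun g => ((g ⟨r σ, σ, rfl⟩ : htfin.toFinset) : Pic0 Qbar F)) h
      simp only [lab] at e
      rw [← hval, ← hval] at e
      rw [smul_sub]
      exact sub_eq_sub_iff_sub_eq_sub.mp e
    refine ⟨⟨_, hfixd⟩, Subtype.ext ?_⟩
    show 2 • (y c - y c') = _
    rw [nsmul_sub, hy', hy']
    rfl
  have : Finite (Set.range r → htfin.toFinset) := inferInstance
  have : Finite (H ⧸ R.addSubgroupOf H) := by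
    let pick : Set.range lab → H ⧸ R.addSubgroupOf H := fun a => ↑a.2.choose
    refine Finite.of_surjective pick fun q => ?_
    obtain ⟨c, rfl⟩ := QuotientAddGroup.mk_surjective q
    refine ⟨⟨lab c, c, rfl⟩, QuotientAddGroup.eq_iff_sub_mem.2 ?_⟩
    exact key _ _ (Exists.choose_spec (⟨c, rfl⟩ : ∃ c', lab c' = lab c))
  have : (R.addSubgroupOf H).FiniteIndex := AddSubgroup.finiteIndex_of_finite_quotient
  refine ⟨?_⟩
  rw [← AddSubgroup.relIndex_mul_index hRH]
  exact mul_ne_zero (AddSubgroup.FiniteIndex.index_ne_zero (H := R.addSubgroupOf H))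
    (AddSubgroup.FiniteIndex.index_ne_zero (H := H))

end Fermat.Agent.MW
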